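import Fermat.Agent.Eisenstein.LevelP
import Mathlib.NumberTheory.ModularForms.EisensteinSeries.E2.Transform
import Mathlib.NumberTheory.ModularForms.EisensteinSeries.E2.MDifferentiable
import Fermat.Prelude.Def_FLTPrelim_Modularity

/-!
The weight two Eisenstein series `p E₂(pτ) - E₂(τ)` of prime level `p` and its `q`-expansion
`(p - 1) + 24 ∑ σ'(m) qᵐ`, `σ'(m)` the sum of the divisors of `m` prime to `p`.
-/

set_option autoImplicit false

noncomputable section

open UpperHalfPlane ModularForm CongruenceSubgroup EisensteinSeries Matrix.SpecialLinearGroup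
open ArithmeticFunction
open scoped MatrixGroups ModularForm Manifold ArithmeticFunction.sigma Real

namespace Fermat.Agent.Eisenstein

/-- The sum of the divisors of `m` prime to `p`. -/
def sigmaPrime (p m : ℕ) : ℕ := ∑ d ∈ m.divisors.filter (fun d => ¬ p ∣ d), d

theorem sigma_one_split {p : ℕ} (hp : p ≠ 0) {m : ℕ} (hm : m ≠ 0) :
    σ 1 m = sigmaPrime p m + if p ∣ m then p * σ 1 (m / p) else 0 := by
  rw [sigma_one_apply, sigmaPrime, ← Finset.sum_filter_not_add_sum_filter m.divisors (p ∣ ·)]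
  congr 1
  split_ifs with h
  · rw [sigma_one_apply, Finset.mul_sum]
    refine (Finset.sum_nbij' (p * ·) (· / p) ?_ ?_ ?_ ?_ ?_).symm
    · intro d hd
      simp only [Finset.mem_filter, Nat.mem_divisors] at hd ⊢
      exact ⟨⟨(Nat.dvd_div_iff_mul_dvd h).mp hd.1, hm⟩, dvd_mul_right _ _⟩
    · intro d hd
      simp only [Finset.mem_filter, Nat.mem_divisors] at hd ⊢
      refine ⟨(Nat.dvd_div_iff_mul_dvd h).mpr ?_, fun h0 => hm (Nat.eq_zero_of_dvd_of_div_eq_zero h h0)⟩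
      rw [Nat.mul_div_cancel' hd.2]; exact hd.1.1
    · intro d _
      exact Nat.mul_div_cancel_left d (Nat.pos_of_ne_zero hp)
    · intro d hd
      exact Nat.mul_div_cancel' (Finset.mem_filter.mp hd).2
    · intro d _; rfl
  · refine Finset.sum_eq_zero fun d hd => ?_
    obtain ⟨hd, hpd⟩ := Finset.mem_filter.mp hd
    exact absurd (hpd.trans (Nat.dvd_of_mem_divisors hd)) h

variable {p : ℕ}

/-- `p E₂(pτ) - E₂(τ)`. -/
def eisFun (p : ℕ) : ℍ → ℂ := (E2 ∣[(2 : ℤ)] heckeDiagMatrix p) - E2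

theorem eisFun_apply (hp : p ≠ 0) (τ : ℍ) :
    eisFun p τ = (p : ℂ) * E2 (heckeDiagMatrix p • τ) - E2 τ := by
  rw [eisFun, Pi.sub_apply, slash_heckeDiagMatrix_apply 2 hp]
  norm_num

theorem D2_slash_heckeDiag (hp : p ≠ 0) {δ δ' : SL(2, ℤ)} (hc : (p : ℤ) * δ' 1 0 = δ 1 0)
    (hd : δ' 1 1 = δ 1 1) : (D2 δ' ∣[(2 : ℤ)] heckeDiagMatrix p) = D2 δ := by
  ext τ
  rw [slash_heckeDiagMatrix_apply 2 hp, D2, D2, ModularGroup.denom_apply,
    ModularGroup.denom_apply, coe_heckeDiagMatrix_smul hp, ← hc, hd]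
  push_cast
  norm_num
  ring_nf

theorem eisFun_slash_Gamma0 (hp : p ≠ 0) (δ : SL(2, ℤ)) (hδ : δ ∈ Gamma0 p) :
    eisFun p ∣[(2 : ℤ)] δ = eisFun p := by
  obtain ⟨δ', hc, -, hd, -, he⟩ := exists_heckeDiag_conj hp hδ
  have h1 : (E2 ∣[(2 : ℤ)] heckeDiagMatrix p) ∣[(2 : ℤ)] δ
      = (E2 ∣[(2 : ℤ)] δ') ∣[(2 : ℤ)] heckeDiagMatrix p := by
    rw [SL_slash, ← SlashAction.slash_mul, SL_slash, ← SlashAction.slash_mul]
    exact congrArg (E2 ∣[(2 : ℤ)] ·) he
  rw [eisFun, sub_eq_add_neg, SlashAction.add_slash, SlashAction.neg_slash, h1, E2_slash_action,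
    E2_slash_action, sub_eq_add_neg, SlashAction.add_slash, SlashAction.neg_slash,
    ModularForm.smul_slash, σ_heckeDiagMatrix, D2_slash_heckeDiag hp hc hd]
  simp only [ContinuousAlgEquiv.refl_apply]
  abel

theorem eisFun_slash_S (hp : p ≠ 0) :
    eisFun p ∣[(2 : ℤ)] (ModularGroup.S : SL(2, ℤ)) =
      (E2 ∣[(2 : ℤ)] heckeMatrix p 0) - E2 := by
  have h1 : (E2 ∣[(2 : ℤ)] heckeDiagMatrix p) ∣[(2 : ℤ)] (ModularGroup.S : SL(2, ℤ))
      = (E2 ∣[(2 : ℤ)] (ModularGroup.S : SL(2, ℤ))) ∣[(2 : ℤ)] heckeMatrix p 0 := by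
    rw [SL_slash, ← SlashAction.slash_mul, SL_slash, ← SlashAction.slash_mul]
    exact congrArg (E2 ∣[(2 : ℤ)] ·) (heckeDiag_mul_S hp)
  have h2 : (D2 ModularGroup.S ∣[(2 : ℤ)] heckeMatrix p 0) = D2 ModularGroup.S := by
    ext τ
    have hpC : (p : ℂ) ≠ 0 := Nat.cast_ne_zero.mpr hp
    rw [slash_heckeMatrix_apply 2 hp, D2_S, D2_S, coe_heckeMatrix_smul hp]
    have := UpperHalfPlane.ne_zero τ
    simp only [Nat.cast_zero, add_zero]
    field_simp
  rw [eisFun, sub_eq_add_neg, SlashAction.add_slash, SlashAction.neg_slash, h1, E2_slash_action,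
    sub_eq_add_neg, SlashAction.add_slash, SlashAction.neg_slash,
    ModularForm.smul_slash, σ_heckeMatrix, h2]
  simp only [ContinuousAlgEquiv.refl_apply]
  abel

theorem isBoundedAtImInfty_eisFun (hp : p ≠ 0) : IsBoundedAtImInfty (eisFun p) :=
  (isBoundedAtImInfty_E2.slash 2 (by simp [val_heckeDiagMatrix hp])).sub isBoundedAtImInfty_E2

theorem isBoundedAtImInfty_eisFun_slash_S (hp : p ≠ 0) :
    IsBoundedAtImInfty (eisFun p ∣[(2 : ℤ)] (ModularGroup.S : SL(2, ℤ))) := by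
  rw [eisFun_slash_S hp]
  exact (isBoundedAtImInfty_E2.slash 2 (by simp [val_heckeMatrix hp])).sub isBoundedAtImInfty_E2

/-- The Eisenstein series `p E₂(pτ) - E₂(τ)` as a modular form on `Γ₀(p)`. -/
def eisForm (hp : p.Prime) : ModularForm (Gamma0 p) 2 :=
  mkForm hp (eisFun p) ((E2_mdifferentiable.slash 2 _).sub E2_mdifferentiable)
    (eisFun_slash_Gamma0 hp.ne_zero) (isBoundedAtImInfty_eisFun hp.ne_zero)
    (isBoundedAtImInfty_eisFun_slash_S hp.ne_zero)

@[simp] theorem coe_eisForm (hp : p.Prime) : ⇑(eisForm hp) = eisFun p := rfl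

/-- The coefficients of `p E₂(pτ) - E₂(τ)`. -/
def eisCoeff (p m : ℕ) : ℂ := if m = 0 then (p : ℂ) - 1 else 24 * (sigmaPrime p m : ℂ)

theorem hasSum_E2 (z : ℍ) :
    HasSum (fun m : ℕ => (if m = 0 then 1 else -24 * σ 1 m : ℂ) •
      Function.Periodic.qParam 1 (z : ℂ) ^ m) (E2 z) := by
  simpa only [Function.Periodic.qParam, Complex.ofReal_one, div_one] using
    hasSum_qExpansion_E2 (z := z)

theorem hasSum_eisFun (hp : p ≠ 0) (τ : ℍ) :
    HasSum (fun m : ℕ => eisCoeff p m • Function.Periodic.qParam 1 (τ : ℂ) ^ m) (eisFun p τ) := by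
  have h1 := (hasSum_E2 (heckeDiagMatrix p • τ)).mul_left (p : ℂ)
  have hq : Function.Periodic.qParam 1 ((heckeDiagMatrix p • τ : ℍ) : ℂ)
      = Function.Periodic.qParam 1 (τ : ℂ) ^ p := by
    rw [coe_heckeDiagMatrix_smul hp, Function.Periodic.qParam, Function.Periodic.qParam,
      ← Complex.exp_nat_mul]
    congr 1
    ring
  rw [hq] at h1
  have h2 : HasSum (fun m : ℕ => (if p ∣ m then
      (p : ℂ) * (if m / p = 0 then 1 else -24 * (σ 1 (m / p) : ℂ)) else 0) *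
      Function.Periodic.qParam 1 (τ : ℂ) ^ m) ((p : ℂ) * E2 (heckeDiagMatrix p • τ)) := by
    refine ((mul_right_injective₀ hp).hasSum_iff ?_).mp ?_
    · intro m hm
      rw [if_neg, zero_mul]
      rintro ⟨c, rfl⟩
      exact hm ⟨c, rfl⟩
    · refine h1.congr_fun fun j => ?_
      simp only [Function.comp_apply, dvd_mul_right, if_true,
        Nat.mul_div_cancel_left j (Nat.pos_of_ne_zero hp), pow_mul, smul_eq_mul]
      ring
  rw [eisFun_apply hp]
  refine (h2.sub (hasSum_E2 τ)).congr_fun fun m => ?_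
  rw [smul_eq_mul, smul_eq_mul, eisCoeff]
  rcases eq_or_ne m 0 with rfl | hm
  · simp
  · rw [if_neg hm, if_neg hm, sigma_one_split hp hm]
    by_cases hd : p ∣ m
    · rw [if_pos hd, if_neg fun h0 => hm (Nat.eq_zero_of_dvd_of_div_eq_zero hd h0)]
      simp only [if_pos hd]
      push_cast
      ring
    · simp only [if_neg hd]
      push_cast
      ring

theorem qCoeff_eisForm (hp : p.Prime) (m : ℕ) :
    ModularFormClass.qCoeff (eisForm hp) m = eisCoeff p m := by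
  have : NeZero p := ⟨hp.ne_zero⟩
  exact (ModularFormClass.qExpansion_coeff_unique one_pos (by simp)
    (f := eisForm hp) (hasSum_eisFun hp.ne_zero) m).symm

theorem qCoeff_eisForm_zero (hp : p.Prime) :
    ModularFormClass.qCoeff (eisForm hp) 0 = (p : ℂ) - 1 := by
  rw [qCoeff_eisForm, eisCoeff, if_pos rfl]

theorem qCoeff_eisForm_of_ne_zero (hp : p.Prime) {m : ℕ} (hm : m ≠ 0) :
    ModularFormClass.qCoeff (eisForm hp) m = 24 * (sigmaPrime p m : ℂ) := by
  rw [qCoeff_eisForm, eisCoeff, if_neg hm]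

end Fermat.Agent.Eisenstein
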