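import Fermat.Agent.Periods.Integral
import Fermat.Agent.Eisenstein.EisensteinE

/-!
Duality for the weight two Hecke algebra of prime level: an Eisenstein character modulo `m`
is the reduction of an integral cusp form congruent to `σ'` modulo `m`.
-/

set_option autoImplicit false

noncomputable section

open CongruenceSubgroup ModularFormClass
open scoped MatrixGroups

namespace Fermat.Agent.Eisenstein

/-- `σ'(m q)` for a prime `q`. -/
theorem sigmaPrime_mul_prime {p : ℕ} (hp : p.Prime) {q : ℕ} (hq : q.Prime) {m : ℕ} (hm : m ≠ 0) :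
    sigmaPrime p (m * q) + (if ¬ q ∣ p ∧ q ∣ m then q * sigmaPrime p (m / q) else 0)
      = (if q ∣ p then 1 else q + 1) * sigmaPrime p m := by
  classical
  have hmq : m * q ≠ 0 := mul_ne_zero hm hq.ne_zero
  by_cases hqp : q ∣ p
  · obtain rfl : q = p := (Nat.prime_dvd_prime_iff_eq hq hp).mp hqp
    rw [if_neg (fun h => h.1 hqp), if_pos hqp, add_zero, one_mul]
    unfold sigmaPrime
    refine congrArg (Finset.sum · id) ?_
    ext d
    simp only [Finset.mem_filter, Nat.mem_divisors]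
    refine ⟨fun ⟨⟨h, _⟩, hd⟩ => ⟨⟨?_, hm⟩, hd⟩, fun ⟨⟨h, _⟩, hd⟩ => ⟨⟨h.mul_right q, hmq⟩, hd⟩⟩
    exact ((hq.coprime_iff_not_dvd.mpr hd).symm.dvd_of_dvd_mul_right h)
  · rw [if_neg hqp, add_mul, one_mul, Nat.add_comm (q * sigmaPrime p m)]
    set F := fun n : ℕ => n.divisors.filter fun d => ¬ p ∣ d with hF
    have hdef : ∀ n, sigmaPrime p n = ∑ d ∈ F n, d := fun n => rfl
    have hscale : ∀ n, q * sigmaPrime p n = ∑ d ∈ (F n).image (q * ·), d := by
      intro n
      rw [hdef, Finset.mul_sum, Finset.sum_image]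
      exact fun a _ b _ hab => Nat.eq_of_mul_eq_mul_left hq.pos hab
    have hnd : ∀ d, p ∣ q * d ↔ p ∣ d := fun d =>
      ⟨fun h => (hp.dvd_mul.mp h).resolve_left fun h' =>
        hqp ((Nat.prime_dvd_prime_iff_eq hp hq).mp h' ▸ dvd_refl q), fun h => h.mul_left q⟩
    have hU : F (m * q) = F m ∪ (F m).image (q * ·) := by
      ext d
      simp only [hF, Finset.mem_union, Finset.mem_filter, Finset.mem_image, Nat.mem_divisors]
      constructor
      · rintro ⟨⟨hd, -⟩, hpd⟩
        by_cases hqd : q ∣ d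
        · obtain ⟨e, rfl⟩ := hqd
          refine Or.inr ⟨e, ⟨⟨?_, hm⟩, fun he => hpd ((hnd e).mpr he)⟩, rfl⟩
          rw [mul_comm m] at hd
          exact Nat.dvd_of_mul_dvd_mul_left hq.pos hd
        · exact Or.inl ⟨⟨((hq.coprime_iff_not_dvd.mpr hqd).symm.dvd_of_dvd_mul_right hd), hm⟩, hpd⟩
      · rintro (⟨⟨hd, -⟩, hpd⟩ | ⟨e, ⟨⟨he, -⟩, hpe⟩, rfl⟩)
        · exact ⟨⟨hd.mul_right q, hmq⟩, hpd⟩
        · exact ⟨⟨by rw [mul_comm m]; exact mul_dvd_mul_left q he, hmq⟩, fun h => hpe ((hnd e).mp h)⟩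
    have hI : (∑ d ∈ F m ∩ (F m).image (q * ·), d) =
        if ¬ q ∣ p ∧ q ∣ m then q * sigmaPrime p (m / q) else 0 := by
      by_cases hqm : q ∣ m
      · rw [if_pos ⟨hqp, hqm⟩, hscale]
        refine congrArg (Finset.sum · id) ?_
        ext d
        simp only [hF, Finset.mem_inter, Finset.mem_filter, Finset.mem_image, Nat.mem_divisors]
        constructor
        · rintro ⟨⟨⟨hd, -⟩, hpd⟩, e, -, rfl⟩
          refine ⟨e, ⟨⟨(Nat.dvd_div_iff_mul_dvd hqm).mpr hd, ?_⟩, fun he => hpd ((hnd e).mpr he)⟩, rfl⟩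
          exact fun h0 => hm (Nat.eq_zero_of_dvd_of_div_eq_zero hqm h0)
        · rintro ⟨e, ⟨⟨he, -⟩, hpe⟩, rfl⟩
          have hd : q * e ∣ m := (Nat.dvd_div_iff_mul_dvd hqm).mp he
          exact ⟨⟨⟨hd, hm⟩, fun h => hpe ((hnd e).mp h)⟩, e,
            ⟨⟨(dvd_mul_left e q).trans hd, hm⟩, hpe⟩, rfl⟩
      · rw [if_neg fun h => hqm h.2]
        refine Finset.sum_eq_zero fun d hd => absurd ?_ hqm
        simp only [hF, Finset.mem_inter, Finset.mem_filter, Finset.mem_image, Nat.mem_divisors] at hd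
        obtain ⟨⟨⟨hdm, -⟩, -⟩, e, -, rfl⟩ := hd
        exact (dvd_mul_right q e).trans hdm
    rw [← hI, hscale, hdef (m * q), hU, Finset.sum_union_inter, hdef m]

variable {p : ℕ} [Fact p.Prime] {R : Type*} [CommRing R]

/-- An Eisenstein character sends a coefficient operator to `σ'`. -/
theorem exists_coeffOp_eisenstein (χ : CuspForm.heckeAlgebra p 2 ∅ →+* R)
    (hT : ∀ (q : ℕ) (hq : q.Prime) (hqp : ¬ q ∣ p),
      χ (CuspForm.heckeAlgebra.T hq hqp (Set.notMem_empty q)) = (q : R) + 1)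
    (hU : ∀ (q : ℕ) (hq : q.Prime) (hqp : q ∣ p),
      χ (CuspForm.heckeAlgebra.U hq hqp (Set.notMem_empty q)) = 1) (n : ℕ) :
    ∃ t : CuspForm.heckeAlgebra p 2 ∅,
      (∀ f : CuspForm (Gamma0 p) 2,
        qCoeff f n = qCoeff (⇑((t : Module.End ℂ (CuspForm (Gamma0 p) 2)) f)) 1) ∧
      χ t = (sigmaPrime p n : R) := by
  have hp : p.Prime := Fact.out
  induction n using Periods.prime_mul_induction with
  | h0 =>
    refine ⟨0, fun f => ?_, by simp [sigmaPrime]⟩
    rw [Periods.qCoeff_zero_eq_zero, ZeroMemClass.coe_zero, LinearMap.zero_apply]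
    exact (map_zero (Periods.qCoeffLin p 1)).symm
  | h1 => exact ⟨1, fun f => rfl, by simp [sigmaPrime, Finset.filter_singleton, hp.ne_one]⟩
  | hmul q m hq hm ih =>
    obtain ⟨t, htf, htχ⟩ := ih m le_rfl
    have hs := congrArg (Nat.cast : ℕ → R) (sigmaPrime_mul_prime hp hq hm.ne')
    by_cases hqp : q ∣ p
    · refine ⟨t * CuspForm.heckeAlgebra.U hq hqp (Set.notMem_empty q), fun f => ?_, ?_⟩
      · rw [← Periods.qCoeff_heckeULin hq hqp f m, htf]
        rfl
      · rw [map_mul, htχ, hU, mul_one]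
        simp only [hqp, not_true_eq_false, false_and, if_false, if_true, add_zero, one_mul] at hs
        exact hs.symm
    · by_cases hqm : q ∣ m
      · obtain ⟨s, hsf, hsχ⟩ := ih (m / q) (Nat.div_le_self m q)
        refine ⟨t * CuspForm.heckeAlgebra.T hq hqp (Set.notMem_empty q) - q • s, fun f => ?_, ?_⟩
        · have h := Periods.qCoeff_heckeTLin hq hqp f m
          rw [if_pos hqm] at h
          simp only [← Periods.qCoeffLin_apply] at h hsf htf ⊢
          rw [AddSubgroupClass.coe_sub, LinearMap.sub_apply, map_sub, Subalgebra.coe_mul,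
            Module.End.mul_apply, ← htf, AddSubmonoidClass.coe_nsmul, LinearMap.smul_apply,
            map_nsmul, ← hsf, CuspForm.heckeAlgebra.coe_T, h, nsmul_eq_mul]
          ring
        · rw [map_sub, map_mul, map_nsmul, htχ, hsχ, hT, nsmul_eq_mul]
          simp only [hqp, hqm, not_false_eq_true, true_and, if_false, if_true] at hs
          push_cast at hs
          linear_combination -hs
      · refine ⟨t * CuspForm.heckeAlgebra.T hq hqp (Set.notMem_empty q), fun f => ?_, ?_⟩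
        · have h := Periods.qCoeff_heckeTLin hq hqp f m
          rw [if_neg hqm, add_zero] at h
          rw [← h, htf]
          rfl
        · rw [map_mul, htχ, hT]
          simp only [hqp, hqm, and_false, if_false, add_zero] at hs
          push_cast at hs
          linear_combination -hs

/-- An Eisenstein character modulo `m` gives an integral cusp form congruent to `σ'`. -/
theorem exists_congruent_form {m : ℕ} (χ : CuspForm.heckeAlgebra p 2 ∅ →+* ZMod m)
    (hT : ∀ (q : ℕ) (hq : q.Prime) (hqp : ¬ q ∣ p),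
      χ (CuspForm.heckeAlgebra.T hq hqp (Set.notMem_empty q)) = (q : ZMod m) + 1)
    (hU : ∀ (q : ℕ) (hq : q.Prime) (hqp : q ∣ p),
      χ (CuspForm.heckeAlgebra.U hq hqp (Set.notMem_empty q)) = 1) :
    ∃ (f : CuspForm (Gamma0 p) 2) (a : ℕ → ℤ), (∀ n, qCoeff f n = (a n : ℂ)) ∧
      ∀ n, (a n : ZMod m) = (sigmaPrime p n : ZMod m) := by
  classical
  obtain ⟨d, t, fb, hfb⟩ := Periods.exists_dual_forms p (Periods.hasHeckeLattice p)
  choose r hr using fun j => ZMod.intCast_surjective (χ (t j))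
  choose T hTf hTχ using exists_coeffOp_eisenstein χ hT hU
  let g : CuspForm (Gamma0 p) 2 := ∑ i, (r i : ℂ) • fb i
  have hj : ∀ j, Periods.qCoeffLin p 1
      (((t j : CuspForm.heckeAlgebra p 2 ∅) : Module.End ℂ _) g) = (r j : ℂ) := fun j => by
    simp [g, map_sum, hfb]
  refine ⟨g, fun n => ∑ i, t.repr (T n) i * r i, fun n => ?_, fun n => ?_⟩
  · rw [hTf n g, ← Periods.qCoeffLin_apply]
    conv_lhs => rw [← t.sum_repr (T n)]
    simp only [AddSubmonoidClass.coe_finsetSum, LinearMap.coe_sum, Finset.sum_apply, map_sum,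
      Int.cast_sum, Int.cast_mul]
    refine Finset.sum_congr rfl fun i _ => ?_
    rw [Subalgebra.coe_smul, LinearMap.smul_apply, ← Int.cast_smul_eq_zsmul ℂ, map_smul, hj,
      smul_eq_mul]
  · rw [← hTχ n]
    conv_rhs => rw [← t.sum_repr (T n)]
    simp [map_sum, hr, map_zsmul]

end Fermat.Agent.Eisenstein

end
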