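import Fermat.Agent.Eisenstein.LowerBound
import Fermat.Agent.Eisenstein.Duality
import Fermat.Prelude.Def_CuspForm_HeckeLocal
import Mathlib.RingTheory.Ideal.Quotient.Operations
import Mathlib.RingTheory.ZMod

/-!
The Eisenstein quotient of prime level, given the bound on Eisenstein congruences.
-/

set_option autoImplicit false

noncomputable section

open CongruenceSubgroup ModularCurve CuspForm ModularFormClass

namespace Fermat.Agent.Eisenstein

variable (p : ℕ) [Fact p.Prime]

theorem heckeEvalForms_surjective : Function.Surjective (heckeEvalForms p 2) := by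
  intro t
  have hgen : ∀ ℓ : Nat.Primes, ((heckeFormsGen p 2 ℓ : heckeAlgebra p 2 ∅) :
      Module.End ℂ (CuspForm (Gamma0 p) 2)) ∈
      ((heckeAlgebra p 2 ∅).val.comp (MvPolynomial.aeval (heckeFormsGen p 2))).range :=
    fun ℓ => ⟨MvPolynomial.X ℓ, congrArg Subtype.val (MvPolynomial.aeval_X _ ℓ)⟩
  have h : heckeAlgebra p 2 ∅ ≤
      ((heckeAlgebra p 2 ∅).val.comp (MvPolynomial.aeval (heckeFormsGen p 2))).range := by
    refine Algebra.adjoin_le ?_
    rintro T (⟨l, hl, hlp, -, rfl⟩ | ⟨q, hqp, hq, -, rfl⟩)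
    · have := hgen ⟨l, hl⟩
      rwa [heckeFormsGen_of_not_dvd (ℓ := ⟨l, hl⟩) hlp] at this
    · have := hgen ⟨q, hq⟩
      rwa [heckeFormsGen_of_dvd (q := ⟨q, hq⟩) hqp] at this
  obtain ⟨P, hP⟩ := h t.2
  exact ⟨P, Subtype.ext hP⟩

/-- The quotient by the image of the kernel of a character with values in `ℤ` is cyclic. -/
theorem exists_cyclic_quotient {σ A : Type*} [CommRing A] (ev : MvPolynomial σ ℤ →+* A)
    (hev : Function.Surjective ev) (e : σ → ℤ) :
    ∃ (m : ℕ) (χ : A →+* ZMod m),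
      Nat.card (A ⧸ Ideal.map ev (RingHom.ker (MvPolynomial.aeval (R := ℤ) e))) = m ∧
      (∀ P, χ (ev P) = ((MvPolynomial.aeval e P : ℤ) : ZMod m)) ∧
      ∃ P, MvPolynomial.aeval e P = 0 ∧ ev P = (m : A) := by
  set I := Ideal.map ev (RingHom.ker (MvPolynomial.aeval (R := ℤ) e)) with hI
  let π : MvPolynomial σ ℤ →+* A ⧸ I := (Ideal.Quotient.mk I).comp ev
  have hπ : Function.Surjective π := Ideal.Quotient.mk_surjective.comp hev
  have hscal : ∀ P, π P = ((MvPolynomial.aeval e P : ℤ) : A ⧸ I) := by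
    intro P
    rw [← map_intCast π, ← sub_eq_zero, ← map_sub]
    refine Ideal.Quotient.eq_zero_iff_mem.mpr (Ideal.mem_map_of_mem _ ?_)
    rw [RingHom.mem_ker, map_sub, map_intCast, Int.cast_id, sub_self]
  let κ : ℤ →+* A ⧸ I := Int.castRingHom _
  have hκ : Function.Surjective κ := fun x => by
    obtain ⟨P, rfl⟩ := hπ x
    exact ⟨_, (hscal P).symm⟩
  obtain ⟨z, hz⟩ := (IsPrincipalIdealRing.principal (RingHom.ker κ)).principal
  let E : (A ⧸ I) ≃+* ZMod z.natAbs :=
    (RingHom.quotientKerEquivOfSurjective hκ).symm.trans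
      ((Ideal.quotEquivOfEq hz).trans (Int.quotientSpanEquivZMod z))
  refine ⟨z.natAbs, E.toRingHom.comp (Ideal.Quotient.mk I), ?_, fun P => ?_, ?_⟩
  · rw [Nat.card_congr E.toEquiv, Nat.card_zmod]
  · change E (π P) = _
    rw [hscal, map_intCast]
  · have h0 : Ideal.Quotient.mk I (z.natAbs : A) = 0 := by
      refine E.injective ?_
      rw [map_natCast, map_natCast, map_zero, ZMod.natCast_self]
    obtain ⟨P, hP, hPm⟩ := (Ideal.mem_map_iff_of_surjective ev hev).mp
      (Ideal.Quotient.eq_zero_iff_mem.mp h0)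
    exact ⟨P, hP, hPm⟩

/-- The Eisenstein quotient has `eisensteinNumerator p` elements once Eisenstein congruences
are bounded by it. -/
theorem natCard_eisenstein_quotient
    (hbound : ∀ (m : ℕ) (f : CuspForm (Gamma0 p) 2) (a : ℕ → ℤ),
      (∀ n, qCoeff f n = (a n : ℂ)) → (∀ n, (a n : ZMod m) = (sigmaPrime p n : ZMod m)) →
      m ∣ eisensteinNumerator p) :
    Nat.card (↥(heckeLatticeAlgebra p ∅) ⧸
        Ideal.map ((latticeRestrictHom p ∅).toRingHom.comp (heckeEvalForms p 2))
          (eisensteinIdeal p)) = eisensteinNumerator p := by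
  have hbij := latticeRestrictHom_bijective p ∅ (Periods.hasIntegralStructure_two p)
  obtain ⟨m, χ, hcard, hχ, P, hP, hPm⟩ := exists_cyclic_quotient
    ((latticeRestrictHom p ∅).toRingHom.comp (heckeEvalForms p 2))
    (hbij.2.comp (heckeEvalForms_surjective p)) (eisensteinSystem p)
  refine hcard.trans (Nat.dvd_antisymm ?_ ?_)
  · have hχ' : ∀ P, χ.comp (latticeRestrictHom p ∅).toRingHom (heckeEvalForms p 2 P) =
        ((MvPolynomial.aeval (eisensteinSystem p) P : ℤ) : ZMod m) := hχ
    obtain ⟨f, a, hfa, hcong⟩ := exists_congruent_form (χ.comp (latticeRestrictHom p ∅).toRingHom)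
      (fun q hq hqp => by
        obtain ⟨ℓ, rfl⟩ : ∃ ℓ : Nat.Primes, (ℓ : ℕ) = q := ⟨⟨q, hq⟩, rfl⟩
        have h := hχ' (heckeGen ℓ)
        rw [heckeEvalForms_heckeGen_of_not_dvd hqp, aeval_heckeGen,
          eisensteinSystem_of_not_dvd hqp] at h
        rw [h]
        push_cast
        ring)
      (fun q hq hqp => by
        obtain ⟨ℓ, rfl⟩ : ∃ ℓ : Nat.Primes, (ℓ : ℕ) = q := ⟨⟨q, hq⟩, rfl⟩
        have h := hχ' (heckeGen ℓ)
        rw [heckeEvalForms_heckeGen_of_dvd hqp, aeval_heckeGen,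
          eisensteinSystem_of_dvd hqp, Int.cast_one] at h
        exact h)
    exact hbound m f a hfa hcong
  · have hker : heckeEvalForms p 2 (P - (m : HeckeAlg)) = 0 := by
      refine hbij.1 ?_
      rw [map_zero, map_sub, map_sub, sub_eq_zero]
      simpa using hPm
    have hd := eisensteinNumerator_dvd_of_eval_eq_zero hker
    rw [map_sub, hP, map_natCast, zero_sub, dvd_neg] at hd
    exact Int.natCast_dvd_natCast.mp hd

end Fermat.Agent.Eisenstein

end
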