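import Fermat.Agent.Eisenstein.IntQ
import Fermat.Agent.Modular.JFun
import Mathlib.NumberTheory.ModularForms.LevelOne.DimensionFormula
import Mathlib.NumberTheory.ModularForms.CuspFormSubmodule

/-!
Level one forms with integral expansions: the series of `E₄`, `E₆`, `Δ`, and the integral
decomposition `G = E_e ∑ gⱼ Δʲ E₄^(3(s-j))` in weight `12 s + e`.
-/

set_option autoImplicit false

noncomputable section

open UpperHalfPlane ModularForm CongruenceSubgroup Matrix.SpecialLinearGroup
open scoped MatrixGroups ModularForm Manifold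

namespace Fermat.Agent.Eisenstein

/-- The series of `E₆`. -/
def serE6 : PowerSeries ℤ :=
  PowerSeries.mk fun n => if n = 0 then 1 else -504 * ∑ d ∈ n.divisors, (d : ℤ) ^ 5

/-- The series of `E₄`. -/
def serE4 : PowerSeries ℤ := ModularCurve.eisenstein4

/-- The series of `Δ`. -/
def serD : PowerSeries ℤ := PowerSeries.X * ModularCurve.dedekindEtaUnit

theorem constantCoeff_serE4 : PowerSeries.constantCoeff serE4 = 1 :=
  ModularCurve.constantCoeff_eisenstein4

theorem constantCoeff_serE6 : PowerSeries.constantCoeff serE6 = 1 := by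
  rw [← PowerSeries.coeff_zero_eq_constantCoeff_apply, serE6, PowerSeries.coeff_mk, if_pos rfl]

theorem intQ_E4 : IntQ ModularForm.E₄ serE4 := Modular.hasQExp_eisenstein4

theorem bernoulli_six : bernoulli 6 = 1 / 42 := by
  rw [bernoulli_eq_bernoulli'_of_ne_one (by norm_num), bernoulli'_def]
  norm_num [Finset.sum_range_succ, bernoulli'_four, Nat.choose_succ_succ, bernoulli'_zero,
    bernoulli'_one, bernoulli'_two, bernoulli'_three, bernoulli'_eq_zero_of_odd (n := 5) (by decide)]

theorem intQ_E6 : IntQ ModularForm.E₆ serE6 := by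
  refine IntQ.of_qCoeff one_mem_strictPeriods_SL _ fun n => ?_
  rw [ModularFormClass.qCoeff, EisensteinSeries.E_qExpansion_coeff (by norm_num) ⟨3, rfl⟩,
    bernoulli_six, serE6, PowerSeries.coeff_mk, ArithmeticFunction.sigma_apply]
  split_ifs with hn
  · simp
  · push_cast
    norm_num

theorem intQ_discriminant : IntQ ModularForm.discriminant serD := by
  have h := Modular.hasQExp_discriminant
  have e : Modular.intSeriesC serD =
      HahnSeries.single 1 1 * Modular.intSeriesC ModularCurve.dedekindEtaUnit := by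
    rw [serD, map_mul]
    congr 1
    simp [Modular.intSeriesC_apply, HahnSeries.ofPowerSeries_X]
  rw [IntQ, e]
  exact h

theorem intQ_discriminantForm : IntQ CuspForm.discriminant serD := by
  rw [CuspForm.coe_discriminant]; exact intQ_discriminant

/-- Division of an integral series with zero constant term by the series of `Δ`. -/
theorem exists_eq_serD_mul {P : PowerSeries ℤ} (h : PowerSeries.constantCoeff P = 0) :
    ∃ Q, P = serD * Q := by
  obtain ⟨R, rfl⟩ := PowerSeries.X_dvd_iff.mpr h
  refine ⟨ModularCurve.dedekindEtaUnitInv * R, ?_⟩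
  rw [serD, mul_assoc, ← mul_assoc ModularCurve.dedekindEtaUnit,
    ModularCurve.dedekindEtaUnit_mul_inv, one_mul]

theorem serD_ne_zero : serD ≠ 0 := by
  intro h
  have := congrArg (PowerSeries.coeff 1) h
  simp [serD, PowerSeries.coeff_succ_X_mul, ModularCurve.constantCoeff_dedekindEtaUnit] at this

/-- `E_e` with only the zero cusp form in weight `e`: the seeds of the decomposition. -/
structure Seed (e : ℕ) where
  form : ModularForm 𝒮ℒ (e : ℤ)
  ser : PowerSeries ℤ
  intQ : IntQ form ser
  const : PowerSeries.constantCoeff ser = 1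
  cusp : ∀ f : CuspForm 𝒮ℒ (e : ℤ), f = 0

def seed0 : Seed 0 where
  form := ModularForm.mcast (by simp) (1 : ModularForm 𝒮ℒ 0)
  ser := 1
  intQ := IntQ.one.congr fun τ => by simp
  const := map_one _
  cusp := rank_zero_iff_forall_zero.mp (CuspForm.rank_eq_zero_of_weight_lt_twelve (by norm_num))

def seed4 : Seed 4 where
  form := ModularForm.E₄
  ser := serE4
  intQ := intQ_E4
  const := constantCoeff_serE4
  cusp := rank_zero_iff_forall_zero.mp (CuspForm.rank_eq_zero_of_weight_lt_twelve (by norm_num))

def seed6 : Seed 6 where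
  form := ModularForm.E₆
  ser := serE6
  intQ := intQ_E6
  const := constantCoeff_serE6
  cusp := rank_zero_iff_forall_zero.mp (CuspForm.rank_eq_zero_of_weight_lt_twelve (by norm_num))

theorem cuspForm_fourteen_eq_zero (f : CuspForm 𝒮ℒ 14) : f = 0 := by
  have h : Module.rank ℂ (CuspForm 𝒮ℒ 14) = 0 :=
    CuspForm.discriminantEquiv.rank_eq.trans levelOne_weight_two_rank_zero
  exact rank_zero_iff_forall_zero.mp h f

def seed14 : Seed 14 where
  form := ModularForm.mcast (by norm_num) ((ModularForm.E₄.mul ModularForm.E₄).mul ModularForm.E₆)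
  ser := serE4 * serE4 * serE6
  intQ := ((intQ_E4.mul intQ_E4).mul intQ_E6).congr fun τ => rfl
  const := by simp [constantCoeff_serE4, constantCoeff_serE6]
  cusp := cuspForm_fourteen_eq_zero

theorem Seed.exists_monomial {e : ℕ} (E : Seed e) (s : ℕ) :
    ∃ F : ModularForm 𝒮ℒ ((12 * s + e : ℕ) : ℤ), IntQ F (E.ser * (serE4 ^ 3) ^ s) := by
  induction s with
  | zero => exact ⟨ModularForm.mcast (by simp) E.form, by simpa using E.intQ⟩
  | succ s ih =>
    obtain ⟨F, hF⟩ := ih
    refine ⟨ModularForm.mcast (by push_cast; ring)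
      (((ModularForm.E₄.mul ModularForm.E₄).mul ModularForm.E₄).mul F), ?_⟩
    have := ((intQ_E4.mul intQ_E4).mul intQ_E4).mul hF
    rw [show serE4 * serE4 * serE4 * (E.ser * (serE4 ^ 3) ^ s) =
      E.ser * (serE4 ^ 3) ^ (s + 1) by ring] at this
    exact this.congr fun τ => rfl

theorem intQ_sub_smul {k : ℤ} {G F : ModularForm 𝒮ℒ k} {PG PF : PowerSeries ℤ}
    (hG : IntQ G PG) (hF : IntQ F PF) (c : ℤ) :
    IntQ (⇑(G - (c : ℂ) • F)) (PG - PowerSeries.C c * PF) :=
  (hG.sub (hF.smul c)).congr fun τ => by simp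

theorem qExpansion_coeff_zero_eq_zero {k : ℤ} {G : ModularForm 𝒮ℒ k} {P : PowerSeries ℤ}
    (hG : IntQ G P) (h : PowerSeries.constantCoeff P = 0) :
    (qExpansion 1 G).coeff 0 = 0 := by
  have := IntQ.qCoeff_eq one_mem_strictPeriods_SL hG 0
  rwa [ModularFormClass.qCoeff, PowerSeries.coeff_zero_eq_constantCoeff_apply (R := ℤ), h,
    Int.cast_zero] at this

theorem map_eq_qExpansion {k : ℤ} {G : ModularForm 𝒮ℒ k} {P : PowerSeries ℤ} (hG : IntQ G P) :
    qExpansion 1 G = P.map (Int.castRingHom ℂ) := by
  ext m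
  rw [PowerSeries.coeff_map]
  exact IntQ.qCoeff_eq one_mem_strictPeriods_SL hG m

theorem intQ_div_discriminant {k : ℤ} {G : ModularForm 𝒮ℒ k} {Q : PowerSeries ℤ}
    (hG : IntQ G (serD * Q)) (h0 : (qExpansion 1 G).coeff 0 = 0) :
    IntQ (CuspForm.discriminantEquiv (toCuspForm G h0)) Q := by
  refine IntQ.of_qCoeff one_mem_strictPeriods_SL _ fun n => ?_
  have h1 := ModularForm.qExpansion_eq_qExpansion_discriminant_mul G h0
  have eD : qExpansion 1 ModularForm.discriminant = serD.map (Int.castRingHom ℂ) := by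
    ext m
    rw [← CuspForm.coe_discriminant]
    rw [PowerSeries.coeff_map]
    exact IntQ.qCoeff_eq one_mem_strictPeriods_SL intQ_discriminantForm m
  rw [eD, map_eq_qExpansion hG, map_mul] at h1
  have h2 := mul_left_cancel₀ (fun h => serD_ne_zero
    (PowerSeries.map_injective _ Int.cast_injective (h.trans (map_zero _).symm))) h1
  rw [ModularFormClass.qCoeff, ← h2, PowerSeries.coeff_map]
  rfl

/-- Integral decomposition of level one forms. -/
theorem Seed.decompose {e : ℕ} (E : Seed e) :
    ∀ (s : ℕ) (G : ModularForm 𝒮ℒ ((12 * s + e : ℕ) : ℤ)) (PG : PowerSeries ℤ), IntQ G PG →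
      ∃ g : ℕ → ℤ, PG = E.ser *
        ∑ j ∈ Finset.range (s + 1), PowerSeries.C (g j) * serD ^ j * (serE4 ^ 3) ^ (s - j)
  | 0, G, PG, hG => by
    refine ⟨fun _ => PowerSeries.constantCoeff PG, ?_⟩
    have hd := intQ_sub_smul (G := ModularForm.mcast (show ((12 * 0 + e : ℕ) : ℤ) = e by simp) G)
      (hG.congr fun τ => rfl) E.intQ (PowerSeries.constantCoeff PG)
    have hz := E.cusp (toCuspForm _ (qExpansion_coeff_zero_eq_zero hd (by simp [E.const])))
    have := hd.unique (IntQ.zero.congr fun τ => by
      have := DFunLike.congr_fun hz τ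
      rw [toCuspForm_apply] at this
      simpa using this.symm)
    rw [sub_eq_zero] at this
    rw [Finset.sum_range_one]
    simpa [mul_comm] using this
  | s + 1, G, PG, hG => by
    obtain ⟨F, hF⟩ := E.exists_monomial (s + 1)
    have hd := intQ_sub_smul hG hF (PowerSeries.constantCoeff PG)
    have hcc : PowerSeries.constantCoeff (PG - PowerSeries.C (PowerSeries.constantCoeff PG) *
        (E.ser * (serE4 ^ 3) ^ (s + 1))) = 0 := by
      simp [E.const, constantCoeff_serE4]
    obtain ⟨Q, hQ⟩ := exists_eq_serD_mul hcc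
    have h0 := qExpansion_coeff_zero_eq_zero hd hcc
    rw [hQ] at hd
    obtain ⟨g, hg⟩ := Seed.decompose E s (ModularForm.mcast (by push_cast; ring)
      (CuspForm.discriminantEquiv (toCuspForm _ h0))) Q
      ((intQ_div_discriminant hd h0).congr fun τ => rfl)
    refine ⟨fun j => if j = 0 then PowerSeries.constantCoeff PG else g (j - 1), ?_⟩
    rw [sub_eq_iff_eq_add] at hQ
    refine hQ.trans ?_
    rw [Finset.sum_range_succ', hg, mul_add, Finset.mul_sum, Finset.mul_sum, Finset.mul_sum]
    congr 1
    · refine Finset.sum_congr rfl fun j _ => ?_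
      simp only [Nat.succ_ne_zero, if_false, Nat.succ_sub_succ, Nat.sub_zero]
      ring
    · simp only [if_true, pow_zero, Nat.sub_zero]
      ring

end Fermat.Agent.Eisenstein
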