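import Fermat.Agent.Eisenstein.Descent
import Fermat.Agent.Eisenstein.LevelOne

/-!
Consequences of a weight two form of prime level `p` congruent to a constant `c` modulo `r`
at both cusps, obtained from `Δ` and `E₄`.
-/

set_option autoImplicit false

noncomputable section

open UpperHalfPlane ModularForm CongruenceSubgroup Matrix.SpecialLinearGroup
open scoped MatrixGroups ModularForm Manifold

namespace Fermat.Agent.Eisenstein

variable {p : ℕ}

/-- A weight two form of level `p` with integral expansion congruent to the constant `c` mod `r`. -/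
structure ConstCongr (p r : ℕ) (c : ℤ) where
  form : ModularForm (Gamma0 p) 2
  ser : PowerSeries ℤ
  intQ : IntQ form ser
  congr : red r ser = red r (PowerSeries.C c)

/-- A congruence modulo `r` gives one modulo each of its divisors. -/
def ConstCongr.ofDvd {p r r' : ℕ} {c : ℤ} (h : ConstCongr p r c) (hd : r' ∣ r) :
    ConstCongr p r' c where
  form := h.form
  ser := h.ser
  intQ := h.intQ
  congr := by
    ext n
    have := congrArg (fun S => ZMod.castHom hd (ZMod r') (PowerSeries.coeff n S)) h.congr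
    rw [PowerSeries.coeff_map, PowerSeries.coeff_map, eq_intCast, eq_intCast] at this
    rw [PowerSeries.coeff_map, PowerSeries.coeff_map, eq_intCast, eq_intCast]
    simpa only [map_intCast] using this

/-- The level one form `Uₚ H + p^(k-1) H(pτ)`. -/
theorem exists_levelOne_hecke (hp : p.Prime) {k : ℕ} (hk : 1 ≤ k)
    {H : ModularForm 𝒮ℒ (k : ℤ)} {P : PowerSeries ℤ} (h : IntQ H P) :
    ∃ G : ModularForm 𝒮ℒ (k : ℤ),
      IntQ G (PowerSeries.C ((p : ℤ) ^ (k - 1)) * serV p P + serU p P) := by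
  have : NeZero p := ⟨hp.ne_zero⟩
  obtain ⟨G, hG⟩ := exists_trace hp (atkinLehner hp (toLevel hp H))
  refine ⟨G, ((intQ_atkinW_levelOne hp.ne_zero hk h).add
    (intQ_heckeU (φ := toLevel hp H) h)).congr fun _ => ?_⟩
  rw [hG, coe_atkinLehner, coe_toLevel, heckeU, Finset.sum_range]
  simp only [Pi.add_apply, Finset.sum_apply]
  refine congrArg _ (Finset.sum_congr rfl fun j _ => ?_)
  rw [← coe_toLevel hp H, atkinW_slash_S_T hp.ne_zero (toLevel hp H) j]

/-- `Δ` as a modular form. -/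
def discForm : ModularForm 𝒮ℒ ((12 : ℕ) : ℤ) :=
  ModularForm.mcast (by norm_num) (CuspForm.discriminant : ModularForm 𝒮ℒ 12)

theorem intQ_discForm : IntQ discForm serD :=
  intQ_discriminantForm.congr fun _ => rfl

/-- Coefficient `τ(n)` of `Δ`. -/
def tauZ (n : ℕ) : ℤ := PowerSeries.coeff n serD

theorem tauZ_zero : tauZ 0 = 0 := by simp [tauZ, serD]

theorem tauZ_one : tauZ 1 = 1 := by
  simp [tauZ, serD, PowerSeries.coeff_succ_X_mul, ModularCurve.constantCoeff_dedekindEtaUnit]

theorem serU_serD_add (hp : p.Prime) :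
    PowerSeries.C ((p : ℤ) ^ 11) * serV p serD + serU p serD
      = PowerSeries.C (tauZ p) * serD := by
  obtain ⟨G, hG⟩ := exists_levelOne_hecke hp (by norm_num) intQ_discForm
  obtain ⟨g, hg⟩ := seed0.decompose 1 (ModularForm.mcast (by norm_num) G) _
    (hG.congr fun _ => rfl)
  simp only [seed0, one_mul, Finset.sum_range_succ, Finset.sum_range_zero, zero_add, pow_zero,
    mul_one, pow_one, Nat.sub_zero, Nat.sub_self, show 12 - 1 = 11 from rfl] at hg
  have h0 := congrArg PowerSeries.constantCoeff hg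
  have hD : PowerSeries.constantCoeff serD = 0 := by
    rw [← PowerSeries.coeff_zero_eq_constantCoeff_apply]; exact tauZ_zero
  simp [coeff_zero_serU, coeff_zero_serV, hD, constantCoeff_serE4] at h0
  rw [← h0, map_zero, zero_mul, zero_add] at hg
  have h1 := congrArg (PowerSeries.coeff 1) hg
  rw [map_add, PowerSeries.coeff_C_mul, PowerSeries.coeff_C_mul, coeff_serV, coeff_serU,
    if_neg (by simpa using hp.ne_one), mul_zero, zero_add, one_mul] at h1
  change PowerSeries.coeff p serD = g 1 * tauZ 1 at h1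
  rw [tauZ_one, mul_one] at h1
  rw [hg, ← h1]
  rfl

/-- Consequence of `Δ`: `r` divides `c p¹¹ (p + 1)`. -/
theorem ConstCongr.dvd_of_discriminant (hp : p.Prime) {r : ℕ} {c : ℤ} (M : ConstCongr p r c) :
    (r : ℤ) ∣ c * (p : ℤ) ^ 11 * (1 + p) := by
  obtain ⟨G, PG, hG, hG0, hcong⟩ := exists_levelOne_congr hp M.intQ M.congr (k := 12)
    (by norm_num) intQ_discForm 1
  have hz : PG = 0 := by
    obtain ⟨g, hg⟩ := seed14.decompose 0 (ModularForm.mcast (by norm_num) G) _
      (hG.congr fun _ => rfl)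
    have h0 := hG0 tauZ_zero
    rw [hg] at h0 ⊢
    simp [seed14, constantCoeff_serE4, constantCoeff_serE6,
      PowerSeries.coeff_zero_eq_constantCoeff] at h0
    simp [h0]
  have hU : serU p serD = PowerSeries.C (tauZ p) * serD
      - PowerSeries.C ((p : ℤ) ^ 11) * serV p serD :=
    eq_sub_of_add_eq' (serU_serD_add hp)
  rw [hz, map_zero, hU] at hcong
  have key : ∀ n, (r : ℤ) ∣ c * (tauZ p * tauZ n
      - (p : ℤ) ^ 11 * (1 + p) * PowerSeries.coeff n (serV p serD)) := by
    intro n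
    rw [← ZMod.intCast_zmod_eq_zero_iff_dvd]
    have h := congrArg (PowerSeries.coeff n) hcong
    rw [map_zero, PowerSeries.coeff_map, eq_intCast] at h
    rw [h]
    congr 1
    rw [PowerSeries.coeff_C_mul, map_add, map_sub, PowerSeries.coeff_C_mul,
      PowerSeries.coeff_C_mul, PowerSeries.coeff_C_mul, show (12 - 1 : ℕ) = 11 from rfl]
    simp only [tauZ]
    ring
  have h1 := key 1
  rw [coeff_serV, if_neg (by simpa using hp.ne_one), mul_zero, sub_zero, tauZ_one, mul_one] at h1
  have h2 := key p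
  rw [coeff_serV, if_pos (dvd_refl p), Nat.div_self hp.pos, ← tauZ, tauZ_one, mul_one] at h2
  have : c * (p : ℤ) ^ 11 * (1 + p) =
      c * tauZ p * tauZ p - c * (tauZ p * tauZ p - (p : ℤ) ^ 11 * (1 + p)) := by ring
  rw [this]
  exact dvd_sub (h1.mul_right _) h2

theorem coeff_serE4_of_ne_zero {n : ℕ} (hn : n ≠ 0) :
    PowerSeries.coeff n serE4 = 240 * ∑ d ∈ n.divisors, (d : ℤ) ^ 3 := by
  rw [serE4, ModularCurve.eisenstein4, PowerSeries.coeff_mk, if_neg hn]

theorem coeff_serE6_of_ne_zero {n : ℕ} (hn : n ≠ 0) :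
    PowerSeries.coeff n serE6 = -504 * ∑ d ∈ n.divisors, (d : ℤ) ^ 5 := by
  rw [serE6, PowerSeries.coeff_mk, if_neg hn]

/-- Consequence of `E₄`: `r` divides `5760 c (1 + p³)`. -/
theorem ConstCongr.dvd_of_eisenstein (hp : p.Prime) (hp2 : p ≠ 2) {r : ℕ} {c : ℤ}
    (M : ConstCongr p r c) : (r : ℤ) ∣ 5760 * c * (1 + (p : ℤ) ^ 3) := by
  obtain ⟨G, PG, hG, -, hcong⟩ := exists_levelOne_congr hp M.intQ M.congr (k := 4)
    (by norm_num) (H := ModularForm.E₄) intQ_E4 1
  obtain ⟨g, hg⟩ := seed6.decompose 0 (ModularForm.mcast (by norm_num) G) _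
    (hG.congr fun _ => rfl)
  simp only [seed6, zero_add, Finset.sum_range_one, pow_zero, mul_one, Nat.sub_self] at hg
  rw [hg] at hcong
  have key : ∀ n : ℕ, n ≠ 0 → ¬ p ∣ n → (r : ℤ) ∣
      -504 * (∑ d ∈ n.divisors, (d : ℤ) ^ 5) * g 0
        - c * (240 * ∑ d ∈ (n * p).divisors, (d : ℤ) ^ 3) := by
    intro n hn hpn
    rw [← ZMod.intCast_zmod_eq_zero_iff_dvd, Int.cast_sub, sub_eq_zero]
    have h := congrArg (PowerSeries.coeff n) hcong
    rw [PowerSeries.coeff_map, PowerSeries.coeff_map, eq_intCast (Int.castRingHom (ZMod r)),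
      eq_intCast (Int.castRingHom (ZMod r)), mul_comm serE6,
      PowerSeries.coeff_C_mul, PowerSeries.coeff_C_mul, map_add, PowerSeries.coeff_C_mul,
      coeff_serV, if_neg hpn, mul_zero, add_zero, coeff_serU, coeff_serE6_of_ne_zero hn,
      coeff_serE4_of_ne_zero (mul_ne_zero hn hp.ne_zero), pow_one, mul_comm (g 0)] at h
    exact h
  have s1 : ∑ d ∈ (1 * p).divisors, (d : ℤ) ^ 3 = 1 + (p : ℤ) ^ 3 := by
    rw [one_mul, hp.divisors, Finset.sum_pair (Ne.symm hp.ne_one)]
    simp
  have h2p : Nat.Coprime 2 p := (Nat.coprime_primes Nat.prime_two hp).mpr (Ne.symm hp2)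
  have s2 : ∑ d ∈ (2 * p).divisors, (d : ℤ) ^ 3 = 9 * (1 + (p : ℤ) ^ 3) := by
    have h := (ArithmeticFunction.isMultiplicative_sigma (k := 3)).map_mul_of_coprime h2p
    rw [ArithmeticFunction.sigma_apply, ArithmeticFunction.sigma_apply,
      ArithmeticFunction.sigma_apply, hp.divisors, Nat.prime_two.divisors,
      Finset.sum_pair (Ne.symm hp.ne_one), Finset.sum_pair (by norm_num : (1 : ℕ) ≠ 2)] at h
    exact_mod_cast h.trans (by ring)
  have h1 := key 1 one_ne_zero (by simpa using hp.ne_one)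
  have h2 := key 2 two_ne_zero fun h => hp2 ((Nat.prime_dvd_prime_iff_eq hp Nat.prime_two).mp h)
  rw [s1, Nat.divisors_one, Finset.sum_singleton] at h1
  rw [s2, Nat.prime_two.divisors, Finset.sum_pair (by norm_num : (1 : ℕ) ≠ 2)] at h2
  have := dvd_sub h2 (h1.mul_left 33)
  rw [show 5760 * c * (1 + (p : ℤ) ^ 3) = -504 * (((1 : ℕ) : ℤ) ^ 5 + ((2 : ℕ) : ℤ) ^ 5) * g 0 -
      c * (240 * (9 * (1 + (p : ℤ) ^ 3))) -
      33 * (-504 * ((1 : ℕ) : ℤ) ^ 5 * g 0 - c * (240 * (1 + (p : ℤ) ^ 3))) by push_cast; ring]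
  exact this

end Fermat.Agent.Eisenstein
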