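import Fermat.Agent.Eisenstein.IntQ
import Mathlib.Data.ZMod.Basic

/-!
Descent to level one. If the expansions of a weight two form `M` of prime level `p` at both cusps
are congruent to constants modulo `r`, then for every level one form `H` the series
`c^a (Uₚ H + (-p)^a p^(k-1) H(q^p))` is congruent to a level one form of weight `k + 2a`.
-/

set_option autoImplicit false

noncomputable section

open UpperHalfPlane ModularForm CongruenceSubgroup Matrix.SpecialLinearGroup
open scoped MatrixGroups ModularForm Manifold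

namespace Fermat.Agent.Eisenstein

variable {p : ℕ}

theorem slash_levelOne {k : ℤ} (H : ModularForm 𝒮ℒ k) (γ : SL(2, ℤ)) : ⇑H ∣[k] γ = ⇑H :=
  SlashInvariantFormClass.slash_action_eq H (mapGL ℝ γ) ⟨γ, rfl⟩

/-- A level one form seen in prime level. -/
def toLevel (hp : p.Prime) {k : ℤ} (H : ModularForm 𝒮ℒ k) : ModularForm (Gamma0 p) k :=
  mkForm hp ⇑H H.holo' (fun δ _ => slash_levelOne H δ) (ModularFormClass.bdd_at_infty H)
    (by rw [slash_levelOne]; exact ModularFormClass.bdd_at_infty H)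

@[simp] theorem coe_toLevel (hp : p.Prime) {k : ℤ} (H : ModularForm 𝒮ℒ k) :
    ⇑(toLevel hp H) = ⇑H := rfl

theorem abs_det_atkinW (hp : p ≠ 0) : |((atkinW p).det : ℝ)| = p := by
  rw [Matrix.GeneralLinearGroup.val_det_apply, atkinW_val hp, Matrix.det_fin_two_of]
  simp

theorem slash_atkinW_levelOne (hp : p ≠ 0) {k : ℕ} (hk : 1 ≤ k)
    (H : ModularForm 𝒮ℒ (k : ℤ)) (τ : ℍ) :
    (⇑H ∣[(k : ℤ)] atkinW p) τ = ((p : ℂ) ^ (k - 1)) * H (heckeDiagMatrix p • τ) := by
  rw [atkinW, SlashAction.slash_mul]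
  change ((⇑H ∣[(k : ℤ)] (ModularGroup.S : SL(2, ℤ))) ∣[(k : ℤ)] heckeDiagMatrix p) τ = _
  rw [slash_levelOne, slash_heckeDiagMatrix_apply _ hp,
    show ((k : ℤ) - 1) = ((k - 1 : ℕ) : ℤ) by omega, zpow_natCast]

theorem intQ_atkinW_levelOne (hp : p ≠ 0) {k : ℕ} (hk : 1 ≤ k) {H : ModularForm 𝒮ℒ (k : ℤ)}
    {P : PowerSeries ℤ} (h : IntQ H P) :
    IntQ (⇑H ∣[(k : ℤ)] atkinW p) (PowerSeries.C ((p : ℤ) ^ (k - 1)) * serV p P) :=
  ((h.comp_heckeDiag hp).smul ((p : ℤ) ^ (k - 1))).congr fun τ => by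
    rw [slash_atkinW_levelOne hp hk]; simp

/-- The form `M ^ a * H` of level `p`, with its two expansions. -/
theorem exists_pow_mul (hp : p.Prime) [NeZero p] {M : ModularForm (Gamma0 p) 2}
    {PM : PowerSeries ℤ} (hM : IntQ M PM) {k : ℕ} (hk : 1 ≤ k) {H : ModularForm 𝒮ℒ (k : ℤ)}
    {P : PowerSeries ℤ} (h : IntQ H P) (a : ℕ) :
    ∃ φ : ModularForm (Gamma0 p) ((k : ℤ) + 2 * a), IntQ φ (PM ^ a * P) ∧
      IntQ (atkinLehner hp φ) (PowerSeries.C ((-(p : ℤ)) ^ a * (p : ℤ) ^ (k - 1)) *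
        serU p PM ^ a * serV p P) := by
  induction a with
  | zero =>
    refine ⟨ModularForm.mcast (by simp) (toLevel hp H), ?_, ?_⟩
    · simpa using h
    · refine Modular.HasQExp.congr (f := ⇑H ∣[(k : ℤ)] atkinW p) ?_ fun τ => rfl
      simpa [IntQ] using intQ_atkinW_levelOne hp.ne_zero hk h
  | succ a ih =>
    obtain ⟨φ, hφ, hφW⟩ := ih
    refine ⟨ModularForm.mcast (by push_cast; ring) (M.mul φ), ?_, ?_⟩
    · have := hM.mul hφ
      rw [pow_succ' PM a, mul_assoc]
      simpa using this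
    · have hU := intQ_heckeU hM
      rw [heckeU_eq_neg_atkinW hp M] at hU
      have h1 := ((hU.neg.mul hφW).smul (p : ℤ)).congr (g := ⇑(atkinLehner hp (ModularForm.mcast
          (show (2 : ℤ) + ((k : ℤ) + 2 * a) = (k : ℤ) + 2 * ((a + 1 : ℕ) : ℤ) by push_cast; ring)
          (M.mul φ)))) fun τ => by
        simp only [coe_atkinLehner, Pi.smul_apply, Pi.mul_apply, Pi.neg_apply]
        change _ = ((⇑M * ⇑φ) ∣[(k : ℤ) + 2 * ((a + 1 : ℕ) : ℤ)] atkinW p) τ
        rw [show (k : ℤ) + 2 * ((a + 1 : ℕ) : ℤ) = 2 + ((k : ℤ) + 2 * a) by push_cast; ring,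
          ModularForm.mul_slash, abs_det_atkinW hp.ne_zero]
        simp [neg_neg]
      have e : PowerSeries.C (p : ℤ) * (-serU p PM *
          (PowerSeries.C ((-(p : ℤ)) ^ a * (p : ℤ) ^ (k - 1)) * serU p PM ^ a * serV p P)) =
          PowerSeries.C ((-(p : ℤ)) ^ (a + 1) * (p : ℤ) ^ (k - 1)) * serU p PM ^ (a + 1) *
            serV p P := by
        simp only [map_mul, map_pow, map_neg]
        ring
      rwa [e] at h1

/-- Reduction modulo `r`. -/
abbrev red (r : ℕ) : PowerSeries ℤ →+* PowerSeries (ZMod r) :=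
  PowerSeries.map (Int.castRingHom (ZMod r))

theorem red_serU (r p : ℕ) {P Q : PowerSeries ℤ} (h : red r P = red r Q) :
    red r (serU p P) = red r (serU p Q) := by
  ext n
  have := congrArg (fun S => PowerSeries.coeff (n * p) S) h
  simpa using this

theorem serU_C (hp : p ≠ 0) (c : ℤ) : serU p (PowerSeries.C c) = PowerSeries.C c := by
  ext n
  rw [coeff_serU, PowerSeries.coeff_C, PowerSeries.coeff_C]
  simp [hp]

theorem serU_C_mul (p : ℕ) (c : ℤ) (P : PowerSeries ℤ) :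
    serU p (PowerSeries.C c * P) = PowerSeries.C c * serU p P := by
  ext n
  rw [coeff_serU, PowerSeries.coeff_C_mul, PowerSeries.coeff_C_mul, coeff_serU]

theorem coeff_zero_serU (p : ℕ) (P : PowerSeries ℤ) :
    PowerSeries.constantCoeff (serU p P) = PowerSeries.constantCoeff P := by
  rw [← PowerSeries.coeff_zero_eq_constantCoeff_apply, coeff_serU, zero_mul,
    PowerSeries.coeff_zero_eq_constantCoeff_apply]

theorem coeff_zero_serV (p : ℕ) (P : PowerSeries ℤ) :
    PowerSeries.constantCoeff (serV p P) = PowerSeries.constantCoeff P := by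
  rw [← PowerSeries.coeff_zero_eq_constantCoeff_apply, coeff_serV, if_pos (dvd_zero p),
    Nat.zero_div, PowerSeries.coeff_zero_eq_constantCoeff_apply]

/-- Descent of congruences to level one. -/
theorem exists_levelOne_congr (hp : p.Prime) {M : ModularForm (Gamma0 p) 2}
    {PM : PowerSeries ℤ} (hM : IntQ M PM) {r : ℕ} {c : ℤ}
    (hc : red r PM = red r (PowerSeries.C c)) {k : ℕ} (hk : 1 ≤ k)
    {H : ModularForm 𝒮ℒ (k : ℤ)} {P : PowerSeries ℤ} (h : IntQ H P) (a : ℕ) :
    ∃ (G : ModularForm 𝒮ℒ ((k : ℤ) + 2 * a)) (PG : PowerSeries ℤ), IntQ G PG ∧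
      (P.coeff 0 = 0 → PG.coeff 0 = 0) ∧
      red r PG = red r (PowerSeries.C (c ^ a) *
        (serU p P + PowerSeries.C ((-(p : ℤ)) ^ a * (p : ℤ) ^ (k - 1)) * serV p P)) := by
  have : NeZero p := ⟨hp.ne_zero⟩
  obtain ⟨φ, hφ, hφW⟩ := exists_pow_mul hp hM hk h a
  obtain ⟨G, hG⟩ := exists_trace hp (atkinLehner hp φ)
  refine ⟨G, _, (hφW.add (intQ_heckeU hφ)).congr fun τ => ?_, ?_, ?_⟩
  · rw [hG, coe_atkinLehner, heckeU, Finset.sum_range]
    simp only [Pi.add_apply, Finset.sum_apply]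
    refine congrArg _ (Finset.sum_congr rfl fun j _ => ?_)
    rw [atkinW_slash_S_T hp.ne_zero φ j]
  · intro h0
    rw [PowerSeries.coeff_zero_eq_constantCoeff_apply] at h0 ⊢
    simp [coeff_zero_serU, coeff_zero_serV, h0]
  · have hU : red r (serU p PM) = red r (PowerSeries.C c) := by
      rw [red_serU r p hc, serU_C hp.ne_zero]
    have hP : red r (serU p (PM ^ a * P)) = red r (PowerSeries.C (c ^ a) * serU p P) := by
      rw [← serU_C_mul]
      refine red_serU r p ?_
      rw [map_mul, map_mul, map_pow, hc, map_pow, map_pow]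
    rw [map_add, hP]
    simp only [map_mul, map_pow, map_add, hU]
    ring

end Fermat.Agent.Eisenstein
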