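import Fermat.Agent.Eisenstein.LevelP
import Fermat.Agent.Modular.JFun
import Fermat.Prelude.Thm_UpperHalfPlane_qCoeff_heckeU

/-!
Integral `q`-expansions as power series over `ℤ`, with the operators `Uₚ` and `Vₚ`.
-/

set_option autoImplicit false

noncomputable section

open UpperHalfPlane ModularForm CongruenceSubgroup Matrix.SpecialLinearGroup
open scoped MatrixGroups ModularForm Manifold

namespace Fermat.Agent.Eisenstein

/-- `f` is given on `ℍ` by the integral power series `P` in `exp (2πiτ)`. -/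
def IntQ (f : ℍ → ℂ) (P : PowerSeries ℤ) : Prop :=
  Modular.HasQExp 1 f (Modular.intSeriesC P)

/-- The series with coefficients `a_{np}`. -/
def serU (p : ℕ) (P : PowerSeries ℤ) : PowerSeries ℤ :=
  PowerSeries.mk fun n => P.coeff (n * p)

/-- The series `P(q^p)`. -/
def serV (p : ℕ) (P : PowerSeries ℤ) : PowerSeries ℤ :=
  PowerSeries.mk fun n => if p ∣ n then P.coeff (n / p) else 0

@[simp] theorem coeff_serU (p : ℕ) (P : PowerSeries ℤ) (n : ℕ) :
    (serU p P).coeff n = P.coeff (n * p) := PowerSeries.coeff_mk _ _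

@[simp] theorem coeff_serV (p : ℕ) (P : PowerSeries ℤ) (n : ℕ) :
    (serV p P).coeff n = if p ∣ n then P.coeff (n / p) else 0 := PowerSeries.coeff_mk _ _

theorem intSeriesC_injective : Function.Injective Modular.intSeriesC :=
  fun P Q h => by
    rw [Modular.intSeriesC_apply, Modular.intSeriesC_apply] at h
    exact PowerSeries.map_injective _ Int.cast_injective (HahnSeries.ofPowerSeries_injective h)

namespace IntQ

variable {f g : ℍ → ℂ} {P Q : PowerSeries ℤ}

theorem of_hasSum
    (h : ∀ τ : ℍ, HasSum (fun n : ℕ => (P.coeff n : ℂ) * Function.Periodic.qParam 1 (τ : ℂ) ^ n) (f τ)) :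
    IntQ f P := by
  refine Modular.HasQExp.ofPowerSeries fun τ => ?_
  simpa [PowerSeries.coeff_map] using h τ

theorem hasSum (h : IntQ f P) (τ : ℍ) :
    HasSum (fun n : ℕ => (P.coeff n : ℂ) * Function.Periodic.qParam 1 (τ : ℂ) ^ n) (f τ) := by
  have hinj : Function.Injective fun k : ℕ => (k : ℤ) := fun a b hab => by simpa using hab
  refine ((hinj.hasSum_iff ?_).2 (h τ)).congr_fun fun k => ?_
  · intro n hn
    have : n < 0 := by
      by_contra hc
      exact hn ⟨n.toNat, Int.toNat_of_nonneg (by omega)⟩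
    rw [Modular.intSeriesC_apply, ModularCurve.ofPowerSeries_coeff_of_neg _ this, zero_mul]
  · simp [Modular.intSeriesC_apply, HahnSeries.ofPowerSeries_apply_coeff, PowerSeries.coeff_map]

theorem congr (h : IntQ f P) (e : ∀ τ, f τ = g τ) : IntQ g P := Modular.HasQExp.congr h e

theorem unique (h : IntQ f P) (h' : IntQ f Q) : P = Q :=
  intSeriesC_injective (Modular.HasQExp.unique h h' one_pos)

theorem eq (h : IntQ f P) (h' : IntQ g P) : f = g := Modular.HasQExp.eq h h'

theorem const (c : ℤ) : IntQ (fun _ => (c : ℂ)) (PowerSeries.C c) := by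
  have := Modular.HasQExp.const 1 (c : ℂ)
  simpa [IntQ, Modular.intSeriesC_apply] using this

theorem zero : IntQ 0 0 := by simpa [IntQ] using Modular.HasQExp.zero 1
theorem one : IntQ 1 1 := by simpa [IntQ] using Modular.HasQExp.one 1

theorem add (h : IntQ f P) (h' : IntQ g Q) : IntQ (f + g) (P + Q) := by
  simpa [IntQ] using Modular.HasQExp.add h h'

theorem neg (h : IntQ f P) : IntQ (-f) (-P) := by simpa [IntQ] using Modular.HasQExp.neg h

theorem sub (h : IntQ f P) (h' : IntQ g Q) : IntQ (f - g) (P - Q) := by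
  simpa [IntQ] using Modular.HasQExp.sub h h'

theorem mul (h : IntQ f P) (h' : IntQ g Q) : IntQ (f * g) (P * Q) := by
  simpa [IntQ] using Modular.HasQExp.mul h h'

theorem pow (h : IntQ f P) (n : ℕ) : IntQ (f ^ n) (P ^ n) := by
  simpa [IntQ] using Modular.HasQExp.pow h n

theorem smul (h : IntQ f P) (c : ℤ) : IntQ ((c : ℂ) • f) (PowerSeries.C c * P) :=
  ((const c).mul h).congr fun τ => by simp

theorem coeff_zero_eq_zero (h : IntQ f P) (hz : IsZeroAtImInfty f) : P.coeff 0 = 0 := by
  have := Modular.HasQExp.coeff_zero_eq_zero_of_isZeroAtImInfty h one_pos hz le_rfl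
  rw [Modular.intSeriesC_apply] at this
  rw [show (0 : ℤ) = ((0 : ℕ) : ℤ) from rfl, HahnSeries.ofPowerSeries_apply_coeff] at this
  simpa [PowerSeries.coeff_map] using this

theorem isZeroAtImInfty (h : IntQ f P) (hP : P.coeff 0 = 0) : IsZeroAtImInfty f := by
  refine Modular.HasQExp.isZeroAtImInfty h one_pos fun n hn => ?_
  rcases hn.lt_or_eq with hn | rfl
  · rw [Modular.intSeriesC_apply, ModularCurve.ofPowerSeries_coeff_of_neg _ hn]
  · rw [Modular.intSeriesC_apply, show (0 : ℤ) = ((0 : ℕ) : ℤ) from rfl,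
      HahnSeries.ofPowerSeries_apply_coeff]
    simp [PowerSeries.coeff_map, PowerSeries.coeff_zero_eq_constantCoeff] at hP ⊢
    exact hP

/-- Rescaling the variable by `p`. -/
theorem comp_heckeDiag {p : ℕ} (hp : p ≠ 0) (h : IntQ f P) :
    IntQ (fun τ => f (heckeDiagMatrix p • τ)) (serV p P) := by
  refine of_hasSum fun τ => ?_
  refine ((mul_right_injective₀ hp).hasSum_iff ?_).mp ?_
  · intro m hm
    rw [coeff_serV, if_neg, Int.cast_zero, zero_mul]
    rintro ⟨c, rfl⟩
    exact hm ⟨c, rfl⟩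
  · refine (h.hasSum (heckeDiagMatrix p • τ)).congr_fun fun j => ?_
    have hq : Function.Periodic.qParam 1 ((heckeDiagMatrix p • τ : ℍ) : ℂ)
        = Function.Periodic.qParam 1 (τ : ℂ) ^ p := by
      rw [coe_heckeDiagMatrix_smul hp, Function.Periodic.qParam, Function.Periodic.qParam,
        ← Complex.exp_nat_mul]
      congr 1
      ring
    rw [Function.comp_apply, coeff_serV, if_pos (dvd_mul_right p j),
      Nat.mul_div_cancel_left j (Nat.pos_of_ne_zero hp), hq, pow_mul]

section Forms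

variable {F : Type*} [FunLike F ℍ ℂ] {Γ : Subgroup (GL (Fin 2) ℝ)} {k : ℤ}

theorem of_qCoeff [ModularFormClass F Γ k] (hΓ : (1 : ℝ) ∈ Γ.strictPeriods) (φ : F)
    (h : ∀ n, ModularFormClass.qCoeff φ n = (P.coeff n : ℂ)) : IntQ φ P := by
  refine of_hasSum fun τ => ?_
  have : Fact (IsCusp OnePoint.infty Γ) := ⟨Γ.isCusp_of_mem_strictPeriods one_pos hΓ⟩
  refine (ModularForm.hasSum_qExpansion φ one_pos hΓ τ).congr_fun fun m => ?_
  rw [← h m]
  rfl

theorem qCoeff_eq [ModularFormClass F Γ k] (hΓ : (1 : ℝ) ∈ Γ.strictPeriods) {φ : F}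
    (h : IntQ φ P) (n : ℕ) : ModularFormClass.qCoeff φ n = (P.coeff n : ℂ) :=
  (ModularFormClass.qExpansion_coeff_unique one_pos hΓ (c := fun m => (P.coeff m : ℂ))
    (fun τ => by simpa using h.hasSum τ) n).symm

end Forms

end IntQ

theorem one_mem_strictPeriods_Gamma0' (p : ℕ) :
    (1 : ℝ) ∈ ((Gamma0 p : Subgroup SL(2, ℤ)) : Subgroup (GL (Fin 2) ℝ)).strictPeriods := by simp

/-- `Uₚ` on integral expansions. -/
theorem intQ_heckeU {p : ℕ} [NeZero p] {k : ℤ} {φ : ModularForm (Gamma0 p) k} {P : PowerSeries ℤ}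
    (h : IntQ φ P) : IntQ (heckeU k p ⇑φ) (serU p P) := by
  rw [← ModularForm.coe_heckeULin_apply k (dvd_refl p) φ]
  refine IntQ.of_qCoeff (one_mem_strictPeriods_Gamma0' p) _ fun n => ?_
  rw [ModularForm.coe_heckeULin_apply, UpperHalfPlane.qCoeff_heckeU
    (SlashInvariantFormClass.periodic_comp_ofComplex φ (one_mem_strictPeriods_Gamma0' p))
    φ.holo' (ModularFormClass.bdd_at_infty φ) k (NeZero.ne p),
    ModularForm.coeffHeckeU_apply, IntQ.qCoeff_eq (one_mem_strictPeriods_Gamma0' p) h, coeff_serU]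

end Fermat.Agent.Eisenstein
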