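import Fermat.Agent.Eisenstein.ConstCongr
import Mathlib.RingTheory.PowerSeries.Inverse
import Mathlib.RingTheory.Polynomial.UniqueFactorization
import Mathlib.NumberTheory.ModularForms.LevelOne.GradedRing
import Mathlib.Algebra.Polynomial.RingDivision

/-!
A prime `ℓ ≥ 5` dividing `p + 1` does not divide the modulus of a constant congruence in
weight two and level `p` with constant prime to `ℓ`.
-/

set_option autoImplicit false

noncomputable section

open UpperHalfPlane ModularForm CongruenceSubgroup Matrix.SpecialLinearGroup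
open scoped MatrixGroups ModularForm Polynomial

namespace Fermat.Agent.Eisenstein

section Poly

variable {F : Type*} [Field F]

theorem poly_dvd_of_forall_pow_dvd {A B : F[X]} (hA : A ≠ 0)
    (h : ∀ i : ℕ, A ^ i ∣ B ^ (i + 1)) : A ∣ B := by
  obtain ⟨a, b, g, hab, rfl, rfl⟩ := UniqueFactorizationMonoid.exists_reduced_factors A hA B
  have hg : g ≠ 0 := left_ne_zero_of_mul hA
  suffices ha : IsUnit a by
    exact mul_dvd_mul_left g ha.dvd
  have hi : ∀ i, a ^ i ∣ g := by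
    intro i
    have := h i
    rw [mul_pow, mul_pow, pow_succ g, mul_assoc] at this
    exact (IsRelPrime.pow hab).dvd_of_dvd_mul_right
      ((mul_dvd_mul_iff_left (pow_ne_zero i hg)).mp this)
  have ha0 : a ≠ 0 := right_ne_zero_of_mul hA
  rw [Polynomial.isUnit_iff_degree_eq_zero, Polynomial.degree_eq_natDegree ha0]
  have := Polynomial.natDegree_le_of_dvd (hi (g.natDegree + 1)) hg
  rw [Polynomial.natDegree_pow] at this
  have : a.natDegree = 0 := by nlinarith
  simp [this]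

theorem poly_dvd_of_pow_dvd_linear_mul {A B L : F[X]} (hA : A ≠ 0) (hL0 : L ≠ 0)
    (hL : L.natDegree ≤ 1) {N : ℕ} (hN : 2 ≤ N) (h : A ^ N ∣ L * B ^ N) : A ∣ B := by
  obtain ⟨a, b, g, hab, rfl, rfl⟩ := UniqueFactorizationMonoid.exists_reduced_factors A hA B
  have hg : g ≠ 0 := left_ne_zero_of_mul hA
  rw [mul_pow, mul_pow, mul_left_comm] at h
  have h1 : a ^ N ∣ L := (IsRelPrime.pow hab).dvd_of_dvd_mul_right
    ((mul_dvd_mul_iff_left (pow_ne_zero N hg)).mp h)
  suffices ha : IsUnit a by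
    exact mul_dvd_mul_left g ha.dvd
  have ha0 : a ≠ 0 := right_ne_zero_of_mul hA
  rw [Polynomial.isUnit_iff_degree_eq_zero, Polynomial.degree_eq_natDegree ha0]
  have := Polynomial.natDegree_le_of_dvd h1 hL0
  rw [Polynomial.natDegree_pow] at this
  have : a.natDegree = 0 := by nlinarith
  simp [this]

end Poly

section ModEll

variable (ℓ : ℕ) [Fact ℓ.Prime]

/-- `Δ / E₄³` as a series over `ZMod ℓ`. -/
def tSer : PowerSeries (ZMod ℓ) := red ℓ serD * (red ℓ (serE4 ^ 3))⁻¹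

/-- Evaluation of polynomials at `Δ / E₄³`. -/
def ev : (ZMod ℓ)[X] →+* PowerSeries (ZMod ℓ) :=
  Polynomial.eval₂RingHom PowerSeries.C (tSer ℓ)

theorem constantCoeff_red (P : PowerSeries ℤ) :
    PowerSeries.constantCoeff (red ℓ P) = ((PowerSeries.constantCoeff P : ℤ) : ZMod ℓ) := by
  rw [← PowerSeries.coeff_zero_eq_constantCoeff_apply, PowerSeries.coeff_map,
    PowerSeries.coeff_zero_eq_constantCoeff_apply]
  rfl

theorem red_E4_cube_mul_inv : red ℓ (serE4 ^ 3) * (red ℓ (serE4 ^ 3))⁻¹ = 1 :=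
  PowerSeries.mul_inv_cancel _ (by simp [constantCoeff_red, constantCoeff_serE4])

theorem red_E4_cube_ne_zero : red ℓ (serE4 ^ 3) ≠ 0 :=
  left_ne_zero_of_mul_eq_one (red_E4_cube_mul_inv ℓ)

theorem red_serD_ne_zero : red ℓ serD ≠ 0 := by
  intro h
  have := congrArg (PowerSeries.coeff 1) h
  rw [PowerSeries.coeff_map, map_zero, ← tauZ, tauZ_one, map_one] at this
  exact one_ne_zero this

theorem tSer_ne_zero : tSer ℓ ≠ 0 :=
  mul_ne_zero (red_serD_ne_zero ℓ) (right_ne_zero_of_mul_eq_one (red_E4_cube_mul_inv ℓ))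

theorem constantCoeff_tSer : PowerSeries.constantCoeff (tSer ℓ) = 0 := by
  rw [tSer, map_mul, constantCoeff_red, show PowerSeries.constantCoeff serD = (0 : ℤ) by
    simp [serD], Int.cast_zero, zero_mul]

theorem constantCoeff_ev (Q : (ZMod ℓ)[X]) :
    PowerSeries.constantCoeff (ev ℓ Q) = Q.coeff 0 := by
  rw [ev, Polynomial.coe_eval₂RingHom, Polynomial.hom_eval₂, constantCoeff_tSer,
    Polynomial.eval₂_at_zero]
  simp

theorem ev_injective : Function.Injective (ev ℓ) := by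
  refine (injective_iff_map_eq_zero _).mpr fun Q hQ => ?_
  by_contra h0
  obtain ⟨Q', hQ', hX⟩ := Polynomial.exists_eq_pow_rootMultiplicity_mul_and_not_dvd Q h0 0
  rw [map_zero, sub_zero] at hQ' hX
  rw [hQ', map_mul, map_pow, ev, Polynomial.coe_eval₂RingHom, Polynomial.eval₂_X,
    mul_eq_zero] at hQ
  rcases hQ with hQ | hQ
  · exact tSer_ne_zero ℓ (pow_eq_zero_iff'.mp hQ).1
  · refine hX (Polynomial.X_dvd_iff.mpr ?_)
    rw [← constantCoeff_ev ℓ Q', ev, Polynomial.coe_eval₂RingHom, hQ, map_zero]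

theorem ev_C_mul_X_pow (g : ZMod ℓ) (j : ℕ) :
    ev ℓ (Polynomial.C g * Polynomial.X ^ j) = PowerSeries.C g * tSer ℓ ^ j := by
  simp [ev]

/-- A level one form modulo `ℓ` is a polynomial in `Δ / E₄³`. -/
theorem Seed.exists_poly {e : ℕ} (E : Seed e) (s : ℕ) {G : ModularForm 𝒮ℒ ((12 * s + e : ℕ) : ℤ)}
    {PG : PowerSeries ℤ} (hG : IntQ G PG) :
    ∃ Q : (ZMod ℓ)[X], Q.natDegree ≤ s ∧
      red ℓ PG = red ℓ E.ser * red ℓ (serE4 ^ 3) ^ s * ev ℓ Q := by
  obtain ⟨g, hg⟩ := E.decompose s G PG hG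
  refine ⟨∑ j ∈ Finset.range (s + 1), Polynomial.C (g j : ZMod ℓ) * Polynomial.X ^ j, ?_, ?_⟩
  · refine Polynomial.natDegree_sum_le_of_forall_le _ _ fun j hj => ?_
    exact (Polynomial.natDegree_C_mul_X_pow_le _ _).trans (by simp at hj; omega)
  · rw [hg, map_mul, mul_assoc, map_sum (ev ℓ), map_sum (red ℓ), Finset.mul_sum (a := _ ^ s)]
    refine congrArg _ (Finset.sum_congr rfl fun j hj => ?_)
    obtain ⟨i, rfl⟩ := Nat.exists_eq_add_of_le (show j ≤ s by simp at hj; omega)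
    rw [ev_C_mul_X_pow, tSer, mul_pow, Nat.add_sub_cancel_left, map_mul, map_mul, map_pow,
      map_pow (red ℓ) (serE4 ^ 3) i, pow_add, PowerSeries.map_C, eq_intCast (Int.castRingHom _)]
    have := congrArg (fun x => x ^ j) (red_E4_cube_mul_inv ℓ)
    simp only [mul_pow, one_pow] at this
    linear_combination -(PowerSeries.C (g j : ZMod ℓ) * red ℓ serD ^ j *
      red ℓ (serE4 ^ 3) ^ i) * this

end ModEll

variable {p : ℕ}

theorem exists_discPow (s : ℕ) :
    ∃ F : ModularForm 𝒮ℒ ((12 * s : ℕ) : ℤ), IntQ F (serD ^ s) := by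
  induction s with
  | zero => exact ⟨ModularForm.mcast (by simp) (1 : ModularForm 𝒮ℒ 0), by
      simpa using IntQ.one.congr fun τ => by simp⟩
  | succ s ih =>
    obtain ⟨F, hF⟩ := ih
    exact ⟨ModularForm.mcast (by push_cast; ring) (F.mul discForm),
      by rw [pow_succ]; exact (hF.mul intQ_discForm).congr fun _ => rfl⟩

theorem coeff_serD_pow_self (s : ℕ) : PowerSeries.coeff s (serD ^ s) = 1 := by
  have h := PowerSeries.coeff_X_pow_mul (ModularCurve.dedekindEtaUnit ^ s) s 0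
  rw [zero_add] at h
  rw [serD, mul_pow, h, PowerSeries.coeff_zero_eq_constantCoeff_apply, map_pow,
    ModularCurve.constantCoeff_dedekindEtaUnit, one_pow]

theorem E4_cube_sub_E6_sq : serE4 ^ 3 - serE6 ^ 2 = PowerSeries.C 1728 * serD :=
  ((intQ_E4.pow 3).sub (intQ_E6.pow 2)).unique
    ((intQ_discriminant.smul 1728).congr fun τ => by
      simp only [Pi.smul_apply, smul_eq_mul, Pi.sub_apply, Pi.pow_apply]
      rw [ModularForm.discriminant_eq_E₄_cube_sub_E₆_sq]
      push_cast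
      ring)

/-- The generic argument, with an auxiliary form `E` of weight `e = 2 a`, `a N = 6`. -/
theorem not_constCongr_aux (hp : p.Prime) {ℓ : ℕ} [Fact ℓ.Prime] (hdiv : ℓ ∣ p + 1)
    {c : ℤ} (hc : ¬ (ℓ : ℤ) ∣ c) (M : ConstCongr p ℓ c)
    {e : ℕ} (E : Seed e) {a N : ℕ} (hea : e = 2 * a) (haN : a * N = 6) (hN : 2 ≤ N)
    (L : (ZMod ℓ)[X]) (hL0 : L ≠ 0) (hL : L.natDegree ≤ 1)
    (hrel : red ℓ E.ser ^ N = red ℓ (serE4 ^ 3) * ev ℓ L)
    (he1 : PowerSeries.coeff 1 (red ℓ E.ser) ≠ 0) : False := by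
  have hk : 1 ≤ 12 * p := by have := hp.pos; omega
  have hpF : (p : ZMod ℓ) = -1 := by
    have := (CharP.cast_eq_zero_iff (ZMod ℓ) ℓ _).mpr hdiv
    rw [eq_neg_iff_add_eq_zero]
    exact_mod_cast this
  have hpow : ((p : ZMod ℓ) ^ (12 * p - 1)) = -1 := by
    rw [hpF, Odd.neg_one_pow ⟨6 * p - 1, by omega⟩]
  set K := red ℓ (serU p (serD ^ p)) - red ℓ (serV p (serD ^ p)) with hKdef
  obtain ⟨F0, hF0⟩ := exists_discPow p
  obtain ⟨G0, hG0⟩ := exists_levelOne_hecke hp hk hF0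
  obtain ⟨Q0, -, hQ0⟩ := seed0.exists_poly ℓ p (G := ModularForm.mcast (by simp) G0)
    (hG0.congr fun _ => rfl)
  have hK : K = red ℓ (serE4 ^ 3) ^ p * ev ℓ Q0 := by
    rw [hKdef]
    simp only [seed0, map_add, map_mul, map_one, one_mul, PowerSeries.map_C, map_pow,
      eq_intCast (Int.castRingHom (ZMod ℓ)), Int.cast_natCast] at hQ0 ⊢
    rw [← hQ0, ← map_pow, hpow, map_neg, map_one]
    ring
  have hQ0ne : Q0 ≠ 0 := by
    rintro rfl
    rw [map_zero, mul_zero] at hK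
    have h1 := congrArg (PowerSeries.coeff 1) hK
    rw [hKdef, map_sub, map_zero, PowerSeries.coeff_map, PowerSeries.coeff_map, coeff_serU,
      one_mul, coeff_serD_pow_self, coeff_serV, if_neg (by simpa using hp.ne_one), map_one,
      map_zero, sub_zero] at h1
    exact one_ne_zero h1
  have step : ∀ {e' : ℕ} (E' : Seed e') (b s : ℕ), 12 * p + 2 * b = 12 * (p + s) + e' →
      ∃ Q : (ZMod ℓ)[X], Q.natDegree ≤ p + s ∧ PowerSeries.C ((c : ZMod ℓ) ^ b) * ev ℓ Q0 =
        red ℓ E'.ser * red ℓ (serE4 ^ 3) ^ s * ev ℓ Q := by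
    intro e' E' b s hw
    obtain ⟨G, PG, hG, -, hcong⟩ := exists_levelOne_congr hp M.intQ M.congr hk hF0 b
    obtain ⟨Q, hdeg, hQ⟩ := E'.exists_poly ℓ (p + s)
      (G := ModularForm.mcast (by rw [← hw]; push_cast; ring) G) (hG.congr fun _ => rfl)
    refine ⟨Q, hdeg, mul_left_cancel₀ (pow_ne_zero p (red_E4_cube_ne_zero ℓ)) ?_⟩
    rw [mul_left_comm, ← hK]
    rw [hcong] at hQ
    simp only [map_add, map_mul, PowerSeries.map_C, eq_intCast (Int.castRingHom (ZMod ℓ))] at hQ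
    push_cast at hQ
    rw [hpF, neg_neg, one_pow, map_one, one_mul, ← hpF, hpow, map_neg, map_one, neg_one_mul,
      ← sub_eq_add_neg, ← hKdef] at hQ
    rw [hQ, pow_add]
    ring
  have hcF : (c : ZMod ℓ) ≠ 0 := fun h => hc ((ZMod.intCast_zmod_eq_zero_iff_dvd _ _).mp h)
  set γ : PowerSeries (ZMod ℓ) := PowerSeries.C ((c : ZMod ℓ) ^ 6) with hγ
  have hfam : ∀ i : ℕ, ∃ Q : (ZMod ℓ)[X], Q.natDegree ≤ p + i ∧
      γ ^ i * ev ℓ Q0 = red ℓ (serE4 ^ 3) ^ i * ev ℓ Q := by
    intro i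
    obtain ⟨Q, hd, hQ⟩ := step seed0 (6 * i) i (by ring)
    refine ⟨Q, hd, ?_⟩
    simp only [seed0, map_one, one_mul] at hQ
    rw [← hQ, hγ, ← map_pow, ← pow_mul]
  choose Q hQd hQ using hfam
  have h1 : γ * ev ℓ Q0 = red ℓ (serE4 ^ 3) * ev ℓ (Q 1) := by simpa using hQ 1
  have hpowdvd : ∀ i, Q 1 ^ (i + 1) = Q (i + 1) * Q0 ^ i := by
    intro i
    refine ev_injective ℓ (mul_left_cancel₀ (pow_ne_zero (i + 1) (red_E4_cube_ne_zero ℓ)) ?_)
    rw [map_pow (ev ℓ), ← mul_pow, ← h1, map_mul (ev ℓ), ← mul_assoc, ← hQ (i + 1),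
      map_pow (ev ℓ)]
    ring
  obtain ⟨u, hu⟩ := poly_dvd_of_forall_pow_dvd hQ0ne fun i => ⟨Q (i + 1), by
    rw [hpowdvd i, mul_comm]⟩
  have hγ0 : γ ≠ 0 := by
    rw [hγ, ne_eq, map_eq_zero_iff _ PowerSeries.C_injective]
    exact pow_ne_zero _ hcF
  have hu0 : u ≠ 0 := by
    rintro rfl
    rw [mul_zero] at hu
    rw [hu, map_zero, mul_zero] at h1
    rcases mul_eq_zero.mp h1 with h | h
    · exact hγ0 h
    · exact hQ0ne (ev_injective ℓ (h.trans (map_zero _).symm))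
  have hudeg : u.natDegree ≤ 1 := by
    have h := hpowdvd (p + 1)
    rw [hu] at h
    have h' : Q (p + 2) = u ^ (p + 2) * Q0 := by
      refine mul_right_cancel₀ (pow_ne_zero (p + 1) hQ0ne) (h.symm.trans ?_)
      ring
    have := hQd (p + 2)
    rw [h', Polynomial.natDegree_mul (pow_ne_zero _ hu0) hQ0ne, Polynomial.natDegree_pow] at this
    by_contra hlt
    have : (p + 2) * 2 ≤ (p + 2) * u.natDegree := Nat.mul_le_mul_left _ (by omega)
    omega
  obtain ⟨R, -, hR⟩ := step E a 0 (by omega)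
  rw [pow_zero, mul_one] at hR
  have hRN : L * R ^ N = u * Q0 ^ N := by
    refine ev_injective ℓ (mul_left_cancel₀ (red_E4_cube_ne_zero ℓ) ?_)
    rw [map_mul (ev ℓ), map_mul (ev ℓ), ← mul_assoc, ← hrel, map_pow (ev ℓ), ← mul_pow, ← hR,
      mul_pow, ← map_pow, ← pow_mul, haN, ← hγ, map_pow (ev ℓ)]
    obtain ⟨N', rfl⟩ : ∃ N', N = N' + 1 := ⟨N - 1, by omega⟩
    calc γ * ev ℓ Q0 ^ (N' + 1) = (γ * ev ℓ Q0) * ev ℓ Q0 ^ N' := by ring
      _ = _ := by rw [h1, hu, map_mul]; ring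
  obtain ⟨w, rfl⟩ := poly_dvd_of_pow_dvd_linear_mul hQ0ne hL0 hL hN ⟨u, by rw [hRN, mul_comm]⟩
  have hw : L * w ^ N = u := by
    refine mul_right_cancel₀ (pow_ne_zero N hQ0ne) (Eq.trans ?_ hRN)
    ring
  have hw0 : w.natDegree = 0 := by
    by_contra hne
    have hwne : w ≠ 0 := fun h => hne (by simp [h])
    have := congrArg Polynomial.natDegree hw
    rw [Polynomial.natDegree_mul hL0 (pow_ne_zero _ hwne), Polynomial.natDegree_pow] at this
    have : 2 * 1 ≤ N * w.natDegree := Nat.mul_le_mul hN (by omega)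
    omega
  obtain ⟨w0, rfl⟩ := Polynomial.natDegree_eq_zero.mp hw0
  rw [map_mul, mul_comm (ev ℓ Q0), ← mul_assoc] at hR
  have hfin := mul_right_cancel₀ (fun h => hQ0ne (ev_injective ℓ (h.trans (map_zero _).symm))) hR
  rw [show ev ℓ (Polynomial.C w0) = PowerSeries.C w0 by simp [ev]] at hfin
  have e0 := congrArg (PowerSeries.coeff 0) hfin
  have e1 := congrArg (PowerSeries.coeff 1) hfin
  rw [PowerSeries.coeff_C, if_pos rfl, PowerSeries.coeff_mul_C,
    PowerSeries.coeff_zero_eq_constantCoeff_apply, constantCoeff_red, E.const, Int.cast_one,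
    one_mul] at e0
  rw [PowerSeries.coeff_C, if_neg one_ne_zero, PowerSeries.coeff_mul_C, ← e0] at e1
  exact mul_ne_zero he1 (pow_ne_zero _ hcF) e1.symm

/-- A prime `ℓ ≥ 5` dividing `p + 1` admits no constant congruence. -/
theorem not_constCongr_of_dvd_succ (hp : p.Prime) {ℓ : ℕ} [Fact ℓ.Prime] (h5 : 5 ≤ ℓ)
    (hdiv : ℓ ∣ p + 1) {c : ℤ} (hc : ¬ (ℓ : ℤ) ∣ c) (M : ConstCongr p ℓ c) : False := by
  have hlP : ℓ.Prime := Fact.out
  by_cases hl : ℓ = 5
  · subst hl
    refine not_constCongr_aux hp hdiv hc M seed6 (a := 3) (N := 2) rfl rfl le_rfl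
      (1 - Polynomial.C 1728 * Polynomial.X) ?_ ?_ ?_ ?_
    · intro h
      have := congrArg (fun P => Polynomial.coeff P 0) h
      simp at this
    · exact (Polynomial.natDegree_sub_le _ _).trans
        (max_le (by simp) ((Polynomial.natDegree_C_mul_le _ _).trans (by simp)))
    · have h := congrArg (red 5) E4_cube_sub_E6_sq
      rw [map_sub, map_mul, map_pow (red 5) serE6, PowerSeries.map_C] at h
      have ht : red 5 (serE4 ^ 3) * tSer 5 = red 5 serD := by
        rw [tSer, mul_left_comm, red_E4_cube_mul_inv, mul_one]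
      rw [map_sub, map_one, map_mul,
        show ev 5 (Polynomial.C 1728) = PowerSeries.C (1728 : ZMod 5) by simp [ev],
        show ev 5 Polynomial.X = tSer 5 by simp [ev], mul_sub, mul_one, mul_left_comm, ht]
      rw [show (1728 : ZMod 5) = Int.castRingHom (ZMod 5) 1728 from (map_ofNat _ 1728).symm]
      simp only [seed6]
      linear_combination -h
    · rw [seed6, PowerSeries.coeff_map, coeff_serE6_of_ne_zero one_ne_zero]
      simp only [Nat.divisors_one, Finset.sum_singleton, Nat.cast_one, one_pow, mul_one]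
      clear * -
      intro h
      rw [eq_intCast, ZMod.intCast_zmod_eq_zero_iff_dvd] at h
      norm_num at h
  · refine not_constCongr_aux hp hdiv hc M seed4 (a := 2) (N := 3) rfl rfl (by norm_num) 1
      one_ne_zero (by simp) (by simp [seed4, map_pow]) ?_
    rw [seed4, PowerSeries.coeff_map, coeff_serE4_of_ne_zero one_ne_zero]
    simp only [Nat.divisors_one, Finset.sum_singleton, Nat.cast_one, one_pow, mul_one]
    intro h
    rw [eq_intCast, ZMod.intCast_zmod_eq_zero_iff_dvd] at h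
    have h' : ℓ ∣ 240 := by exact_mod_cast h
    have hmem := Nat.mem_primeFactors.mpr ⟨hlP, h', by norm_num⟩
    have : ℓ ∣ 2 ^ 4 * (3 * 5) := by simpa using h'
    rcases (Nat.Prime.dvd_mul hlP).mp this with h2 | h2
    · have := (Nat.prime_dvd_prime_iff_eq hlP Nat.prime_two).mp (hlP.dvd_of_dvd_pow h2)
      omega
    · rcases (Nat.Prime.dvd_mul hlP).mp h2 with h3 | h3
      · have := (Nat.prime_dvd_prime_iff_eq hlP Nat.prime_three).mp h3
        omega
      · exact hl ((Nat.prime_dvd_prime_iff_eq hlP (by norm_num)).mp h3)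

end Fermat.Agent.Eisenstein
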