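import Fermat.Prelude.Def_ModularForm_HeckeOperatorForms
import Mathlib.NumberTheory.ModularForms.NormTrace
import Mathlib.NumberTheory.ModularForms.LevelOne.DimensionFormula

/-!
Modular forms of prime level: cosets of `Γ₀(p)`, the Atkin–Lehner involution `W_p`,
the trace to level one and, in weight two, `U_p = -W_p`.
-/

set_option autoImplicit false

noncomputable section

open UpperHalfPlane ModularForm CongruenceSubgroup Matrix.SpecialLinearGroup ModularGroup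
open scoped MatrixGroups ModularForm OnePoint Manifold

namespace Fermat.Agent.Eisenstein

variable {p : ℕ}

theorem mapGL_val' (γ : SL(2, ℤ)) :
    ((mapGL ℝ γ : GL (Fin 2) ℝ) : Matrix (Fin 2) (Fin 2) ℝ) =
      (γ : Matrix (Fin 2) (Fin 2) ℤ).map (Int.castRingHom ℝ) := by
  ext i j; simp

theorem mapGL_S_val :
    ((mapGL ℝ S : GL (Fin 2) ℝ) : Matrix (Fin 2) (Fin 2) ℝ) = !![0, -1; 1, 0] := by
  rw [mapGL_val']
  ext i j; fin_cases i <;> fin_cases j <;> simp [coe_S]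

theorem mapGL_T_zpow_val (n : ℤ) :
    ((mapGL ℝ (T ^ n) : GL (Fin 2) ℝ) : Matrix (Fin 2) (Fin 2) ℝ) = !![1, (n : ℝ); 0, 1] := by
  ext i j; fin_cases i <;> fin_cases j <;> simp [coe_T_zpow, -map_zpow]

theorem mapGL_val (γ : SL(2, ℤ)) :
    ((mapGL ℝ γ : GL (Fin 2) ℝ) : Matrix (Fin 2) (Fin 2) ℝ) =
      !![(γ 0 0 : ℝ), (γ 0 1 : ℝ); (γ 1 0 : ℝ), (γ 1 1 : ℝ)] := by
  ext i j; fin_cases i <;> fin_cases j <;> simp

/-- The element of `SL(2,ℤ)` with given entries. -/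
def mkSL (a b c d : ℤ) (h : a * d - b * c = 1) : SL(2, ℤ) :=
  ⟨!![a, b; c, d], by rw [Matrix.det_fin_two_of, h]⟩

theorem mkSL_val (a b c d : ℤ) (h : a * d - b * c = 1) :
    ((mkSL a b c d h : SL(2, ℤ)) : Matrix (Fin 2) (Fin 2) ℤ) = !![a, b; c, d] := rfl

theorem GL_ext_val {a b : GL (Fin 2) ℝ}
    (h : (a : Matrix (Fin 2) (Fin 2) ℝ) = (b : Matrix (Fin 2) (Fin 2) ℝ)) : a = b := Units.ext h

/-- `diag(p,1) * S = S * diag(1,p)`. -/
theorem heckeDiag_mul_S (hp : p ≠ 0) :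
    heckeDiagMatrix p * mapGL ℝ S = mapGL ℝ S * heckeMatrix p 0 := by
  refine GL_ext_val ?_
  rw [Units.val_mul, Units.val_mul, mapGL_S_val, val_heckeMatrix hp, val_heckeDiagMatrix hp,
    Matrix.mul_fin_two, Matrix.mul_fin_two]
  simp

theorem heckeMatrix_zero_mul_T (hp : p ≠ 0) (j : ℕ) :
    heckeMatrix p 0 * mapGL ℝ (T ^ (j : ℤ)) = heckeMatrix p j := by
  refine GL_ext_val ?_
  rw [Units.val_mul, mapGL_T_zpow_val, val_heckeMatrix hp, val_heckeMatrix hp, Matrix.mul_fin_two]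
  simp

/-- Conjugate of an element of `Γ₀(p)` by `diag(p,1)`. -/
theorem exists_heckeDiag_conj (hp : p ≠ 0) {δ : SL(2, ℤ)} (hδ : δ ∈ Gamma0 p) :
    ∃ δ' : SL(2, ℤ), (p : ℤ) * δ' 1 0 = δ 1 0 ∧ δ' 0 0 = δ 0 0 ∧ δ' 1 1 = δ 1 1 ∧
      δ' 0 1 = δ 0 1 * p ∧
      heckeDiagMatrix p * mapGL ℝ δ = mapGL ℝ δ' * heckeDiagMatrix p := by
  obtain ⟨c, hc⟩ : (p : ℤ) ∣ δ 1 0 := (ZMod.intCast_zmod_eq_zero_iff_dvd _ _).mp (Gamma0_mem.mp hδ)
  have hdet : δ 0 0 * δ 1 1 - δ 0 1 * δ 1 0 = 1 := by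
    rw [← Matrix.det_fin_two, δ.2]
  refine ⟨mkSL (δ 0 0) (δ 0 1 * p) c (δ 1 1) (by rw [hc] at hdet; linear_combination hdet),
    ?_, ?_, ?_, ?_, ?_⟩
  · simp [hc, mkSL_val]
  · simp [mkSL_val]
  · simp [mkSL_val]
  · simp [mkSL_val]
  · refine GL_ext_val ?_
    rw [Units.val_mul, Units.val_mul, mapGL_val, mapGL_val, val_heckeDiagMatrix hp,
      Matrix.mul_fin_two, Matrix.mul_fin_two]
    have : (δ 1 0 : ℝ) = p * c := by exact_mod_cast hc
    simp [mkSL_val, this, mul_comm]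

/-- The Atkin–Lehner matrix `(0 -1; p 0)`. -/
def atkinW (p : ℕ) : GL (Fin 2) ℝ := mapGL ℝ S * heckeDiagMatrix p

theorem atkinW_val (hp : p ≠ 0) :
    ((atkinW p : GL (Fin 2) ℝ) : Matrix (Fin 2) (Fin 2) ℝ) = !![0, -1; (p : ℝ), 0] := by
  rw [atkinW, Units.val_mul, mapGL_S_val, val_heckeDiagMatrix hp, Matrix.mul_fin_two]
  simp

/-- `W_p` normalises `Γ₀(p)`. -/
theorem exists_atkinW_conj (hp : p ≠ 0) {δ : SL(2, ℤ)} (hδ : δ ∈ Gamma0 p) :
    ∃ δ' ∈ Gamma0 p, atkinW p * mapGL ℝ δ = mapGL ℝ δ' * atkinW p := by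
  obtain ⟨c, hc⟩ : (p : ℤ) ∣ δ 1 0 := (ZMod.intCast_zmod_eq_zero_iff_dvd _ _).mp (Gamma0_mem.mp hδ)
  have hdet : δ 0 0 * δ 1 1 - δ 0 1 * δ 1 0 = 1 := by
    rw [← Matrix.det_fin_two, δ.2]
  refine ⟨mkSL (δ 1 1) (-c) (-(δ 0 1 * p)) (δ 0 0)
    (by rw [hc] at hdet; linear_combination hdet), ?_, ?_⟩
  · rw [Gamma0_mem]; simp [mkSL_val]
  · refine GL_ext_val ?_
    rw [Units.val_mul, Units.val_mul, mapGL_val, mapGL_val, atkinW_val hp,
      Matrix.mul_fin_two, Matrix.mul_fin_two]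
    have : (δ 1 0 : ℝ) = p * c := by exact_mod_cast hc
    simp [mkSL_val, this, mul_comm]

theorem S_mul_S : (S * S : SL(2, ℤ)) = -1 := by
  ext i j
  fin_cases i <;> fin_cases j <;>
    simp [Matrix.SpecialLinearGroup.coe_mul, coe_S]

theorem S_mul_T_zpow_val (n : ℤ) :
    ((S * T ^ n : SL(2, ℤ)) : Matrix (Fin 2) (Fin 2) ℤ) = !![0, -1; 1, n] := by
  rw [Matrix.SpecialLinearGroup.coe_mul, coe_T_zpow, coe_S, Matrix.mul_fin_two]
  simp

theorem mul_S_mul_T_zpow_inv_apply (γ : SL(2, ℤ)) (n : ℤ) :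
    (γ * (S * T ^ n)⁻¹) 1 0 = γ 1 0 * n - γ 1 1 := by
  rw [Matrix.SpecialLinearGroup.coe_mul, Matrix.SpecialLinearGroup.coe_inv, S_mul_T_zpow_val,
    Matrix.adjugate_fin_two_of, Matrix.mul_apply, Fin.sum_univ_two]
  simp [sub_eq_add_neg]

/-- Coset representatives: every `γ ∉ Γ₀(p)` lies in exactly `Γ₀(p) S T^j`. -/
theorem exists_coset (hp : p.Prime) (γ : SL(2, ℤ)) (hγ : γ ∉ Gamma0 p) :
    ∃ δ ∈ Gamma0 p, ∃ j : Fin p, γ = δ * (S * T ^ ((j : ℕ) : ℤ)) := by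
  have := Fact.mk hp
  rw [Gamma0_mem] at hγ
  let j : ZMod p := (γ 1 1 : ZMod p) * (γ 1 0 : ZMod p)⁻¹
  refine ⟨γ * (S * T ^ ((j.val : ℕ) : ℤ))⁻¹, ?_, ⟨j.val, j.val_lt⟩, by group⟩
  rw [Gamma0_mem, mul_S_mul_T_zpow_inv_apply]
  simp only [ZMod.natCast_val, ZMod.intCast_cast, ZMod.cast_id', id, Int.cast_sub, Int.cast_mul,
    j, sub_eq_zero]
  field_simp

theorem S_mul_T_zpow_not_mem (hp : p.Prime) (j : ℤ) : S * T ^ j ∉ Gamma0 p := by
  have := Fact.mk hp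
  rw [Gamma0_mem, S_mul_T_zpow_val]
  simp

theorem coset_injective (j j' : Fin p)
    (h : S * T ^ ((j : ℕ) : ℤ) * (S * T ^ ((j' : ℕ) : ℤ))⁻¹ ∈ Gamma0 p) : j = j' := by
  rw [Gamma0_mem, mul_S_mul_T_zpow_inv_apply, S_mul_T_zpow_val] at h
  simp [sub_eq_zero] at h
  have := congrArg ZMod.val h
  rw [ZMod.val_natCast, ZMod.val_natCast, Nat.mod_eq_of_lt j.isLt, Nat.mod_eq_of_lt j'.isLt] at this
  exact Fin.ext (by omega)

/-- Boundedness at every cusp of a `Γ₀(p)`-invariant function only needs the cusps `∞` and `0`. -/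
theorem isBoundedAtImInfty_slash_SL (hp : p.Prime) {k : ℤ} {f : ℍ → ℂ}
    (hinv : ∀ δ ∈ Gamma0 p, f ∣[k] δ = f) (hinf : IsBoundedAtImInfty f)
    (hzero : IsBoundedAtImInfty (f ∣[k] (S : SL(2, ℤ)))) (γ : SL(2, ℤ)) :
    IsBoundedAtImInfty (f ∣[k] γ) := by
  by_cases hγ : γ ∈ Gamma0 p
  · rwa [hinv γ hγ]
  · obtain ⟨δ, hδ, j, rfl⟩ := exists_coset hp γ hγ
    rw [SlashAction.slash_mul, hinv δ hδ, SlashAction.slash_mul, SL_slash]
    refine IsBoundedAtImInfty.slash (g := mapGL ℝ (T ^ ((j : ℕ) : ℤ))) k ?_ hzero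
    rw [mapGL_T_zpow_val]; simp

/-- Build a modular form of prime level from its behaviour at `∞` and `0`. -/
def mkForm (hp : p.Prime) {k : ℤ} (f : ℍ → ℂ)
    (hhol : MDiff f) (hinv : ∀ δ ∈ Gamma0 p, f ∣[k] δ = f) (hinf : IsBoundedAtImInfty f)
    (hzero : IsBoundedAtImInfty (f ∣[k] (S : SL(2, ℤ)))) : ModularForm (Gamma0 p) k where
  toFun := f
  slash_action_eq' := by
    rintro _ ⟨δ, hδ, rfl⟩
    exact hinv δ hδ
  holo' := hhol
  bdd_at_cusps' {c} hc := by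
    have : NeZero p := ⟨hp.ne_zero⟩
    rw [Subgroup.IsArithmetic.isCusp_iff_isCusp_SL2Z] at hc
    rw [OnePoint.isBoundedAt_iff_forall_SL2Z hc]
    exact fun γ _ => isBoundedAtImInfty_slash_SL hp hinv hinf hzero γ

@[simp] theorem coe_mkForm (hp : p.Prime) {k : ℤ} (f : ℍ → ℂ) (a b c d) :
    ⇑(mkForm hp (k := k) f a b c d) = f := rfl

section Forms

variable {k : ℤ}

theorem slash_Gamma0 (f : ModularForm (Gamma0 p) k) {δ : SL(2, ℤ)} (hδ : δ ∈ Gamma0 p) :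
    (⇑f ∣[k] δ) = ⇑f :=
  SlashInvariantFormClass.slash_action_eq f (mapGL ℝ δ) ⟨δ, hδ, rfl⟩

theorem atkinW_slash_S_T (hp : p ≠ 0) (f : ModularForm (Gamma0 p) k) (j : ℕ) :
    (⇑f ∣[k] atkinW p) ∣[k] (S * T ^ (j : ℤ) : SL(2, ℤ)) = ⇑f ∣[k] heckeMatrix p j := by
  rw [SL_slash, ← SlashAction.slash_mul]
  have h : atkinW p * mapGL ℝ (S * T ^ (j : ℤ)) = mapGL ℝ (-1 : SL(2, ℤ)) * heckeMatrix p j := by
    rw [← heckeMatrix_zero_mul_T hp, map_mul, atkinW, mul_assoc,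
      ← mul_assoc (heckeDiagMatrix p), heckeDiag_mul_S hp]
    simp only [← mul_assoc]
    rw [← map_mul, S_mul_S]
  rw [show (toGL ((Matrix.SpecialLinearGroup.map (Int.castRingHom ℝ)) (S * T ^ (j : ℤ))))
    = mapGL ℝ (S * T ^ (j : ℤ)) from rfl, h, SlashAction.slash_mul]
  congr 1
  exact slash_Gamma0 f (by rw [Gamma0_mem]; simp)

/-- The Atkin–Lehner operator on modular forms of prime level. -/
def atkinLehner (hp : p.Prime) (f : ModularForm (Gamma0 p) k) : ModularForm (Gamma0 p) k :=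
  mkForm hp (⇑f ∣[k] atkinW p)
    ((MDifferentiable.slash f.holo') k _)
    (fun δ hδ => by
      obtain ⟨δ', hδ', he⟩ := exists_atkinW_conj hp.ne_zero hδ
      rw [SL_slash, ← SlashAction.slash_mul]
      show ⇑f ∣[k] (atkinW p * mapGL ℝ δ) = _
      rw [he, SlashAction.slash_mul]
      congr 1
      exact slash_Gamma0 f hδ')
    (by
      rw [atkinW, SlashAction.slash_mul]
      refine IsBoundedAtImInfty.slash k ?_ ?_
      · simp [val_heckeDiagMatrix hp.ne_zero]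
      · have : NeZero p := ⟨hp.ne_zero⟩
        exact OnePoint.IsBoundedAt.smul_iff (g := mapGL ℝ S) |>.mp
          (f.bdd_at_cusps' (by
            rw [Subgroup.IsArithmetic.isCusp_iff_isCusp_SL2Z, isCusp_SL2Z_iff']
            exact ⟨S, rfl⟩)) |> OnePoint.isBoundedAt_infty_iff.mp)
    (by
      have := atkinW_slash_S_T hp.ne_zero f 0
      simp only [Nat.cast_zero, zpow_zero, mul_one] at this
      rw [this]
      refine IsBoundedAtImInfty.slash k (by simp [val_heckeMatrix hp.ne_zero]) ?_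
      have : NeZero p := ⟨hp.ne_zero⟩
      exact ModularFormClass.bdd_at_infty f)

@[simp] theorem coe_atkinLehner (hp : p.Prime) (f : ModularForm (Gamma0 p) k) :
    ⇑(atkinLehner hp f) = ⇑f ∣[k] atkinW p := rfl

/-- Trace of a form of prime level to level one, as a sum over cosets. -/
theorem exists_trace (hp : p.Prime) (f : ModularForm (Gamma0 p) k) :
    ∃ g : ModularForm 𝒮ℒ k,
      ⇑g = ⇑f + ∑ j : Fin p, ⇑f ∣[k] (S * T ^ ((j : ℕ) : ℤ) : SL(2, ℤ)) := by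
  have : NeZero p := ⟨hp.ne_zero⟩
  classical
  let 𝒢 : Subgroup (GL (Fin 2) ℝ) := (Gamma0 p : Subgroup (GL (Fin 2) ℝ))
  let Q := 𝒮ℒ ⧸ (𝒢.subgroupOf 𝒮ℒ)
  let rep : Option (Fin p) → SL(2, ℤ) := fun o => o.elim 1 fun j => S * T ^ ((j : ℕ) : ℤ)
  let e : Option (Fin p) → Q := fun o => ⟦⟨(mapGL ℝ (rep o))⁻¹, by simp⟩⟧
  have key : ∀ a b : SL(2, ℤ), (⟦(⟨(mapGL ℝ a)⁻¹, by simp⟩ : 𝒮ℒ)⟧ : Q) =
      ⟦⟨(mapGL ℝ b)⁻¹, by simp⟩⟧ ↔ a * b⁻¹ ∈ Gamma0 p := by
    intro a b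
    erw [QuotientGroup.eq, Subgroup.mem_subgroupOf]
    simp only [Subgroup.coe_mul, Subgroup.coe_inv, inv_inv]
    constructor
    · rintro ⟨x, hx, he⟩
      have : x = a * b⁻¹ := mapGL_injective (by rw [he, map_mul, map_inv])
      exact this ▸ hx
    · intro h
      exact ⟨_, h, by rw [map_mul, map_inv]⟩
  have hbij : Function.Bijective e := by
    constructor
    · rintro (_ | j) (_ | j') h
      · rfl
      · have := (key _ _).mp h
        simp only [rep, Option.elim, one_mul, inv_mem_iff] at this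
        exact absurd this (S_mul_T_zpow_not_mem hp _)
      · have := (key _ _).mp h
        simp only [rep, Option.elim, inv_one, mul_one] at this
        exact absurd this (S_mul_T_zpow_not_mem hp _)
      · exact congrArg some (coset_injective j j' ((key _ _).mp h))
    · intro q
      induction q using Quotient.inductionOn with
      | h r =>
        obtain ⟨_, γ, rfl⟩ := r
        by_cases hγ : γ⁻¹ ∈ Gamma0 p
        · refine ⟨none, ?_⟩
          have := (key 1 γ⁻¹).mpr (by simpa using hγ)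
          simpa [e, rep] using this
        · obtain ⟨δ, hδ, j, hj⟩ := exists_coset hp γ⁻¹ hγ
          refine ⟨some j, ?_⟩
          have := (key (S * T ^ ((j : ℕ) : ℤ)) γ⁻¹).mpr (by
            rw [hj, mul_inv_rev, mul_inv_cancel_left]
            exact inv_mem hδ)
          simpa [e, rep] using this
  refine ⟨ModularForm.trace 𝒮ℒ f, ?_⟩
  let : Fintype Q := Fintype.ofFinite _
  rw [ModularForm.coe_trace, ← Equiv.sum_comp (Equiv.ofBijective e hbij), Fintype.sum_option]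
  congr 1
  · show (⇑f ∣[k] ((mapGL ℝ (rep none))⁻¹)⁻¹) = _
    simp [rep]

/-- In weight two, `W_p + U_p = 0` on forms of prime level `p`. -/
theorem atkinW_add_heckeU (hp : p.Prime) (f : ModularForm (Gamma0 p) 2) :
    (⇑f ∣[(2 : ℤ)] atkinW p) + heckeU 2 p ⇑f = 0 := by
  obtain ⟨g, hg⟩ := exists_trace hp (atkinLehner hp f)
  have hg0 : g = 0 := rank_zero_iff_forall_zero.mp levelOne_weight_two_rank_zero g
  rw [hg0, FunLike.coe_zero] at hg
  rw [hg, coe_atkinLehner]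
  congr 1
  rw [heckeU, Finset.sum_range]
  exact Finset.sum_congr rfl fun j _ => (atkinW_slash_S_T hp.ne_zero f j).symm

theorem heckeU_eq_neg_atkinW (hp : p.Prime) (f : ModularForm (Gamma0 p) 2) :
    heckeU 2 p ⇑f = -(⇑f ∣[(2 : ℤ)] atkinW p) :=
  eq_neg_of_add_eq_zero_right (atkinW_add_heckeU hp f)

/-- `U_p = -W_p` on weight two cusp forms of level `p`. -/
theorem heckeULin_eq_neg_atkinW (hp : p.Prime) [NeZero p] (f : CuspForm (Gamma0 p) 2) :
    ⇑(CuspForm.heckeULin 2 (dvd_refl p) f) = -(⇑f ∣[(2 : ℤ)] atkinW p) := by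
  rw [CuspForm.coe_heckeULin_apply]
  exact heckeU_eq_neg_atkinW hp (f : ModularForm (Gamma0 p) 2)

end Forms

end Fermat.Agent.Eisenstein
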