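import Fermat.Agent.Eisenstein.ConstCongr
import Fermat.Agent.Eisenstein.EisensteinE
import Fermat.Agent.Modular.Index
import Fermat.Prelude.Thm_ModularForm_sturm_bound_Gamma0
import Mathlib.NumberTheory.ModularForms.LevelOne.GradedRing

/-!
The generators `A`, `C`, `B` of weight 2, 4, 6 on `Γ₀(3)` with integral expansions, `A B = C²`,
their relations with `E₄`, `E₆`, `Δ`, and the elliptic point where `A` and `C` vanish.
-/

set_option autoImplicit false

noncomputable section

open UpperHalfPlane ModularForm CongruenceSubgroup Matrix.SpecialLinearGroup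
open scoped MatrixGroups ModularForm Manifold

namespace Fermat.Agent.Eisenstein.Three

theorem three_prime : Nat.Prime 3 := Nat.prime_three

/-- `1 + 12 ∑ σ'(n) qⁿ`. -/
def serA : PowerSeries ℤ :=
  PowerSeries.mk fun n => if n = 0 then 1 else 12 * (sigmaPrime 3 n : ℤ)

/-- `∑ (σ₃(n) - σ₃(n/3)) qⁿ`. -/
def serC : PowerSeries ℤ :=
  PowerSeries.mk fun n => (∑ d ∈ n.divisors, (d : ℤ) ^ 3) -
    if 3 ∣ n then ∑ d ∈ (n / 3).divisors, (d : ℤ) ^ 3 else 0

/-- `C² / A`. -/
def serB : PowerSeries ℤ := serC ^ 2 * serA.invOfUnit 1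

/-- The weight two form `A`. -/
def formA : ModularForm (Gamma0 3) 2 := (2 : ℂ)⁻¹ • eisForm three_prime

/-- The weight four form `C`. -/
def formC : ModularForm (Gamma0 3) 4 :=
  (240 : ℂ)⁻¹ • (toLevel three_prime ModularForm.E₄ -
    (27 : ℂ)⁻¹ • atkinLehner three_prime (toLevel three_prime ModularForm.E₄))

/-- Product of two forms on `Γ₀(3)` with prescribed weight. -/
def mulW {a b c : ℤ} (h : a + b = c) (f : ModularForm (Gamma0 3) a) (g : ModularForm (Gamma0 3) b) :
    ModularForm (Gamma0 3) c :=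
  ModularForm.mcast h (f.mul g)

@[simp] theorem coe_mulW {a b c : ℤ} (h : a + b = c) (f : ModularForm (Gamma0 3) a)
    (g : ModularForm (Gamma0 3) b) : ⇑(mulW h f g) = ⇑f * ⇑g := rfl

/-- The numerator `A³ - 540 A C - E₆` of `B`. -/
def formN : ModularForm (Gamma0 3) 6 :=
  mulW (show (2 : ℤ) + 4 = 6 by norm_num) formA (mulW (show (2 : ℤ) + 2 = 4 by norm_num) formA formA)
    - (540 : ℂ) • mulW (show (2 : ℤ) + 4 = 6 by norm_num) formA formC -
    toLevel three_prime ModularForm.E₆

/-- The weight six form `B`. -/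
def formB : ModularForm (Gamma0 3) 6 := (5832 : ℂ)⁻¹ • formN

/-- Cancel a nonzero integral scalar in an integral expansion. -/
theorem intQ_of_smul {f : ℍ → ℂ} {P : PowerSeries ℤ} {c : ℤ} (hc : c ≠ 0)
    (h : IntQ f (PowerSeries.C c * P)) : IntQ ((c : ℂ)⁻¹ • f) P := by
  refine IntQ.of_hasSum fun τ => ?_
  have := (h.hasSum τ).mul_left (c : ℂ)⁻¹
  refine this.congr_fun fun n => ?_
  rw [PowerSeries.coeff_C_mul]
  push_cast
  field_simp

theorem serA_const : PowerSeries.constantCoeff serA = 1 := by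
  rw [← PowerSeries.coeff_zero_eq_constantCoeff_apply, serA, PowerSeries.coeff_mk, if_pos rfl]

theorem serA_mul_inv : serA * serA.invOfUnit 1 = 1 :=
  PowerSeries.mul_invOfUnit _ _ (by rw [serA_const]; rfl)

theorem serA_mul_serB : serA * serB = serC ^ 2 := by
  rw [serB, mul_left_comm, serA_mul_inv, mul_one]

theorem intQ_formA : IntQ formA serA := by
  have h : IntQ (eisForm three_prime) (PowerSeries.C 2 * serA) := by
    refine IntQ.of_qCoeff (one_mem_strictPeriods_Gamma0' 3) _ fun n => ?_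
    rw [qCoeff_eisForm, eisCoeff, PowerSeries.coeff_C_mul, serA, PowerSeries.coeff_mk]
    split_ifs <;> push_cast <;> ring
  exact (intQ_of_smul two_ne_zero h).congr fun τ => by simp [formA]

theorem serE4_sub_serV : serE4 - serV 3 serE4 = PowerSeries.C 240 * serC := by
  ext n
  rw [map_sub, coeff_serV, PowerSeries.coeff_C_mul, serC, PowerSeries.coeff_mk]
  rcases eq_or_ne n 0 with rfl | hn
  · simp
  · by_cases h3 : 3 ∣ n
    · have hn3 : n / 3 ≠ 0 := fun h => hn (Nat.eq_zero_of_dvd_of_div_eq_zero h3 h)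
      rw [if_pos h3, if_pos h3, coeff_serE4_of_ne_zero hn, coeff_serE4_of_ne_zero hn3]
      ring
    · rw [if_neg h3, if_neg h3, coeff_serE4_of_ne_zero hn]
      ring

theorem intQ_formC : IntQ formC serC := by
  have h27 : IntQ ((27 : ℂ)⁻¹ • (⇑ModularForm.E₄ ∣[(4 : ℤ)] atkinW 3)) (serV 3 serE4) := by
    have h := intQ_atkinW_levelOne (k := 4) (by norm_num : (3 : ℕ) ≠ 0) (by norm_num)
      (H := ModularForm.E₄) intQ_E4
    have := intQ_of_smul (c := 27) (by norm_num) (by norm_num at h ⊢; exact h)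
    simpa using this
  have h := intQ_E4.sub h27
  rw [serE4_sub_serV] at h
  exact (intQ_of_smul (c := 240) (by norm_num) h).congr fun τ => by simp [formC]

theorem intQ_formN :
    IntQ formN (serA * (serA * serA) - PowerSeries.C 540 * (serA * serC) - serE6) :=
  (((intQ_formA.mul (intQ_formA.mul intQ_formA)).sub
    ((intQ_formA.mul intQ_formC).smul 540)).sub intQ_E6).congr fun τ => by
      simp [formN]

theorem eq_zero_of_coeff {k : ℕ} {φ : ModularForm (Gamma0 3) (k : ℤ)} {P : PowerSeries ℤ}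
    (h : IntQ φ P) (h0 : ∀ n, n ≤ k / 3 → PowerSeries.coeff n P = 0) : P = 0 := by
  have hi : (Gamma0 3).index = 4 := by
    rw [Modular.index_Gamma0, ModularCurve.dedekindPsi, Finset.sum_filter,
      Nat.prime_three.divisors, Finset.sum_pair (by norm_num : (1 : ℕ) ≠ 3), if_pos squarefree_one,
      if_pos Nat.prime_three.squarefree]
  have hz := ModularForm.sturm_bound_Gamma0 3 φ fun n hn => by
    have hq := IntQ.qCoeff_eq (one_mem_strictPeriods_Gamma0' 3) h n
    rw [ModularFormClass.qCoeff, h0 n, Int.cast_zero] at hq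
    · exact hq
    · rw [hi] at hn
      have e : ((k : ℤ) * ((4 : ℕ) : ℤ)).toNat = 4 * k := by omega
      rw [e] at hn
      omega
  exact h.unique (IntQ.zero.congr fun τ => by simp [hz])

theorem coeff_one_mul (P Q : PowerSeries ℤ) :
    PowerSeries.coeff 1 (P * Q) = PowerSeries.coeff 0 P * PowerSeries.coeff 1 Q +
      PowerSeries.coeff 1 P * PowerSeries.coeff 0 Q := by
  rw [PowerSeries.coeff_mul, Finset.Nat.sum_antidiagonal_eq_sum_range_succ_mk]
  simp [Finset.sum_range_succ]

theorem coeff_two_mul (P Q : PowerSeries ℤ) :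
    PowerSeries.coeff 2 (P * Q) = PowerSeries.coeff 0 P * PowerSeries.coeff 2 Q +
      PowerSeries.coeff 1 P * PowerSeries.coeff 1 Q +
      PowerSeries.coeff 2 P * PowerSeries.coeff 0 Q := by
  rw [PowerSeries.coeff_mul, Finset.Nat.sum_antidiagonal_eq_sum_range_succ_mk]
  simp [Finset.sum_range_succ]

theorem coeff_zero_mul (P Q : PowerSeries ℤ) :
    PowerSeries.coeff 0 (P * Q) = PowerSeries.coeff 0 P * PowerSeries.coeff 0 Q := by
  simp

theorem coeffs_serA : PowerSeries.coeff 0 serA = 1 ∧ PowerSeries.coeff 1 serA = 12 ∧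
    PowerSeries.coeff 2 serA = 36 := by
  simp only [serA, PowerSeries.coeff_mk]
  decide

theorem coeffs_serC : PowerSeries.coeff 0 serC = 0 ∧ PowerSeries.coeff 1 serC = 1 ∧
    PowerSeries.coeff 2 serC = 9 := by
  simp only [serC, PowerSeries.coeff_mk]
  decide

theorem coeffs_serE6 : PowerSeries.coeff 0 serE6 = 1 ∧ PowerSeries.coeff 1 serE6 = -504 ∧
    PowerSeries.coeff 2 serE6 = -16632 := by
  simp only [serE6, PowerSeries.coeff_mk]
  decide

theorem serE4_eq : serE4 = serA * serA + PowerSeries.C 216 * serC := by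
  have h : IntQ (⇑(toLevel three_prime ModularForm.E₄ -
      mulW (show (2 : ℤ) + 2 = 4 by norm_num) formA formA - (216 : ℂ) • formC))
      (serE4 - serA * serA - PowerSeries.C 216 * serC) :=
    ((intQ_E4.sub (intQ_formA.mul intQ_formA)).sub (intQ_formC.smul 216)).congr fun τ => by
      simp
  have := eq_zero_of_coeff (k := 4) h fun n hn => by
    obtain ⟨hA0, hA1, -⟩ := coeffs_serA
    obtain ⟨hC0, hC1, -⟩ := coeffs_serC
    have e0 : PowerSeries.coeff 0 serE4 = 1 := by
      rw [PowerSeries.coeff_zero_eq_constantCoeff_apply, constantCoeff_serE4]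
    have e1 : PowerSeries.coeff 1 serE4 = 240 := by
      rw [coeff_serE4_of_ne_zero one_ne_zero]; simp
    interval_cases n
    · rw [map_sub, map_sub, coeff_zero_mul, PowerSeries.coeff_C_mul, e0, hA0, hC0]; norm_num
    · rw [map_sub, map_sub, coeff_one_mul, PowerSeries.coeff_C_mul, e1, hA0, hA1, hC1]; norm_num
  linear_combination this

theorem serN_eq : serA * (serA * serA) - PowerSeries.C 540 * (serA * serC) - serE6 =
    PowerSeries.C 5832 * serB := by
  set P := serA * (serA * serA) - PowerSeries.C 540 * (serA * serC) - serE6 with hP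
  have h : IntQ (⇑(mulW (show (2 : ℤ) + 6 = 8 by norm_num) formA formN -
      (5832 : ℂ) • mulW (show (4 : ℤ) + 4 = 8 by norm_num) formC formC))
      (serA * P - PowerSeries.C 5832 * (serC * serC)) :=
    ((intQ_formA.mul intQ_formN).sub ((intQ_formC.mul intQ_formC).smul 5832)).congr fun τ => by
      simp
  have hz := eq_zero_of_coeff (k := 8) h fun n hn => by
    obtain ⟨hA0, hA1, hA2⟩ := coeffs_serA
    obtain ⟨hC0, hC1, hC2⟩ := coeffs_serC
    obtain ⟨hE0, hE1, hE2⟩ := coeffs_serE6
    interval_cases n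
    · simp only [hP, map_sub, PowerSeries.coeff_C_mul, coeff_zero_mul, hA0, hC0, hE0]
      norm_num
    · simp only [hP, map_sub, PowerSeries.coeff_C_mul, coeff_zero_mul, coeff_one_mul, hA0, hA1,
        hC0, hC1, hE0, hE1]
      norm_num
    · simp only [hP, map_sub, PowerSeries.coeff_C_mul, coeff_zero_mul, coeff_one_mul,
        coeff_two_mul, hA0, hA1, hA2, hC0, hC1, hC2, hE0, hE1, hE2]
      norm_num
  rw [serB]
  linear_combination (serA.invOfUnit 1) * hz - P * serA_mul_inv

theorem intQ_formB : IntQ formB serB := by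
  have h := intQ_formN
  rw [serN_eq] at h
  exact (intQ_of_smul (c := 5832) (by norm_num) h).congr fun τ => by simp [formB]

theorem serE6_eq : serE6 =
    serA * (serA * serA) - PowerSeries.C 540 * (serA * serC) - PowerSeries.C 5832 * serB := by
  rw [← serN_eq]; ring

theorem serD_eq : serD = serA ^ 4 * serC - 81 * serA ^ 3 * serB + 2187 * serA * serC * serB -
    19683 * serB ^ 2 := by
  have h1 : serE4 ^ 3 - serE6 ^ 2 = PowerSeries.C 1728 * serD :=
    ((intQ_E4.pow 3).sub (intQ_E6.pow 2)).unique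
      ((intQ_discriminant.smul 1728).congr fun τ => by
        simp only [Pi.smul_apply, smul_eq_mul, Pi.sub_apply, Pi.pow_apply]
        rw [ModularForm.discriminant_eq_E₄_cube_sub_E₆_sq]
        push_cast
        ring)
  rw [serE4_eq, serE6_eq] at h1
  simp only [map_ofNat] at h1
  refine mul_left_cancel₀ (show (1728 : PowerSeries ℤ) ≠ 0 from fun h => by
    have := congrArg PowerSeries.constantCoeff h
    rw [map_ofNat, map_zero] at this
    norm_num at this) ?_
  linear_combination -h1 + (151632 * serA ^ 2 - 10077696 * serC) * serA_mul_serB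

/-- The elliptic point of order three of `Γ₀(3)`. -/
def ellPoint : ℍ := ⟨⟨-1 / 2, Real.sqrt 3 / 6⟩, by positivity⟩

/-- The element `(1 1; -3 -2)` fixing `ellPoint`. -/
def ellElt : SL(2, ℤ) := mkSL 1 1 (-3) (-2) (by norm_num)

theorem denom_ellElt :
    denom (mapGL ℝ ellElt : GL (Fin 2) ℝ) ellPoint = ⟨-1 / 2, -Real.sqrt 3 / 2⟩ := by
  simp only [denom, mapGL_val, ellElt, mkSL_val]
  apply Complex.ext <;> simp [ellPoint] <;> ring

theorem ellElt_smul : ellElt • ellPoint = ellPoint := by
  have h3 : Real.sqrt 3 * Real.sqrt 3 = 3 := Real.mul_self_sqrt (by norm_num)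
  ext
  rw [UpperHalfPlane.specialLinearGroup_apply]
  simp only [ellElt, mkSL_val]
  have hne : (-3 : ℂ) * (ellPoint : ℂ) + -2 ≠ 0 := by
    intro h
    have := congrArg Complex.im h
    simp [ellPoint] at this
  simp only [Matrix.of_apply, Matrix.cons_val', Matrix.cons_val_zero, Matrix.cons_val_one,
    algebraMap_int_eq, eq_intCast]
  push_cast
  rw [div_eq_iff hne]
  apply Complex.ext <;> simp [ellPoint] <;> nlinarith

theorem apply_ellPoint_eq_zero {k : ℤ} (φ : ModularForm (Gamma0 3) k)
    (hk : (⟨-1 / 2, -Real.sqrt 3 / 2⟩ : ℂ) ^ k ≠ 1) : φ ellPoint = 0 := by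
  have hmem : mapGL ℝ ellElt ∈ ((Gamma0 3 : Subgroup SL(2, ℤ)) : Subgroup (GL (Fin 2) ℝ)) :=
    ⟨ellElt, by show ellElt ∈ Gamma0 3; rw [Gamma0_mem]; simp [ellElt, mkSL_val]; decide, rfl⟩
  have h := SlashInvariantForm.slash_action_eqn'' φ hmem ellPoint
  rw [denom_ellElt] at h
  change φ (ellElt • ellPoint) = _ at h
  rw [ellElt_smul] at h
  by_contra hne
  exact hk (mul_right_cancel₀ hne (h.symm.trans (one_mul _).symm))

theorem omega_cube : (⟨-1 / 2, -Real.sqrt 3 / 2⟩ : ℂ) ^ 3 = 1 := by
  have h3 : Real.sqrt 3 * Real.sqrt 3 = 3 := Real.mul_self_sqrt (by norm_num)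
  apply Complex.ext <;> simp [pow_succ] <;> ring_nf
  · rw [show Real.sqrt 3 ^ 2 = 3 from Real.sq_sqrt (by norm_num)]; norm_num
  · rw [show Real.sqrt 3 ^ 3 = Real.sqrt 3 * 3 by rw [pow_succ, pow_two, h3, mul_comm]]; ring

theorem omega_ne_one : (⟨-1 / 2, -Real.sqrt 3 / 2⟩ : ℂ) ≠ 1 := fun h => by
  have := congrArg Complex.re h
  simp at this
  norm_num at this

theorem formA_ellPoint : formA ellPoint = 0 := by
  refine apply_ellPoint_eq_zero formA ?_
  rw [zpow_ofNat]
  intro h
  have := omega_cube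
  rw [pow_succ, h, one_mul] at this
  exact omega_ne_one this

theorem formC_ellPoint : formC ellPoint = 0 := by
  refine apply_ellPoint_eq_zero formC ?_
  rw [zpow_ofNat, pow_succ, omega_cube, one_mul]
  exact omega_ne_one

theorem formB_ellPoint_ne_zero : formB ellPoint ≠ 0 := by
  intro hB
  have h4 : ModularForm.E₄ ellPoint = 0 := by
    have h : IntQ (⇑formA * ⇑formA + (216 : ℂ) • ⇑formC) serE4 := by
      rw [serE4_eq]
      simpa using (intQ_formA.mul intQ_formA).add (intQ_formC.smul 216)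
    rw [intQ_E4.eq h]
    simp [formA_ellPoint, formC_ellPoint]
  have h6 : ModularForm.E₆ ellPoint = 0 := by
    have h : IntQ (⇑formA * (⇑formA * ⇑formA) - (540 : ℂ) • (⇑formA * ⇑formC) -
        (5832 : ℂ) • ⇑formB) serE6 := by
      rw [serE6_eq]
      simpa using ((intQ_formA.mul (intQ_formA.mul intQ_formA)).sub
        ((intQ_formA.mul intQ_formC).smul 540)).sub (intQ_formB.smul 5832)
    rw [intQ_E6.eq h]
    simp [formA_ellPoint, formC_ellPoint, hB]
  have := ModularForm.discriminant_eq_E₄_cube_sub_E₆_sq ellPoint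
  rw [h4, h6] at this
  simp [ModularForm.discriminant_ne_zero] at this

end Fermat.Agent.Eisenstein.Three
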