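import Fermat.Agent.Periods.Integral
import Fermat.Agent.Periods.CuspidalBasis
import Fermat.Prelude.Def_CuspForm_HeckeEvalForms
import Fermat.Prelude.Def_ModularCurve_ModularUnit

/-!
The lower bound for the Eisenstein quotient of prime level `p`: the homomorphism
`γ ↦ d ^ 12 mod p` on `Γ₀(p)` is cuspidal, Eisenstein, and has image of order
`(p - 1) / gcd (p - 1, 12)`.
-/

set_option autoImplicit false

noncomputable section

open CongruenceSubgroup ModularCurve ModularCurve.Period
open scoped MatrixGroups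

namespace Fermat.Agent.Eisenstein

open Periods (HeckeIdx heckeMat heckeHom transferElt transferIdx transfer_spec)

variable (p : ℕ) [Fact p.Prime]

/-- The lower right entry modulo `p`, as a unit. -/
def lowerUnit : Gamma0 p →* (ZMod p)ˣ := (Gamma0Map p).toHomUnits

theorem coe_lowerUnit (γ : Gamma0 p) :
    ((lowerUnit p γ : (ZMod p)ˣ) : ZMod p) = ((((γ : SL(2, ℤ)) 1 1 : ℤ)) : ZMod p) := rfl

/-- `γ ↦ d ^ 12 mod p`. -/
def twelveHom : Additive (Gamma0 p) →+ Additive (ZMod p)ˣ :=
  MonoidHom.toAdditive ((powMonoidHom 12).comp (lowerUnit p))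

theorem twelveHom_apply (γ : Gamma0 p) :
    twelveHom p (Additive.ofMul γ) = Additive.ofMul (lowerUnit p γ ^ 12) := rfl

variable {p}

theorem cast_gamma_one_zero (γ : Gamma0 p) : ((((γ : SL(2, ℤ)) 1 0 : ℤ)) : ZMod p) = 0 :=
  Gamma0_mem.mp γ.2

theorem cast_det_gamma (γ : Gamma0 p) :
    ((((γ : SL(2, ℤ)) 0 0 : ℤ)) : ZMod p) * (((γ : SL(2, ℤ)) 1 1 : ℤ) : ZMod p) = 1 := by
  have h := (γ : SL(2, ℤ)).2
  rw [Matrix.det_fin_two] at h
  have := congrArg (Int.cast : ℤ → ZMod p) h
  push_cast at this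
  rw [cast_gamma_one_zero, mul_zero, sub_zero] at this
  exact this

theorem isCuspidalHom_twelveHom : Periods.IsCuspidalHom (twelveHom p) := by
  intro γ hγ
  rw [twelveHom_apply, ← ofMul_one]
  congr 1
  refine Units.ext ?_
  rw [Units.val_pow_eq_pow_val, coe_lowerUnit, Units.val_one]
  rw [Matrix.trace_fin_two] at hγ
  set a : ℤ := ((γ : SL(2, ℤ)) 0 0 : ℤ) with ha
  set d : ℤ := ((γ : SL(2, ℤ)) 1 1 : ℤ) with hd
  have had : (a : ZMod p) * (d : ZMod p) = 1 := cast_det_gamma γ
  obtain ⟨t, ht⟩ : ∃ t : ℤ, a = t - d := ⟨a + d, by ring⟩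
  have h2 : -2 ≤ t ∧ t ≤ 2 := by
    have : (t : ℤ) ^ 2 ≤ 4 := by
      have : a + d = t := by rw [ht]; ring
      rw [← this]; exact hγ
    constructor <;> nlinarith
  rw [ht] at had
  push_cast at had
  generalize (d : ZMod p) = x at had ⊢
  obtain ⟨h2l, h2r⟩ := h2
  interval_cases t <;> push_cast at had
  · have h0 : (x + 1) ^ 2 = 0 := by linear_combination -had
    obtain rfl : x = -1 := eq_neg_of_add_eq_zero_left (pow_eq_zero_iff two_ne_zero |>.mp h0)
    ring
  · linear_combination -((x - 1) * (x ^ 9 + x ^ 6 + x ^ 3 + 1)) * had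
  · linear_combination -(x ^ 10 - x ^ 8 + x ^ 6 - x ^ 4 + x ^ 2 - 1) * had
  · linear_combination -((x + 1) * (x ^ 9 - x ^ 6 + x ^ 3 - 1)) * had
  · have h0 : (x - 1) ^ 2 = 0 := by linear_combination -had
    obtain rfl : x = 1 := sub_eq_zero.mp (pow_eq_zero_iff two_ne_zero |>.mp h0)
    ring

theorem card_heckeIdx_T {q : ℕ} (hqp : ¬ q ∣ p) : Fintype.card (HeckeIdx p q) = q + 1 := by
  rw [Fintype.card_eq_sum_ones]
  exact (Periods.sum_heckeIdx_T hqp fun _ => 1).trans (by simp)

theorem card_heckeIdx_U : Fintype.card (HeckeIdx p p) = p := by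
  rw [Fintype.card_eq_sum_ones]
  exact (Periods.sum_heckeIdx_U (dvd_refl p) fun _ => 1).trans (by simp)

omit [Fact p.Prime] in
theorem heckeMat_one_zero {q : ℕ} (i : HeckeIdx p q) : heckeMat p q i 1 0 = 0 := by
  obtain ⟨_ | j, h⟩ := i <;> simp [heckeMat]

theorem prod_lowerUnit_transfer_T {q : ℕ} (hq : q.Prime) (hqp : ¬ q ∣ p) (γ : Gamma0 p) :
    ∏ i, lowerUnit p (transferElt hq γ i) = lowerUnit p γ ^ (q + 1) := by
  refine Units.ext ?_
  rw [Units.coe_prod, Units.val_pow_eq_pow_val, ← card_heckeIdx_T hqp]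
  simp only [coe_lowerUnit]
  set m : HeckeIdx p q → ZMod p := fun i => (heckeMat p q i 1 1 : ℤ) with hm
  have hne : ∀ i, m i ≠ 0 := by
    rintro ⟨_ | j, h⟩
    · simp [hm, heckeMat]
    · simp only [hm, heckeMat, Option.elim, Matrix.of_apply, Matrix.cons_val',
        Matrix.cons_val_one, Matrix.cons_val_fin_one, Int.cast_natCast]
      rw [Ne, ZMod.natCast_eq_zero_iff]
      exact fun hd => hqp ((Nat.prime_dvd_prime_iff_eq Fact.out hq).mp hd ▸ dvd_refl q)
  have step : ∀ i, ((((transferElt hq γ i : Gamma0 p) : SL(2, ℤ)) 1 1 : ℤ) : ZMod p)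
      * m (transferIdx hq γ i) = m i * (((γ : SL(2, ℤ)) 1 1 : ℤ) : ZMod p) := by
    intro i
    have h := congrArg (fun M : Matrix (Fin 2) (Fin 2) ℤ => ((M 1 1 : ℤ) : ZMod p))
      (transfer_spec hq γ i)
    simp only [Matrix.mul_apply, Fin.sum_univ_two, heckeMat_one_zero, Int.cast_add,
      Int.cast_mul, Int.cast_zero, zero_mul, zero_add] at h
    rw [show ((((transferElt hq γ i : Gamma0 p) : SL(2, ℤ)).1 1 0 : ℤ) : ZMod p) = 0 from
      cast_gamma_one_zero _, zero_mul, zero_add] at h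
    exact h.symm
  have hprod := Finset.prod_congr rfl (fun i (_ : i ∈ Finset.univ) => step i)
  rw [Finset.prod_mul_distrib, Finset.prod_mul_distrib, Finset.prod_const,
    (Periods.transferIdx_bijective hq γ).prod_comp m, Finset.card_univ, mul_comm (∏ i, m i)]
    at hprod
  exact mul_right_cancel₀ (Finset.prod_ne_zero_iff.mpr fun i _ => hne i) hprod

theorem lowerUnit_transfer_U (γ : Gamma0 p) (i : HeckeIdx p p) :
    lowerUnit p (transferElt (Fact.out : p.Prime) γ i) = lowerUnit p γ := by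
  have hp : p.Prime := Fact.out
  refine Units.ext ?_
  simp only [coe_lowerUnit]
  have hM : ∀ i : HeckeIdx p p, heckeMat p p i 0 0 = 1 := by
    rintro ⟨_ | j, h⟩
    · exact absurd (dvd_refl p) (h rfl)
    · simp [heckeMat]
  have h := congrArg (fun M : Matrix (Fin 2) (Fin 2) ℤ => ((M 0 0 : ℤ) : ZMod p))
    (transfer_spec hp γ i)
  simp only [Matrix.mul_apply, Fin.sum_univ_two, heckeMat_one_zero, hM, Int.cast_add,
    Int.cast_mul, Int.cast_zero, Int.cast_one, one_mul, mul_one, mul_zero, add_zero] at h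
  rw [cast_gamma_one_zero γ, mul_zero, add_zero] at h
  have h1 := cast_det_gamma γ
  have h2 := cast_det_gamma (transferElt hp γ i)
  rw [← h] at h2
  exact mul_left_cancel₀ (left_ne_zero_of_mul_eq_one h1) (h2.trans h1.symm)

theorem heckeHom_twelveHom (q : Nat.Primes) :
    heckeHom ℤ (Additive (ZMod p)ˣ) q.2 (twelveHom p) = eisensteinSystem p q • twelveHom p := by
  refine AddMonoidHom.ext fun x => ?_
  obtain ⟨γ, rfl⟩ := Additive.ofMul.surjective x
  rw [Periods.heckeHom_apply]
  change _ = eisensteinSystem p q • twelveHom p (Additive.ofMul γ)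
  simp only [twelveHom_apply]
  rw [← ofMul_prod, ← ofMul_zpow, Finset.prod_pow]
  congr 1
  by_cases hqp : (q : ℕ) ∣ p
  · rw [eisensteinSystem_of_dvd hqp, zpow_one]
    obtain ⟨q, hq⟩ := q
    obtain rfl : q = p := (Nat.prime_dvd_prime_iff_eq hq Fact.out).mp hqp
    rw [Finset.prod_congr rfl fun i _ => lowerUnit_transfer_U γ i, Finset.prod_const,
      Finset.card_univ, card_heckeIdx_U]
    congr 1
    calc lowerUnit q γ ^ q = lowerUnit q γ ^ (q - 1 + 1) := by rw [Nat.sub_add_cancel hq.one_le]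
      _ = lowerUnit q γ := by rw [pow_succ, ZMod.units_pow_card_sub_one_eq_one, one_mul]
  · rw [eisensteinSystem_of_not_dvd hqp, prod_lowerUnit_transfer_T q.2 hqp,
      show (1 : ℤ) + ((q : ℕ) : ℤ) = (((q : ℕ) + 1 : ℕ) : ℤ) by push_cast; ring, zpow_natCast,
      ← pow_mul, ← pow_mul, mul_comm]

/-- Every polynomial in the Hecke operators acts compatibly on the three kinds of homomorphisms. -/
theorem exists_heckeOps (P : HeckeAlg) :
    ∃ (Dz : Module.End ℤ (Additive (Gamma0 p) →+ ℤ)) (Dc : Module.End ℂ (Additive (Gamma0 p) →+ ℂ))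
      (Da : Module.End ℤ (Additive (Gamma0 p) →+ Additive (ZMod p)ˣ)),
      (∀ ψ, Dc ((Int.castAddHom ℂ).comp ψ) = (Int.castAddHom ℂ).comp (Dz ψ)) ∧
      (∀ (f : ℤ →+ Additive (ZMod p)ˣ) ψ, Da (f.comp ψ) = f.comp (Dz ψ)) ∧
      (∀ x : CuspForm (Gamma0 p) 2 × CuspForm (Gamma0 p) 2,
        periodHomPair p (((CuspForm.heckeEvalForms p 2 P : Module.End ℂ _)).prodMap
          (CuspForm.heckeEvalForms p 2 P : Module.End ℂ _) x) = Dc (periodHomPair p x)) ∧
      Da (twelveHom p) = MvPolynomial.aeval (eisensteinSystem p) P • twelveHom p := by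
  induction P using MvPolynomial.induction_on with
  | C a =>
    refine ⟨a • LinearMap.id, (a : ℂ) • LinearMap.id, a • LinearMap.id, fun ψ => ?_, fun f ψ => ?_,
      fun x => ?_, ?_⟩
    · refine AddMonoidHom.ext fun g => ?_
      simp
    · refine AddMonoidHom.ext fun g => ?_
      simp [← map_zsmul]
    · rw [CuspForm.heckeEvalForms_C, LinearMap.smul_apply, LinearMap.id_apply, ← map_smul]
      congr 1
      rw [Subalgebra.coe_algebraMap, Module.algebraMap_end_eq_smul_id]
      simp [Int.cast_smul_eq_zsmul, Prod.smul_def]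
    · rw [MvPolynomial.aeval_C]
      simp
  | add P Q hP hQ =>
    obtain ⟨Dz, Dc, Da, h1, h2, h3, h4⟩ := hP
    obtain ⟨Dz', Dc', Da', h1', h2', h3', h4'⟩ := hQ
    refine ⟨Dz + Dz', Dc + Dc', Da + Da', fun ψ => ?_, fun f ψ => ?_, fun x => ?_, ?_⟩
    · rw [LinearMap.add_apply, h1, h1', LinearMap.add_apply, AddMonoidHom.comp_add]
    · rw [LinearMap.add_apply, h2, h2', LinearMap.add_apply, AddMonoidHom.comp_add]
    · rw [LinearMap.add_apply, ← h3, ← h3', ← map_add]
      congr 1
      simp [map_add]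
    · rw [LinearMap.add_apply, h4, h4', map_add]
      refine AddMonoidHom.ext fun g => ?_
      exact (add_zsmul (twelveHom p g) _ _).symm
  | mul_X P q hP =>
    obtain ⟨Dz, Dc, Da, h1, h2, h3, h4⟩ := hP
    refine ⟨Dz * heckeHom ℤ ℤ q.2, Dc * heckeHom ℂ ℂ q.2, Da * heckeHom ℤ _ q.2,
      fun ψ => ?_, fun f ψ => ?_, fun x => ?_, ?_⟩
    · rw [Module.End.mul_apply, Module.End.mul_apply, ← h1]
      congr 1
      refine AddMonoidHom.ext fun g => ?_
      obtain ⟨γ, rfl⟩ := Additive.ofMul.surjective g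
      simp [Periods.heckeHom_apply]
    · rw [Module.End.mul_apply, Module.End.mul_apply, Periods.heckeHom_comp, h2]
    · rw [map_mul, show (MvPolynomial.X q : HeckeAlg) = heckeGen q from rfl,
        CuspForm.heckeEvalForms_heckeGen, Subalgebra.coe_mul, Module.End.mul_apply]
      by_cases hqp : (q : ℕ) ∣ p
      · rw [CuspForm.heckeFormsGen_of_dvd hqp, CuspForm.heckeAlgebra.coe_U, ← Prod.mk.eta (p := x),
          Periods.heckeHom_periodHomPair_U q.2 hqp, ← h3]
        rfl
      · rw [CuspForm.heckeFormsGen_of_not_dvd hqp, CuspForm.heckeAlgebra.coe_T,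
          ← Prod.mk.eta (p := x), Periods.heckeHom_periodHomPair_T q.2 hqp, ← h3]
        rfl
    · rw [Module.End.mul_apply, heckeHom_twelveHom, map_mul, MvPolynomial.aeval_X]
      refine (LinearMap.map_smul_of_tower Da _ _).trans ?_
      rw [h4]
      refine AddMonoidHom.ext fun g => ?_
      change eisensteinSystem p q • MvPolynomial.aeval (eisensteinSystem p) P • twelveHom p g =
        (MvPolynomial.aeval (eisensteinSystem p) P * eisensteinSystem p q) • twelveHom p g
      rw [← mul_zsmul]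
      congr 1
      ring

theorem exists_addOrderOf_twelveHom :
    ∃ γ : Gamma0 p, addOrderOf (twelveHom p (Additive.ofMul γ)) = eisensteinNumerator p := by
  have hp : p.Prime := Fact.out
  obtain ⟨u, hu⟩ := IsCyclic.exists_generator (α := (ZMod p)ˣ)
  have hcop : Nat.Coprime (u : ZMod p).val p := ZMod.val_coe_unit_coprime u
  obtain ⟨r, s, hrs⟩ := Nat.isCoprime_iff_coprime.mpr hcop
  obtain ⟨γ, hγ⟩ := Periods.exists_gamma0_of_entries (N := p) (a := r) (b := -s)
    (c := (p : ℤ)) (d := ((u : ZMod p).val : ℤ)) (by linear_combination hrs) dvd_rfl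
  refine ⟨γ, ?_⟩
  have hu' : lowerUnit p γ = u := by
    refine Units.ext ?_
    rw [coe_lowerUnit]
    have := congrFun (congrFun hγ 1) 1
    change (γ : SL(2, ℤ)).1 1 1 = _ at this
    rw [this]
    simp
  rw [twelveHom_apply, addOrderOf_ofMul_eq_orderOf, hu', orderOf_pow,
    orderOf_eq_card_of_forall_mem_zpowers hu, Nat.card_eq_fintype_card, ZMod.card_units]
  rfl

/-- If a polynomial in the Hecke operators kills `S₂(Γ₀(p))`, its Eisenstein value is divisible
by the numerator of `(p - 1) / 12`. -/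
theorem eisensteinNumerator_dvd_of_eval_eq_zero {P : HeckeAlg}
    (h : CuspForm.heckeEvalForms p 2 P = 0) :
    (eisensteinNumerator p : ℤ) ∣ MvPolynomial.aeval (eisensteinSystem p) P := by
  obtain ⟨Dz, Dc, Da, h1, h2, h3, h4⟩ := exists_heckeOps (p := p) P
  obtain ⟨δ, e, he, -, hspan⟩ := Periods.exists_cuspidalBasis.{0} p
  have hzero : ∀ i, Dz (e i) = 0 := by
    intro i
    have hmem : (Int.castAddHom ℂ).comp (e i) ∈ parabolicHoms ℂ (Gamma0 p) ℂ :=
      Periods.intCast_comp_mem_parabolicHoms p fun γ hγ => he i γ hγ.le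
    rw [← Periods.range_periodHomPair p] at hmem
    obtain ⟨x, hx⟩ := hmem
    have h0 := h1 (e i)
    rw [← hx, ← h3, h, ZeroMemClass.coe_zero] at h0
    simp only [LinearMap.prodMap_apply, LinearMap.zero_apply, Prod.mk_zero_zero, map_zero] at h0
    refine AddMonoidHom.ext fun g => ?_
    have := DFunLike.congr_fun h0.symm g
    simpa using this
  have hsum : twelveHom p = ∑ i, (zmultiplesHom (Additive (ZMod p)ˣ)
      (twelveHom p (Additive.ofMul (δ i)))).comp (e i) := by
    refine AddMonoidHom.ext fun g => ?_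
    rw [AddMonoidHom.finsetSum_apply, hspan _ _ isCuspidalHom_twelveHom g]
    simp
  have hkill : MvPolynomial.aeval (eisensteinSystem p) P • twelveHom p = 0 := by
    rw [← h4, hsum, map_sum]
    refine Finset.sum_eq_zero fun i _ => ?_
    rw [h2, hzero, AddMonoidHom.comp_zero]
  obtain ⟨γ, hγ⟩ := exists_addOrderOf_twelveHom (p := p)
  rw [← hγ, addOrderOf_dvd_iff_zsmul_eq_zero]
  exact DFunLike.congr_fun hkill (Additive.ofMul γ)

end Fermat.Agent.Eisenstein

end
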