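import Fermat.Agent.Eisenstein.LevelThree
import Fermat.Agent.Eisenstein.LargePrime
import Mathlib.RingTheory.PowerSeries.Expand

/-!
For `p ≡ 8 (mod 9)` there is no constant congruence modulo `9` with constant prime to `3`.
-/

set_option autoImplicit false

noncomputable section

open UpperHalfPlane ModularForm CongruenceSubgroup Matrix.SpecialLinearGroup
open scoped MatrixGroups ModularForm Polynomial

namespace Fermat.Agent.Eisenstein

/-- `∑ σ₃(n) qⁿ`. -/
def serS : PowerSeries ℤ := PowerSeries.mk fun n => ∑ d ∈ n.divisors, (d : ℤ) ^ 3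

theorem serE4_eq_one_add : serE4 = 1 + PowerSeries.C 240 * serS := by
  ext n
  rw [map_add, PowerSeries.coeff_one, PowerSeries.coeff_C_mul, serS, PowerSeries.coeff_mk]
  rcases eq_or_ne n 0 with rfl | hn
  · simp [constantCoeff_serE4]
  · rw [coeff_serE4_of_ne_zero hn, if_neg hn, zero_add]

theorem red_serE6_nine : red 9 serE6 = 1 := by
  ext n
  rw [PowerSeries.coeff_map, PowerSeries.coeff_one]
  rcases eq_or_ne n 0 with rfl | hn
  · simp [constantCoeff_serE6]
  · rw [coeff_serE6_of_ne_zero hn, if_neg hn, map_mul]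
    rw [show Int.castRingHom (ZMod 9) (-504) = 0 from by decide, zero_mul]

theorem red_serE4_cube_nine : red 9 (serE4 ^ 3) = 1 := by
  rw [serE4_eq_one_add,
    show (1 + PowerSeries.C (240 : ℤ) * serS) ^ 3 = 1 + PowerSeries.C 9 *
      (PowerSeries.C 80 * serS + PowerSeries.C 19200 * serS ^ 2 +
        PowerSeries.C 1536000 * serS ^ 3) by simp only [map_ofNat]; ring,
    map_add, map_one, map_mul, PowerSeries.map_C,
    show Int.castRingHom (ZMod 9) 9 = 0 from by decide, map_zero, zero_mul, add_zero]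

theorem red_serE4_sq_nine : red 9 (serE4 * serE4) = 1 + 3 * red 9 serS := by
  rw [serE4_eq_one_add,
    show (1 + PowerSeries.C (240 : ℤ) * serS) * (1 + PowerSeries.C 240 * serS) =
      1 + 3 * serS + PowerSeries.C 9 * (PowerSeries.C 53 * serS + PowerSeries.C 6400 * serS ^ 2)
      by simp only [map_ofNat]; ring,
    map_add, map_add, map_one, map_mul, map_ofNat, map_mul, PowerSeries.map_C,
    show Int.castRingHom (ZMod 9) 9 = 0 from by decide, map_zero, zero_mul, add_zero]

/-- Evaluation of integral polynomials at the series of `Δ`. -/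
def evD : ℤ[X] →+* PowerSeries ℤ := Polynomial.eval₂RingHom PowerSeries.C serD

theorem red_serV_three (P : PowerSeries ℤ) : red 3 (serV 3 P) = red 3 P ^ 3 := by
  have hf : MvPowerSeries.map (frobenius (ZMod 3) 3)
      (MvPowerSeries.expand 3 three_ne_zero (red 3 P)) = red 3 P ^ 3 :=
    MvPowerSeries.map_frobenius_expand 3 three_ne_zero
  rw [← hf, ZMod.frobenius_zmod, MvPowerSeries.map_id]
  ext n
  show _ = PowerSeries.coeff n (PowerSeries.expand 3 three_ne_zero (red 3 P))
  rw [PowerSeries.coeff_expand, PowerSeries.coeff_map, coeff_serV]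
  split_ifs <;> simp [PowerSeries.coeff_map]

/-- The Artin–Schreier relation satisfied by `∑ σ₃(n) qⁿ` modulo `3`. -/
theorem red_serD_three : red 3 serD = red 3 serS - red 3 serS ^ 3 := by
  have hA : red 3 Three.serA = 1 := by
    ext n
    rw [PowerSeries.coeff_map, PowerSeries.coeff_one, Three.serA, PowerSeries.coeff_mk]
    split_ifs
    · simp
    · rw [map_mul, show Int.castRingHom (ZMod 3) 12 = 0 from by decide, zero_mul]
  have hC : Three.serC = serS - serV 3 serS := by
    ext n
    simp only [Three.serC, map_sub, coeff_serV, serS, PowerSeries.coeff_mk]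
  have h3 : (3 : PowerSeries (ZMod 3)) = 0 := by
    rw [← map_ofNat (PowerSeries.C (R := ZMod 3)) 3, show (3 : ZMod 3) = 0 from by decide, map_zero]
  rw [Three.serD_eq, hC]
  simp only [map_sub, map_add, map_mul, map_pow, map_ofNat, hA, red_serV_three]
  linear_combination (-27 * red 3 Three.serB + 729 * (red 3 serS - red 3 serS ^ 3) *
    red 3 Three.serB - 6561 * red 3 Three.serB ^ 2) * h3

theorem no_poly_artinSchreier {F : Type*} [Field F] {T P : F[X]} (hP : P ≠ 0) :
    T * P ^ 2 - T ^ 3 ≠ Polynomial.X * P ^ 3 := by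
  intro h
  obtain ⟨q, t, g, hqt, rfl, rfl⟩ := UniqueFactorizationMonoid.exists_reduced_factors P hP T
  have hg : g ≠ 0 := left_ne_zero_of_mul hP
  have h' : t * q ^ 2 - t ^ 3 = Polynomial.X * q ^ 3 := by
    refine mul_left_cancel₀ (pow_ne_zero 3 hg) ?_
    linear_combination h
  have hdvd : q ∣ t ^ 3 := ⟨t * q - Polynomial.X * q ^ 2, by linear_combination -h'⟩
  have hq : IsUnit q := (hqt.pow_right (n := 3)) dvd_rfl hdvd
  obtain ⟨k, hk, rfl⟩ := Polynomial.isUnit_iff.mp hq
  have hk0 : k ≠ 0 := hk.ne_zero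
  rcases Nat.eq_zero_or_pos t.natDegree with hd | hd
  · obtain ⟨t0, rfl⟩ := Polynomial.natDegree_eq_zero.mp hd
    have := congrArg (fun P => Polynomial.coeff P 1) h'
    simp [← map_pow, Polynomial.coeff_C] at this
    exact hk0 (pow_eq_zero_iff'.mp this.symm).1
  · have h1 : (t * Polynomial.C k ^ 2 - t ^ 3).natDegree = 3 * t.natDegree := by
      rw [← map_pow, Polynomial.natDegree_sub_eq_right_of_natDegree_lt, Polynomial.natDegree_pow]
      rw [Polynomial.natDegree_mul_C (pow_ne_zero 2 hk0), Polynomial.natDegree_pow]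
      omega
    rw [h', ← map_pow, Polynomial.natDegree_mul_C (pow_ne_zero 3 hk0), Polynomial.natDegree_X] at h1
    omega

variable {p : ℕ}

/-- No constant congruence modulo `9` when `p ≡ 8 (mod 9)`. -/
theorem not_constCongr_nine (hp : p.Prime) (h9 : p % 9 = 8) {c : ℤ} (hc : ¬ (3 : ℤ) ∣ c)
    (M : ConstCongr p 9 c) : False := by
  have h1p : 1 ≤ p := hp.one_lt.le
  have hk : 1 ≤ 12 * p := by omega
  have hpN : ((p : ℤ) : ZMod 9) = -1 := by
    have h : ((p % 9 : ℕ) : ZMod 9) = (p : ZMod 9) := ZMod.natCast_mod p 9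
    rw [h9] at h
    rw [Int.cast_natCast, ← h]
    decide
  have hpow : (((p : ℤ) ^ (12 * p - 1) : ℤ) : ZMod 9) = -1 := by
    rw [Int.cast_pow, hpN, Odd.neg_one_pow ⟨6 * p - 1, by omega⟩]
  obtain ⟨F0, hF0⟩ := exists_discPow p
  obtain ⟨G0, hG0⟩ := exists_levelOne_hecke hp hk hF0
  obtain ⟨q, hq⟩ := seed0.decompose p (ModularForm.mcast (by simp) G0) _
    (hG0.congr fun _ => rfl)
  obtain ⟨G, PG, hG, -, hcong⟩ := exists_levelOne_congr hp M.intQ M.congr hk hF0 1
  obtain ⟨g, hg⟩ := seed14.decompose (p - 1)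
    (ModularForm.mcast (by push_cast [Nat.cast_sub h1p]; ring) G) _ (hG.congr fun _ => rfl)
  set P : ℤ[X] := ∑ j ∈ Finset.range (p - 1 + 1), Polynomial.C (g j) * Polynomial.X ^ j with hPdef
  set Q : ℤ[X] := ∑ j ∈ Finset.range (p + 1), Polynomial.C (q j) * Polynomial.X ^ j with hQdef
  set K := red 9 (serU p (serD ^ p)) - red 9 (serV p (serD ^ p)) with hKdef
  have hsum : ∀ (s : ℕ) (g : ℕ → ℤ),
      red 9 (∑ j ∈ Finset.range (s + 1), PowerSeries.C (g j) * serD ^ j * (serE4 ^ 3) ^ (s - j)) =
        red 9 (evD (∑ j ∈ Finset.range (s + 1), Polynomial.C (g j) * Polynomial.X ^ j)) := by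
    intro s g
    rw [map_sum, map_sum evD, map_sum (red 9)]
    refine Finset.sum_congr rfl fun j _ => ?_
    rw [map_mul, map_pow (red 9) (serE4 ^ 3), red_serE4_cube_nine, one_pow, mul_one,
      map_mul evD, map_pow evD, evD, Polynomial.coe_eval₂RingHom, Polynomial.eval₂_C,
      Polynomial.eval₂_X]
  have hK : K = red 9 (evD Q) := by
    rw [hQdef, ← hsum]
    simp only [seed0, one_mul] at hq
    rw [← hq, hKdef, map_add, map_mul, PowerSeries.map_C,
      eq_intCast (Int.castRingHom (ZMod 9)), hpow, map_neg, map_one]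
    ring
  have hG9 : red 9 ((1 + 3 * serS) * evD P) = red 9 (PowerSeries.C c * evD Q) := by
    rw [map_mul, map_mul, ← hK, map_add, map_one, map_mul, map_ofNat, hPdef, ← hsum,
      ← red_serE4_sq_nine]
    simp only [seed14] at hg
    have := congrArg (red 9) hg
    rw [hcong, map_mul (red 9) (serE4 * serE4 * serE6), map_mul (red 9) (serE4 * serE4),
      red_serE6_nine, mul_one] at this
    rw [← this, map_mul, map_add, map_mul, PowerSeries.map_C, PowerSeries.map_C,
      eq_intCast (Int.castRingHom (ZMod 9)), eq_intCast (Int.castRingHom (ZMod 9)), pow_one,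
      pow_one, Int.cast_mul, Int.cast_neg, hpN, hpow, neg_neg, one_mul, map_neg, map_one, hKdef,
      PowerSeries.map_C, eq_intCast (Int.castRingHom (ZMod 9))]
    ring
  -- reduction modulo three
  have hcast : ∀ {A B : PowerSeries ℤ}, red 9 A = red 9 B → red 3 A = red 3 B := by
    intro A B h
    ext n
    have := congrArg (fun S => ZMod.castHom (show 3 ∣ 9 by norm_num) (ZMod 3)
      (PowerSeries.coeff n S)) h
    rw [PowerSeries.coeff_map, PowerSeries.coeff_map, eq_intCast, eq_intCast] at this
    rw [PowerSeries.coeff_map, PowerSeries.coeff_map, eq_intCast, eq_intCast]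
    simpa only [map_intCast] using this
  set ev3 : (ZMod 3)[X] →+* PowerSeries (ZMod 3) :=
    Polynomial.eval₂RingHom PowerSeries.C (red 3 serD) with hev3def
  have hev : ∀ R : ℤ[X], red 3 (evD R) = ev3 (R.map (Int.castRingHom (ZMod 3))) := by
    intro R
    rw [hev3def, Polynomial.coe_eval₂RingHom, Polynomial.eval₂_map, evD,
      Polynomial.coe_eval₂RingHom, Polynomial.hom_eval₂]
    congr 1
    ext x
    simp
  have : Fact (Nat.Prime 3) := ⟨Nat.prime_three⟩
  have hinj : Function.Injective ev3 := by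
    refine (injective_iff_map_eq_zero _).mpr fun R hR => ?_
    by_contra h0
    obtain ⟨R', hR', hX⟩ := Polynomial.exists_eq_pow_rootMultiplicity_mul_and_not_dvd R h0 0
    rw [map_zero, sub_zero] at hR' hX
    rw [hR', map_mul, map_pow, hev3def, Polynomial.coe_eval₂RingHom, Polynomial.eval₂_X,
      mul_eq_zero] at hR
    rcases hR with hR | hR
    · exact red_serD_ne_zero 3 (pow_eq_zero_iff'.mp hR).1
    · refine hX (Polynomial.X_dvd_iff.mpr ?_)
      have h := congrArg PowerSeries.constantCoeff hR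
      rw [Polynomial.hom_eval₂, constantCoeff_red, show PowerSeries.constantCoeff serD = (0 : ℤ) by
        simp [serD], Int.cast_zero, Polynomial.eval₂_at_zero, map_zero] at h
      simpa using h
  have h3 : red 3 ((1 + 3 * serS) * evD P) = red 3 (evD P) := by
    rw [map_mul, map_add, map_one, map_mul, map_ofNat,
      ← map_ofNat (PowerSeries.C (R := ZMod 3)) 3, show (3 : ZMod 3) = 0 from rfl, map_zero,
      zero_mul, add_zero, one_mul]
  have hP3 : red 3 (evD P) = red 3 (evD (Polynomial.C c * Q)) := by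
    rw [← h3, hcast hG9, map_mul evD, evD, Polynomial.coe_eval₂RingHom, Polynomial.eval₂_C]
  rw [hev, hev] at hP3
  have hdiv : Polynomial.C (3 : ℤ) ∣ P - Polynomial.C c * Q := by
    rw [Polynomial.C_dvd_iff_dvd_coeff]
    intro i
    have h := congrArg (fun R => Polynomial.coeff R i) (hinj hP3)
    rw [Polynomial.coeff_map, Polynomial.coeff_map, eq_intCast (Int.castRingHom (ZMod 3)),
      eq_intCast (Int.castRingHom (ZMod 3))] at h
    rw [Polynomial.coeff_sub, show (3 : ℤ) = ((3 : ℕ) : ℤ) from rfl,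
      ← ZMod.intCast_zmod_eq_zero_iff_dvd, Int.cast_sub, h, sub_self]
  obtain ⟨T, hT⟩ := hdiv
  have hzero : red 9 (3 * (evD T + serS * evD P)) = 0 := by
    have e : 3 * (evD T + serS * evD P) =
        (1 + 3 * serS) * evD P - PowerSeries.C c * evD Q := by
      have := congrArg evD hT
      simp only [map_sub, map_mul, map_ofNat, evD, Polynomial.coe_eval₂RingHom,
        Polynomial.eval₂_C, Polynomial.eval₂_ofNat] at this ⊢
      linear_combination -this
    rw [e, map_sub, hG9, sub_self]
  have hT3 : red 3 (evD T + serS * evD P) = 0 := by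
    ext n
    have h := congrArg (PowerSeries.coeff n) hzero
    rw [show (3 : PowerSeries ℤ) = PowerSeries.C 3 from (map_ofNat _ 3).symm,
      PowerSeries.coeff_map, PowerSeries.coeff_C_mul, map_zero, eq_intCast,
      ZMod.intCast_zmod_eq_zero_iff_dvd] at h
    rw [PowerSeries.coeff_map, map_zero, eq_intCast, ZMod.intCast_zmod_eq_zero_iff_dvd]
    omega
  rw [map_add, map_mul, hev, hev] at hT3
  set P3 := P.map (Int.castRingHom (ZMod 3))
  set T3 := T.map (Int.castRingHom (ZMod 3))
  have hP0 : P3 ≠ 0 := by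
    intro h0
    rw [h0, map_zero, ← hev, map_mul, map_mul] at hP3
    have hc3 : red 3 (evD (Polynomial.C c)) = PowerSeries.C (c : ZMod 3) := by simp [evD]
    have hK3 : red 3 (evD Q) = red 3 (serU p (serD ^ p) - serV p (serD ^ p)) :=
      hcast (hK.symm.trans (by rw [hKdef, map_sub]))
    have hn : PowerSeries.coeff 1 (red 3 (evD Q)) = 1 := by
      rw [hK3, PowerSeries.coeff_map, map_sub, coeff_serU, one_mul, coeff_serD_pow_self,
        coeff_serV, if_neg (by simpa using hp.ne_one), sub_zero, map_one]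
    have := congrArg (PowerSeries.coeff 1) hP3
    rw [hc3, map_zero, PowerSeries.coeff_C_mul, hn, mul_one] at this
    exact hc ((ZMod.intCast_zmod_eq_zero_iff_dvd c 3).mp this.symm)
  refine no_poly_artinSchreier (T := -T3) hP0 (hinj ?_)
  have hX : ev3 Polynomial.X = red 3 serD := by simp [hev3def]
  rw [map_sub, map_mul, map_mul, map_pow, map_pow, map_pow, map_neg, hX, red_serD_three]
  have hT' : ev3 T3 = -(red 3 serS * ev3 P3) := eq_neg_of_add_eq_zero_left hT3
  rw [hT']
  ring

end Fermat.Agent.Eisenstein
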