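import Fermat.Agent.Eisenstein.LevelThree
import Mathlib.RingTheory.IntegralClosure.IntegrallyClosed
import Mathlib.RingTheory.Polynomial.RationalRoot

/-!
For `p ≡ 7 (mod 8)` there is no constant congruence modulo `16` with constant `2 u`, `u` odd:
the norm of `M C - 2u (A C + 4 B)` to `Γ₀(3)` is evaluated at the elliptic point.
-/

set_option autoImplicit false

noncomputable section

open UpperHalfPlane ModularForm CongruenceSubgroup Matrix.SpecialLinearGroup
open scoped MatrixGroups ModularForm Manifold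

namespace Fermat.Agent.Eisenstein.Two

open Three

/-- Expansion at period `P` with all coefficients in `I`. -/
def HasCoeffIn (P : ℝ) (f : ℍ → ℂ) (I : Set ℂ) : Prop :=
  ∃ x : LaurentSeries ℂ, Modular.HasQExp P f x ∧ (∀ n, x.coeff n ∈ I) ∧ ∀ n < 0, x.coeff n = 0

/-- The ring of algebraic integers in `ℂ`. -/
abbrev algInts : Subalgebra ℤ ℂ := integralClosure ℤ ℂ

/-- Multiples of an integer inside the algebraic integers. -/
def multiples (e : ℤ) : AddSubgroup ℂ :=
  AddSubgroup.map (AddMonoidHom.mulLeft (e : ℂ)) algInts.toSubring.toAddSubgroup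

theorem mem_multiples {e : ℤ} {x : ℂ} :
    x ∈ multiples e ↔ ∃ y ∈ algInts, (e : ℂ) * y = x := Iff.rfl

theorem intCast_mem_algInts (z : ℤ) : (z : ℂ) ∈ algInts := intCast_mem algInts z

theorem hasCoeffIn_prod {ι : Type*} (s : Finset ι) {P : ℝ} {e : ℤ} {F : ι → ℍ → ℂ}
    (h : ∀ i ∈ s, HasCoeffIn P (F i) (multiples e)) :
    HasCoeffIn P (∏ i ∈ s, F i) (multiples (e ^ s.card)) := by
  classical
  induction s using Finset.induction with
  | empty =>
    refine ⟨1, by simpa using Modular.HasQExp.one P, fun n => ?_, fun n hn => ?_⟩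
    · rcases eq_or_ne n 0 with rfl | hn
      · exact mem_multiples.mpr ⟨1, one_mem _, by simp⟩
      · rw [HahnSeries.coeff_one, if_neg hn]; exact zero_mem _
    · rw [HahnSeries.coeff_one, if_neg hn.ne]
  | insert a s ha ih =>
    obtain ⟨x, hx, hxI, hx0⟩ := h a (Finset.mem_insert_self a s)
    obtain ⟨y, hy, hyI, hy0⟩ := ih fun i hi => h i (Finset.mem_insert_of_mem hi)
    refine ⟨x * y, by rw [Finset.prod_insert ha]; exact hx.mul hy, fun n => ?_, fun n hn => ?_⟩
    · rw [HahnSeries.coeff_mul]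
      refine sum_mem fun ij _ => ?_
      obtain ⟨u, hu, hu'⟩ := mem_multiples.mp (hxI ij.1)
      obtain ⟨v, hv, hv'⟩ := mem_multiples.mp (hyI ij.2)
      refine mem_multiples.mpr ⟨u * v, mul_mem hu hv, ?_⟩
      rw [← hu', ← hv', Finset.card_insert_of_notMem ha]
      push_cast
      ring
    · rw [HahnSeries.coeff_mul]
      refine Finset.sum_eq_zero fun ij hij => ?_
      simp only [Finset.mem_antidiagonal, HahnSeries.mem_support] at hij
      rcases lt_or_ge ij.1 0 with h1 | h1
      · rw [hx0 _ h1, zero_mul]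
      · rw [hy0 _ (by omega), mul_zero]

/-- Product on `Γ₀(3)` of a power, with expansion and value. -/
theorem exists_pow {w : ℤ} {f : ModularForm (Gamma0 3) w} {P : PowerSeries ℤ} (hf : IntQ f P)
    (n : ℕ) : ∃ g : ModularForm (Gamma0 3) (w * n),
      IntQ g (P ^ n) ∧ g ellPoint = f ellPoint ^ n := by
  induction n with
  | zero =>
    refine ⟨ModularForm.mcast (by simp) (1 : ModularForm (Gamma0 3) 0), ?_, ?_⟩
    · simpa using IntQ.one.congr fun τ => by simp
    · simp [ModularForm.mcast]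
      rfl
  | succ n ih =>
    obtain ⟨g, hg, hv⟩ := ih
    refine ⟨mulW (by push_cast; ring) f g, ?_, ?_⟩
    · rw [pow_succ']; simpa using hf.mul hg
    · rw [coe_mulW, Pi.mul_apply, hv, pow_succ']

theorem coeff_pow_self_of_le {P : PowerSeries ℤ} {d : ℕ}
    (h0 : ∀ i < d, PowerSeries.coeff i P = 0) (h1 : PowerSeries.coeff d P = 1) :
    ∀ n : ℕ, (∀ i < d * n, PowerSeries.coeff i (P ^ n) = 0) ∧
      PowerSeries.coeff (d * n) (P ^ n) = 1 := by
  obtain ⟨R, hR⟩ := PowerSeries.X_pow_dvd_iff.mpr h0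
  have hR0 : PowerSeries.constantCoeff R = 1 := by
    have := PowerSeries.coeff_X_pow_mul R d 0
    rw [zero_add, ← hR, h1, PowerSeries.coeff_zero_eq_constantCoeff_apply] at this
    exact this.symm
  intro n
  rw [hR, mul_pow, ← pow_mul]
  refine ⟨fun i hi => PowerSeries.X_pow_dvd_iff.mp (dvd_mul_right _ _) i hi, ?_⟩
  have := PowerSeries.coeff_X_pow_mul (R ^ n) (d * n) 0
  rw [zero_add] at this
  rw [this, PowerSeries.coeff_zero_eq_constantCoeff_apply, map_pow, hR0, one_pow]

theorem coeffs_serB : (∀ i < 2, PowerSeries.coeff i serB = 0) ∧ PowerSeries.coeff 2 serB = 1 := by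
  have hC := coeffs_serC
  obtain ⟨R, hR⟩ := PowerSeries.X_dvd_iff.mpr
    (show PowerSeries.constantCoeff serC = 0 by
      rw [← PowerSeries.coeff_zero_eq_constantCoeff_apply]; exact hC.1)
  have hR0 : PowerSeries.constantCoeff R = 1 := by
    have := hC.2.1
    rw [hR, PowerSeries.coeff_succ_X_mul, PowerSeries.coeff_zero_eq_constantCoeff_apply] at this
    exact this
  have hB : serB = PowerSeries.X ^ 2 * (R ^ 2 * serA.invOfUnit 1) := by
    rw [serB, hR]; ring
  rw [hB]
  refine ⟨fun i hi => PowerSeries.X_pow_dvd_iff.mp (dvd_mul_right _ _) i hi, ?_⟩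
  have := PowerSeries.coeff_X_pow_mul (R ^ 2 * serA.invOfUnit 1) 2 0
  rw [zero_add] at this
  rw [this, PowerSeries.coeff_zero_eq_constantCoeff_apply, map_mul, map_pow, hR0,
    PowerSeries.constantCoeff_invOfUnit]
  simp

/-- The monomials of weight `6 n` with leading term `q^i`. -/
theorem exists_monomial (n i : ℕ) (hi : i ≤ 2 * n) :
    ∃ (g : ModularForm (Gamma0 3) ((6 * n : ℕ) : ℤ)) (P : PowerSeries ℤ), IntQ g P ∧
      (∀ l < i, PowerSeries.coeff l P = 0) ∧ PowerSeries.coeff i P = 1 ∧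
      g ellPoint = if i = 2 * n then formB ellPoint ^ n else 0 := by
  obtain ⟨j, hj⟩ := Nat.even_or_odd' i
  rcases hj with rfl | rfl
  · obtain ⟨gA, hA, hAv⟩ := exists_pow intQ_formA (3 * (n - j))
    obtain ⟨gB, hB, hBv⟩ := exists_pow intQ_formB j
    refine ⟨mulW ?_ gA gB, _, (hA.mul hB).congr fun τ => rfl, ?_, ?_, ?_⟩
    · push_cast [Nat.cast_sub (show j ≤ n by omega)]; ring
    · intro l hl
      rw [PowerSeries.coeff_mul]
      refine Finset.sum_eq_zero fun ij hij => ?_
      rw [(coeff_pow_self_of_le coeffs_serB.1 coeffs_serB.2 j).1 ij.2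
        (by simp only [Finset.HasAntidiagonal.mem_antidiagonal] at hij; omega), mul_zero]
    · rw [PowerSeries.coeff_mul, Finset.sum_eq_single (0, 2 * j)]
      · rw [(coeff_pow_self_of_le coeffs_serB.1 coeffs_serB.2 j).2,
          PowerSeries.coeff_zero_eq_constantCoeff_apply, map_pow, serA_const, one_pow, mul_one]
      · intro ij hij hne
        rw [(coeff_pow_self_of_le coeffs_serB.1 coeffs_serB.2 j).1 ij.2 ?_, mul_zero]
        simp only [Finset.HasAntidiagonal.mem_antidiagonal] at hij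
        rcases ij with ⟨x, y⟩
        simp only [ne_eq, Prod.mk.injEq] at hij hne ⊢
        omega
      · intro h; simp at h
    · rw [coe_mulW, Pi.mul_apply, hAv, hBv, formA_ellPoint]
      split_ifs with h
      · obtain rfl : j = n := by omega
        simp
      · rw [zero_pow (by omega), zero_mul]
  · obtain ⟨gA, hA, hAv⟩ := exists_pow intQ_formA (3 * (n - j) - 2)
    obtain ⟨gB, hB, hBv⟩ := exists_pow intQ_formB j
    have hCB : IntQ (⇑(mulW (show (4 : ℤ) + 6 * j = 4 + 6 * j from rfl) formC gB))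
        (serC * serB ^ j) := (intQ_formC.mul hB).congr fun τ => by simp
    have hlow : ∀ l < 2 * j + 1, PowerSeries.coeff l (serC * serB ^ j) = 0 := by
      intro l hl
      rw [PowerSeries.coeff_mul]
      refine Finset.sum_eq_zero fun ij hij => ?_
      simp only [Finset.HasAntidiagonal.mem_antidiagonal] at hij
      rcases Nat.eq_zero_or_pos ij.1 with h1 | h1
      · rw [h1, coeffs_serC.1, zero_mul]
      · rw [(coeff_pow_self_of_le coeffs_serB.1 coeffs_serB.2 j).1 ij.2 (by omega), mul_zero]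
    have htop : PowerSeries.coeff (2 * j + 1) (serC * serB ^ j) = 1 := by
      rw [PowerSeries.coeff_mul, Finset.sum_eq_single (1, 2 * j)]
      · rw [coeffs_serC.2.1, (coeff_pow_self_of_le coeffs_serB.1 coeffs_serB.2 j).2, one_mul]
      · rintro ⟨x, y⟩ hij hne
        simp only [Finset.HasAntidiagonal.mem_antidiagonal, ne_eq, Prod.mk.injEq] at hij hne
        rcases Nat.eq_zero_or_pos x with rfl | h1
        · rw [coeffs_serC.1, zero_mul]
        · rw [(coeff_pow_self_of_le coeffs_serB.1 coeffs_serB.2 j).1 y (by omega), mul_zero]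
      · intro h; simp [Finset.HasAntidiagonal.mem_antidiagonal] at h; omega
    refine ⟨mulW ?_ gA (mulW (show (4 : ℤ) + 6 * j = 4 + 6 * j from rfl) formC gB), _,
      (hA.mul hCB).congr fun τ => rfl, ?_, ?_, ?_⟩
    · rw [Nat.cast_sub (by omega), Nat.cast_mul, Nat.cast_sub (by omega)]
      push_cast; ring
    · intro l hl
      rw [PowerSeries.coeff_mul]
      refine Finset.sum_eq_zero fun ij hij => ?_
      simp only [Finset.HasAntidiagonal.mem_antidiagonal] at hij
      rw [hlow ij.2 (by omega), mul_zero]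
    · rw [PowerSeries.coeff_mul, Finset.sum_eq_single (0, 2 * j + 1)]
      · rw [htop, PowerSeries.coeff_zero_eq_constantCoeff_apply, map_pow, serA_const, one_pow,
          mul_one]
      · rintro ⟨x, y⟩ hij hne
        simp only [Finset.HasAntidiagonal.mem_antidiagonal, ne_eq, Prod.mk.injEq] at hij hne
        rw [hlow y (by omega), mul_zero]
      · intro h; simp at h
    · rw [if_neg (by omega), coe_mulW, Pi.mul_apply, coe_mulW, Pi.mul_apply, formC_ellPoint]
      simp

theorem qCoeff_sub_smul {k : ℤ} (φ ψ : ModularForm (Gamma0 3) k) (x : ℂ) (l : ℕ) :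
    ModularFormClass.qCoeff (φ - x • ψ : ModularForm (Gamma0 3) k) l =
      ModularFormClass.qCoeff φ l - x * ModularFormClass.qCoeff ψ l := by
  simp only [ModularFormClass.qCoeff, FunLike.coe_sub, FunLike.coe_smul]
  rw [← FunLike.coe_smul, ModularForm.qExpansion_sub one_pos (one_mem_strictPeriods_Gamma0' 3),
    map_sub, FunLike.coe_smul,
    ModularForm.qExpansion_smul one_pos (one_mem_strictPeriods_Gamma0' 3),
    PowerSeries.coeff_smul, smul_eq_mul]

/-- A form of weight `6 n` on `Γ₀(3)` with coefficients in `I` has value in `I · B(z)^n`. -/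
theorem exists_value_mem (n : ℕ) (I : AddSubgroup ℂ)
    (φ : ModularForm (Gamma0 3) ((6 * n : ℕ) : ℤ))
    (h : ∀ l, ModularFormClass.qCoeff φ l ∈ I) :
    ∃ x ∈ I, φ ellPoint = x * formB ellPoint ^ n := by
  have step : ∀ i, i ≤ 2 * n → ∃ ψ : ModularForm (Gamma0 3) ((6 * n : ℕ) : ℤ),
      (∀ l, ModularFormClass.qCoeff ψ l ∈ I) ∧ (∀ l < i, ModularFormClass.qCoeff ψ l = 0) ∧
        ψ ellPoint = φ ellPoint := by
    intro i
    induction i with
    | zero => exact fun _ => ⟨φ, h, fun l hl => absurd hl (by omega), rfl⟩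
    | succ i ih =>
      intro hi
      obtain ⟨ψ, hI, hz, hv⟩ := ih (by omega)
      obtain ⟨g, P, hg, hP0, hP1, hgv⟩ := exists_monomial n i (by omega)
      rw [if_neg (by omega)] at hgv
      have hgc := IntQ.qCoeff_eq (one_mem_strictPeriods_Gamma0' 3) hg
      refine ⟨ψ - ModularFormClass.qCoeff ψ i • g, fun l => ?_, fun l hl => ?_, ?_⟩
      · rw [qCoeff_sub_smul, hgc, mul_comm (ModularFormClass.qCoeff ψ i),
          ← zsmul_eq_mul (ModularFormClass.qCoeff ψ i)]
        exact sub_mem (hI l) (zsmul_mem (hI i) _)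
      · rw [qCoeff_sub_smul, hgc]
        rcases (Nat.lt_succ_iff.mp hl).lt_or_eq with hl | rfl
        · rw [hz l hl, hP0 l hl, Int.cast_zero, mul_zero, sub_zero]
        · rw [hP1, Int.cast_one, mul_one, sub_self]
      · simp [hgv, hv]
  obtain ⟨ψ, hI, hz, hv⟩ := step (2 * n) le_rfl
  obtain ⟨g, P, hg, hP0, hP1, hgv⟩ := exists_monomial n (2 * n) le_rfl
  rw [if_pos rfl] at hgv
  refine ⟨_, hI (2 * n), ?_⟩
  have hgc := IntQ.qCoeff_eq (one_mem_strictPeriods_Gamma0' 3) hg
  have hzero : ψ - ModularFormClass.qCoeff ψ (2 * n) • g = 0 := by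
    refine ModularForm.sturm_bound_Gamma0 3 _ fun l hl => ?_
    have hi : (Gamma0 3).index = 4 := by
      rw [Modular.index_Gamma0, ModularCurve.dedekindPsi, Finset.sum_filter,
        Nat.prime_three.divisors, Finset.sum_pair (by norm_num : (1 : ℕ) ≠ 3),
        if_pos squarefree_one, if_pos Nat.prime_three.squarefree]
    rw [hi] at hl
    have e : (((6 * n : ℕ) : ℤ) * ((4 : ℕ) : ℤ)).toNat = 24 * n := by omega
    rw [e] at hl
    show ModularFormClass.qCoeff _ l = 0
    rw [qCoeff_sub_smul, hgc]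
    rcases (show l ≤ 2 * n by omega).lt_or_eq with hl | rfl
    · rw [hz l hl, hP0 l hl, Int.cast_zero, mul_zero, sub_zero]
    · rw [hP1, Int.cast_one, mul_one, sub_self]
  have := congrArg (fun F : ModularForm (Gamma0 3) ((6 * n : ℕ) : ℤ) => F ellPoint)
    (sub_eq_zero.mp hzero)
  simp [hgv] at this
  rw [← hv, this]

variable {p : ℕ}

/-- `p (M|γ) C - p c (A C + 4 B)`. -/
def factor (_hp : p.Prime) (M : ModularForm (Gamma0 p) 2) (c : ℤ) (γ : SL(2, ℤ)) : ℍ → ℂ :=
  (p : ℂ) • ((⇑M ∣[(2 : ℤ)] γ) * ⇑formC - (c : ℂ) • (⇑formA * ⇑formC + (4 : ℂ) • ⇑formB))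

theorem red_mod_eight : ∀ n, (8 : ℤ) ∣ PowerSeries.coeff n
    (serA * serC + PowerSeries.C 4 * serB - serC) := by
  set SP : PowerSeries ℤ := PowerSeries.mk fun n => if n = 0 then 0 else 3 * (sigmaPrime 3 n : ℤ)
  have hA : serA = 1 + PowerSeries.C 4 * SP := by
    ext n
    rw [serA, map_add, PowerSeries.coeff_one, PowerSeries.coeff_C_mul, PowerSeries.coeff_mk,
      PowerSeries.coeff_mk]
    split_ifs <;> ring
  have hcube : ∀ x : ZMod 2, x ^ 3 = x := by decide
  have hC : red 2 serC = red 2 SP := by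
    ext n
    rw [PowerSeries.coeff_map, PowerSeries.coeff_map, serC, PowerSeries.coeff_mk,
      PowerSeries.coeff_mk]
    rcases eq_or_ne n 0 with rfl | hn
    · simp
    · rw [if_neg hn, map_sub, map_mul, map_sum, map_natCast,
        show Int.castRingHom (ZMod 2) 3 = 1 from rfl, one_mul]
      simp only [map_pow, map_natCast, hcube]
      have h := congrArg (fun x : ℕ => (x : ZMod 2)) (sigma_one_split (p := 3) (by norm_num) hn)
      simp only [ArithmeticFunction.sigma_one_apply, Nat.cast_sum, Nat.cast_add] at h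
      rw [h]
      by_cases h3 : 3 ∣ n
      · rw [if_pos h3, if_pos h3, map_sum, Nat.cast_mul, Nat.cast_sum,
          show ((3 : ℕ) : ZMod 2) = 1 from rfl, one_mul]
        simp only [map_pow, map_natCast, hcube]
        ring
      · rw [if_neg h3, if_neg h3, map_zero, Nat.cast_zero]
        ring
  have hAinv : red 2 serA = 1 := by
    rw [hA, map_add, map_one, map_mul, PowerSeries.map_C,
      show Int.castRingHom (ZMod 2) 4 = 0 from rfl, map_zero, zero_mul, add_zero]
  have hB : red 2 serB = red 2 serC ^ 2 := by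
    rw [← map_pow, ← serA_mul_serB, map_mul, hAinv, one_mul]
  have heven : red 2 (SP * serC + serB) = 0 := by
    rw [map_add, map_mul, hB, ← hC]
    have h2 : (2 : PowerSeries (ZMod 2)) = 0 := by
      rw [← map_ofNat (PowerSeries.C (R := ZMod 2)) 2, show (2 : ZMod 2) = 0 from rfl, map_zero]
    linear_combination (red 2 serC ^ 2) * h2
  intro n
  rw [show serA * serC + PowerSeries.C 4 * serB - serC = PowerSeries.C 4 * (SP * serC + serB) by
    rw [hA]; ring, PowerSeries.coeff_C_mul]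
  have h := congrArg (PowerSeries.coeff n) heven
  rw [PowerSeries.coeff_map, map_zero, eq_intCast, ZMod.intCast_zmod_eq_zero_iff_dvd] at h
  obtain ⟨k, hk⟩ := h
  exact ⟨k, by rw [hk]; push_cast; ring⟩

theorem intCast_mem_multiples {e z : ℤ} (h : e ∣ z) : (z : ℂ) ∈ multiples e := by
  obtain ⟨k, rfl⟩ := h
  exact mem_multiples.mpr ⟨(k : ℂ), intCast_mem_algInts k, by push_cast; rfl⟩

theorem mul_mem_multiples {e : ℤ} {x y : ℂ} (hx : x ∈ algInts) (hy : y ∈ multiples e) :
    x * y ∈ multiples e := by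
  obtain ⟨z, hz, rfl⟩ := mem_multiples.mp hy
  exact mem_multiples.mpr ⟨x * z, mul_mem hx hz, by ring⟩

theorem intSeriesC_coeff_natCast (P : PowerSeries ℤ) (n : ℕ) :
    (Modular.intSeriesC P).coeff (n : ℤ) = ((PowerSeries.coeff n P : ℤ) : ℂ) := by
  rw [Modular.intSeriesC_apply, HahnSeries.ofPowerSeries_apply_coeff, PowerSeries.coeff_map]
  rfl

theorem intSeriesC_coeff_neg (P : PowerSeries ℤ) {n : ℤ} (hn : n < 0) :
    (Modular.intSeriesC P).coeff n = 0 :=
  ModularCurve.ofPowerSeries_coeff_of_neg _ hn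

/-- Pull back an integral congruence along `q ↦ ζ q'^a`. -/
theorem exists_expand {f : ℍ → ℂ} {P : PowerSeries ℤ} (hf : IntQ f P) {N : ℝ} (φ : ℍ → ℍ) (a : ℕ)
    [NeZero a] (ζ : ℂˣ)
    (hφ : ∀ τ : ℍ, Function.Periodic.qParam 1 ((φ τ : ℍ) : ℂ) =
      (ζ : ℂ) * Function.Periodic.qParam N (τ : ℂ) ^ a)
    (hζ : (ζ : ℂ) ∈ algInts) {e : ℤ} {c : ℤ} (hP : ∀ n, e ∣ PowerSeries.coeff (R := ℤ) n (P - PowerSeries.C c)) :
    ∃ x : LaurentSeries ℂ, Modular.HasQExp N (f ∘ φ) x ∧ (∀ n < 0, x.coeff n = 0) ∧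
      ∀ n, (x - HahnSeries.C (c : ℂ)).coeff n ∈ multiples e := by
  refine ⟨_, Modular.HasQExp.comp_of_qParam_eq hf φ a ζ hφ, fun n hn => ?_, fun n => ?_⟩
  · by_cases hd : (a : ℤ) ∣ n
    · obtain ⟨k, rfl⟩ := hd
      rw [ModularCurve.qExpand_coeff_mul, Modular.twistSeries_coeff,
        intSeriesC_coeff_neg _ (by
          have : (0 : ℤ) < a := by exact_mod_cast Nat.pos_of_ne_zero (NeZero.ne a)
          nlinarith), mul_zero]
    · exact ModularCurve.qExpand_coeff_of_not_dvd _ _ hd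
  · have hC : (HahnSeries.C (c : ℂ) : LaurentSeries ℂ) =
        ModularCurve.qExpand ℂ a (Modular.twistSeries ζ (Modular.intSeriesC (PowerSeries.C c))) := by
      ext m
      by_cases hd : (a : ℤ) ∣ m
      · obtain ⟨k, rfl⟩ := hd
        rw [ModularCurve.qExpand_coeff_mul, Modular.twistSeries_coeff, Modular.intSeriesC_apply,
          PowerSeries.map_C, HahnSeries.ofPowerSeries_C, HahnSeries.C_apply, HahnSeries.C_apply]
        rcases eq_or_ne k 0 with rfl | hk
        · simp
        · rw [HahnSeries.coeff_single_of_ne hk, HahnSeries.coeff_single_of_ne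
            (mul_ne_zero (by exact_mod_cast NeZero.ne a) hk), mul_zero]
      · rw [ModularCurve.qExpand_coeff_of_not_dvd _ _ hd, HahnSeries.C_apply,
          HahnSeries.coeff_single_of_ne]
        rintro rfl
        exact hd (dvd_zero _)
    rw [hC, ← map_sub, ← map_sub, ← map_sub]
    by_cases hd : (a : ℤ) ∣ n
    · obtain ⟨k, rfl⟩ := hd
      rw [ModularCurve.qExpand_coeff_mul, Modular.twistSeries_coeff]
      rcases lt_or_ge k 0 with hk | hk
      · rw [intSeriesC_coeff_neg _ hk, mul_zero]; exact zero_mem _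
      · obtain ⟨l, rfl⟩ := Int.eq_ofNat_of_zero_le hk
        rw [intSeriesC_coeff_natCast, Units.val_zpow_eq_zpow_val, zpow_natCast]
        exact mul_mem_multiples (pow_mem hζ l) (intCast_mem_multiples (hP l))
    · rw [ModularCurve.qExpand_coeff_of_not_dvd _ _ hd]; exact zero_mem _

theorem slash_six (f g : ℍ → ℂ) (δ : SL(2, ℤ)) :
    (f * g) ∣[(6 : ℤ)] δ = f ∣[(2 : ℤ)] δ * g ∣[(4 : ℤ)] δ :=
  ModularForm.mul_slash_SL2 2 4 δ f g

theorem red_dvd {r : ℕ} {P Q : PowerSeries ℤ} (h : red r P = red r Q) (n : ℕ) :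
    (r : ℤ) ∣ PowerSeries.coeff n (P - Q) := by
  have h' := congrArg (PowerSeries.coeff n) h
  rw [PowerSeries.coeff_map, PowerSeries.coeff_map, eq_intCast, eq_intCast] at h'
  rw [← ZMod.intCast_zmod_eq_zero_iff_dvd, map_sub, Int.cast_sub, h', sub_self]

theorem hasCoeffIn_factor (hp : p.Prime) (h8 : p % 8 = 7) {c : ℤ} (hc2 : (2 : ℤ) ∣ c)
    (M : ConstCongr p 16 c) (γ : SL(2, ℤ)) :
    HasCoeffIn p (factor hp M.form c γ) (multiples 16) := by
  have : NeZero p := ⟨hp.ne_zero⟩
  obtain ⟨xM, hxM, hxM0, hxM16⟩ : ∃ x : LaurentSeries ℂ,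
      Modular.HasQExp p (fun τ => (p : ℂ) * (⇑M.form ∣[(2 : ℤ)] γ) τ) x ∧
      (∀ n < 0, x.coeff n = 0) ∧
      ∀ n, (x - HahnSeries.C ((((p : ℤ) * c : ℤ)) : ℂ)).coeff n ∈ multiples 16 := by
    by_cases hγ : γ ∈ Gamma0 p
    · rw [slash_Gamma0 M.form hγ]
      obtain ⟨x, h1, h2, h3⟩ := exists_expand (M.intQ.smul (p : ℤ)) (N := (p : ℝ)) id p 1
        (fun τ => by
          rw [Units.val_one, one_mul, id, Function.Periodic.qParam, Function.Periodic.qParam,
            ← Complex.exp_nat_mul]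
          congr 1
          have : (p : ℂ) ≠ 0 := Nat.cast_ne_zero.mpr hp.ne_zero
          push_cast
          field_simp)
        (one_mem algInts) (e := 16) (c := (p : ℤ) * c) fun n => by
          rw [map_mul, ← mul_sub, PowerSeries.coeff_C_mul]
          exact (red_dvd M.congr n).mul_left _
      exact ⟨x, h1.congr fun τ => by simp, h2, h3⟩
    · obtain ⟨δ, hδ, j, rfl⟩ := exists_coset hp γ hγ
      rw [SlashAction.slash_mul, slash_Gamma0 M.form hδ]
      have hU := intQ_heckeU M.intQ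
      rw [heckeU_eq_neg_atkinW hp M.form] at hU
      set ζ : ℂˣ := Units.mk0 (Function.Periodic.qParam (p : ℝ) ((j : ℕ) : ℂ))
        (Function.Periodic.qParam_ne_zero _)
      have hζ : (ζ : ℂ) ∈ algInts := by
        refine IsIntegral.of_pow hp.pos ?_
        rw [Units.val_mk0, Function.Periodic.qParam, ← Complex.exp_nat_mul,
          show ((p : ℕ) : ℂ) * (2 * Real.pi * Complex.I * ((j : ℕ) : ℂ) / ((p : ℝ) : ℂ)) =
            ((j : ℕ) : ℂ) * (2 * Real.pi * Complex.I) by
            have : (p : ℂ) ≠ 0 := Nat.cast_ne_zero.mpr hp.ne_zero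
            push_cast; field_simp,
          Complex.exp_nat_mul, Complex.exp_two_pi_mul_I, one_pow]
        exact isIntegral_one
      obtain ⟨x, h1, h2, h3⟩ := exists_expand hU.neg (N := (p : ℝ))
        (fun τ => heckeMatrix p j • τ) 1 ζ (fun τ => by
          rw [Units.val_mk0, pow_one, coe_heckeMatrix_smul hp.ne_zero, Function.Periodic.qParam,
            Function.Periodic.qParam, Function.Periodic.qParam, ← Complex.exp_add]
          congr 1
          have : (p : ℂ) ≠ 0 := Nat.cast_ne_zero.mpr hp.ne_zero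
          push_cast
          field_simp
          ring)
        hζ (e := 16) (c := (p : ℤ) * c) fun n => by
          have h1 := red_dvd M.congr (n * p)
          rw [map_sub, ← coeff_serU p M.ser n, ← coeff_serU p (PowerSeries.C c) n,
            serU_C hp.ne_zero] at h1
          rw [map_sub, map_neg, PowerSeries.coeff_C]
          rw [PowerSeries.coeff_C] at h1
          obtain ⟨k, hk⟩ := h1
          obtain ⟨v, hv⟩ := hc2
          obtain ⟨w, hw⟩ : (8 : ℤ) ∣ (p : ℤ) + 1 := by omega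
          split_ifs with hn
          · rw [if_pos hn] at hk
            exact ⟨-k - v * w, by subst hv; linear_combination -hk - 2 * v * hw⟩
          · rw [if_neg hn] at hk
            exact ⟨-k, by linear_combination -hk⟩
      refine ⟨x, h1.congr fun τ => ?_, h2, h3⟩
      rw [Function.comp_apply, neg_neg]
      have hM2 : ∀ σ : ℍ, (⇑M.form ∣[(2 : ℤ)] (ModularGroup.S * ModularGroup.T ^
          (((j : ℕ)) : ℤ) : SL(2, ℤ))) σ =
          (p : ℂ)⁻¹ * (⇑M.form ∣[(2 : ℤ)] atkinW p) (heckeMatrix p j • σ) := by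
        intro σ
        rw [atkinW, SlashAction.slash_mul _ (mapGL ℝ ModularGroup.S) (heckeDiagMatrix p),
          slash_heckeDiagMatrix_apply _ hp.ne_zero, SlashAction.slash_mul,
          ModularForm.SL_slash_apply]
        have hD : heckeDiagMatrix p • (heckeMatrix p j • σ) =
            (ModularGroup.T ^ (((j : ℕ)) : ℤ) : SL(2, ℤ)) • σ := by
          rw [UpperHalfPlane.ext_iff, UpperHalfPlane.modular_T_zpow_smul, coe_vadd,
            coe_heckeDiagMatrix_smul hp.ne_zero, coe_heckeMatrix_smul hp.ne_zero]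
          have : (p : ℂ) ≠ 0 := Nat.cast_ne_zero.mpr hp.ne_zero
          push_cast
          field_simp
          ring
        rw [hD, show denom (ModularGroup.T ^ (((j : ℕ)) : ℤ) : SL(2, ℤ)) (σ : ℂ) = 1 by
          show denom (mapGL ℝ (ModularGroup.T ^ (((j : ℕ)) : ℤ))) (σ : ℂ) = 1
          simp only [UpperHalfPlane.denom, mapGL_T_zpow_val]
          simp, one_zpow, mul_one,
          show (2 : ℤ) - 1 = 1 from rfl, zpow_one, ← mul_assoc,
          inv_mul_cancel₀ (Nat.cast_ne_zero.mpr hp.ne_zero), one_mul]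
        rfl
      rw [hM2 τ, ← mul_assoc, mul_inv_cancel₀ (Nat.cast_ne_zero.mpr hp.ne_zero), one_mul]
  obtain ⟨xC, hxC, hxC0, hxC'⟩ := exists_expand (intQ_formC) (N := (p : ℝ)) id p 1
    (fun τ => by
      rw [Units.val_one, one_mul, id, Function.Periodic.qParam, Function.Periodic.qParam,
        ← Complex.exp_nat_mul]
      congr 1
      have : (p : ℂ) ≠ 0 := Nat.cast_ne_zero.mpr hp.ne_zero
      push_cast
      field_simp)
    (one_mem algInts) (e := 1) (c := 0) (fun n => one_dvd _)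
  have hD := ((intQ_formA.mul intQ_formC).add (intQ_formB.smul 4)).sub intQ_formC
  obtain ⟨xD, hxD, hxD0, hxD'⟩ := exists_expand (hD.smul ((p : ℤ) * c)) (N := (p : ℝ)) id p 1
    (fun τ => by
      rw [Units.val_one, one_mul, id, Function.Periodic.qParam, Function.Periodic.qParam,
        ← Complex.exp_nat_mul]
      congr 1
      have : (p : ℂ) ≠ 0 := Nat.cast_ne_zero.mpr hp.ne_zero
      push_cast
      field_simp)
    (one_mem algInts) (e := 16) (c := 0) (fun n => by
      obtain ⟨k, hk⟩ := red_mod_eight n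
      obtain ⟨v, rfl⟩ := hc2
      rw [map_zero, sub_zero, PowerSeries.coeff_C_mul, hk]
      exact ⟨(p : ℤ) * v * k, by ring⟩)
  refine ⟨(xM - HahnSeries.C (((p : ℤ) * c : ℤ) : ℂ)) * xC - xD, ?_, fun n => ?_, fun n hn => ?_⟩
  · refine (((hxM.sub (Modular.HasQExp.const _ _)).mul hxC).sub hxD).congr fun τ => ?_
    simp [factor]
    ring
  · rw [HahnSeries.coeff_sub]
    refine sub_mem ?_ (by simpa using hxD' n)
    rw [HahnSeries.coeff_mul]
    refine sum_mem fun ij _ => ?_
    obtain ⟨z, hz, hz'⟩ := mem_multiples.mp (hxC' ij.2)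
    simp at hz'
    rw [← hz', mul_comm]
    exact mul_mem_multiples hz (hxM16 _)
  · rw [HahnSeries.coeff_sub, hxD0 n hn, sub_zero, HahnSeries.coeff_mul]
    refine Finset.sum_eq_zero fun ij hij => ?_
    simp only [Finset.mem_antidiagonal, HahnSeries.mem_support] at hij
    rcases lt_or_ge ij.1 0 with h1 | h1
    · rw [HahnSeries.coeff_sub, hxM0 _ h1, HahnSeries.C_apply,
        HahnSeries.coeff_single_of_ne h1.ne, sub_zero, zero_mul]
    · rw [hxC0 _ (by omega), mul_zero]

/-- No constant congruence modulo `16` with constant `2 u`, `u` odd, for `p ≡ 7 (mod 8)`. -/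
theorem not_constCongr_sixteen (hp : p.Prime) (h8 : p % 8 = 7) {c : ℤ} (hc2 : (2 : ℤ) ∣ c)
    (hc4 : ¬ (4 : ℤ) ∣ c) (M : ConstCongr p 16 c) : False := by
  classical
  have : NeZero p := ⟨hp.ne_zero⟩
  let 𝒢 : Subgroup (GL (Fin 2) ℝ) := (Gamma0 p : Subgroup SL(2, ℤ))
  let Q := 𝒮ℒ ⧸ (𝒢.subgroupOf 𝒮ℒ)
  let : Fintype Q := Fintype.ofFinite _
  set K : Q → ℍ → ℂ := fun q => (p : ℂ) •
    (SlashInvariantForm.quotientFunc M.form q * ⇑formC -
      (c : ℂ) • (⇑formA * ⇑formC + (4 : ℂ) • ⇑formB)) with hK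
  have hKfac : ∀ q, ∃ γ : SL(2, ℤ), K q = factor hp M.form c γ := by
    intro q
    induction q using Quotient.inductionOn with
    | h r =>
      obtain ⟨_, γ, rfl⟩ := r
      exact ⟨γ⁻¹, by simp only [hK, factor, SlashInvariantForm.quotientFunc_mk, ← map_inv]; rfl⟩
  have hfacbdd : ∀ (γ δ : SL(2, ℤ)), IsBoundedAtImInfty (factor hp M.form c γ ∣[(6 : ℤ)] δ) := by
    intro γ δ
    have hb : ∀ {k : ℤ} (f : ModularForm (Gamma0 3) k) (δ : SL(2, ℤ)),
        IsBoundedAtImInfty (⇑f ∣[k] δ) := by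
      intro k f δ
      have h := f.bdd_at_cusps' (c := mapGL ℝ δ • OnePoint.infty) (by
        rw [Subgroup.IsArithmetic.isCusp_iff_isCusp_SL2Z, isCusp_SL2Z_iff']
        exact ⟨δ, rfl⟩) (mapGL ℝ δ) rfl
      exact h
    have hM : IsBoundedAtImInfty ((⇑M.form ∣[(2 : ℤ)] γ) ∣[(2 : ℤ)] δ) := by
      rw [← SlashAction.slash_mul]
      refine isBoundedAtImInfty_slash_SL hp (fun η hη => slash_Gamma0 M.form hη)
        (ModularFormClass.bdd_at_infty M.form) ?_ _
      have h := M.form.bdd_at_cusps' (c := mapGL ℝ ModularGroup.S • OnePoint.infty) (by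
        rw [Subgroup.IsArithmetic.isCusp_iff_isCusp_SL2Z, isCusp_SL2Z_iff']
        exact ⟨ModularGroup.S, rfl⟩) (mapGL ℝ ModularGroup.S) rfl
      exact h
    rw [factor, ModularForm.SL_smul_slash, sub_eq_add_neg, SlashAction.add_slash,
      SlashAction.neg_slash, ModularForm.SL_smul_slash, SlashAction.add_slash,
      ModularForm.SL_smul_slash, slash_six, slash_six]
    refine Filter.BoundedAtFilter.smul _ (Filter.BoundedAtFilter.add (hM.mul (hb formC δ))
      (Filter.BoundedAtFilter.neg ?_))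
    exact Filter.BoundedAtFilter.smul _ (Filter.BoundedAtFilter.add
      ((hb formA δ).mul (hb formC δ)) (Filter.BoundedAtFilter.smul _ (hb formB δ)))
  have hw : ((6 * Fintype.card Q : ℕ) : ℤ) = 6 * ((Finset.univ : Finset Q).card : ℤ) := by simp
  have hprod : ∀ (δ : SL(2, ℤ)), (∏ q, K q) ∣[((6 * Fintype.card Q : ℕ) : ℤ)] δ =
      ∏ q, (K q ∣[(6 : ℤ)] δ) := by
    intro δ
    rw [hw, SL_slash, ModularForm.prod_slash]
    simp [SL_slash]
  have hhol : MDiff (∏ q, K q) := by
    refine MDifferentiable.prod fun q _ => ?_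
    obtain ⟨γ, hγ⟩ := hKfac q
    rw [hγ]
    exact (((MDifferentiable.slash M.form.holo') 2 _).mul formC.holo' |>.sub
      ((formA.holo'.mul formC.holo').add (formB.holo'.const_smul _) |>.const_smul _)).const_smul _
  let N : ModularForm (Gamma0 3) ((6 * Fintype.card Q : ℕ) : ℤ) :=
  { toFun := ∏ q, K q
    slash_action_eq' := by
      rintro _ ⟨δ, hδ, rfl⟩
      show (∏ q, K q) ∣[((6 * Fintype.card Q : ℕ) : ℤ)] δ = _
      rw [hprod]
      have hmem : mapGL ℝ δ ∈ 𝒮ℒ := ⟨δ, rfl⟩
      have : ∀ q, K q ∣[(6 : ℤ)] δ = K ((⟨mapGL ℝ δ, hmem⟩ : 𝒮ℒ)⁻¹ • q) := by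
        intro q
        simp only [hK]
        rw [ModularForm.SL_smul_slash, sub_eq_add_neg, SlashAction.add_slash,
          SlashAction.neg_slash, ModularForm.SL_smul_slash, SlashAction.add_slash,
          ModularForm.SL_smul_slash, slash_six, slash_six, slash_Gamma0 formA hδ,
          slash_Gamma0 formC hδ, slash_Gamma0 formB hδ, ← sub_eq_add_neg]
        congr 3
        exact SlashInvariantForm.quotientFunc_smul M.form hmem q
      rw [Finset.prod_congr rfl fun q _ => this q]
      exact Equiv.prod_comp (MulAction.toPerm ((⟨mapGL ℝ δ, hmem⟩ : 𝒮ℒ)⁻¹)) K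
    holo' := hhol
    bdd_at_cusps' := by
      intro z hz
      rw [Subgroup.IsArithmetic.isCusp_iff_isCusp_SL2Z] at hz
      rw [OnePoint.isBoundedAt_iff_forall_SL2Z hz]
      intro δ _
      rw [hprod]
      have : ∀ s : Finset Q, IsBoundedAtImInfty (∏ q ∈ s, (K q ∣[(6 : ℤ)] δ)) := by
        intro s
        induction s using Finset.induction with
        | empty =>
          rw [Finset.prod_empty]
          exact Filter.const_boundedAtFilter _ (1 : ℂ)
        | insert a s ha ih =>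
          rw [Finset.prod_insert ha]
          obtain ⟨γ, hγ⟩ := hKfac a
          exact (hγ ▸ hfacbdd γ δ).mul ih
      exact this _ }
  -- coefficients
  obtain ⟨x, hx, hxI, -⟩ := hasCoeffIn_prod (Finset.univ : Finset Q) (P := (p : ℝ)) (e := 16)
    (F := K) (fun q _ => by
      obtain ⟨γ, hγ⟩ := hKfac q
      exact hγ ▸ hasCoeffIn_factor hp h8 hc2 M γ)
  have hN1 : Modular.HasQExp 1 (⇑N) (HahnSeries.ofPowerSeries ℤ ℂ (qExpansion 1 N)) := by
    refine Modular.HasQExp.ofPowerSeries fun τ => ?_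
    have : Fact (IsCusp OnePoint.infty ((Gamma0 3 : Subgroup SL(2, ℤ)) : Subgroup (GL (Fin 2) ℝ))) :=
      ⟨Subgroup.isCusp_of_mem_strictPeriods one_pos (one_mem_strictPeriods_Gamma0' 3)⟩
    exact ModularForm.hasSum_qExpansion N one_pos (one_mem_strictPeriods_Gamma0' 3) τ
  have hNp := hN1.dilate_period one_ne_zero p
  rw [one_mul] at hNp
  have hxeq := hNp.unique (f := ⇑N) hx (Nat.cast_pos.mpr hp.pos)
  have hcoeff : ∀ l, ModularFormClass.qCoeff N l ∈ multiples ((16 : ℤ) ^ Fintype.card Q) := by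
    intro l
    have := hxI ((p : ℤ) * l)
    rw [← hxeq, ModularCurve.qExpand_coeff_mul, HahnSeries.ofPowerSeries_apply_coeff,
      Finset.card_univ] at this
    exact this
  obtain ⟨y, hy, hval⟩ := exists_value_mem (Fintype.card Q) _ N hcoeff
  obtain ⟨z, hz, rfl⟩ := mem_multiples.mp hy
  have hN : N ellPoint = ((-(4 * (p : ℤ) * c)) : ℤ) ^ Fintype.card Q * formB ellPoint ^ Fintype.card Q := by
    show (∏ q, K q) ellPoint = _
    rw [Finset.prod_apply, ← mul_pow, ← Finset.card_univ, ← Finset.prod_const]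
    refine Finset.prod_congr rfl fun q _ => ?_
    simp [hK, formA_ellPoint, formC_ellPoint]
    ring
  rw [hval] at hN
  have hzq := mul_right_cancel₀ (pow_ne_zero _ formB_ellPoint_ne_zero) hN
  -- `z = (-p c / 4) ^ n` is an algebraic integer
  set n := Fintype.card Q
  have hn : 1 ≤ n := Fintype.card_pos
  have hzr : z = algebraMap ℚ ℂ ((-((p : ℚ) * c) / 4) ^ n) := by
    have h16 : ((((16 : ℤ) ^ n : ℤ)) : ℂ) ≠ 0 := by exact_mod_cast pow_ne_zero n (by norm_num : (16:ℤ) ≠ 0)
    apply mul_left_cancel₀ h16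
    rw [hzq, map_pow]
    push_cast
    rw [← mul_pow]
    congr 1
    simp
    ring
  have hint : IsIntegral ℤ z := hz
  rw [hzr, isIntegral_algebraMap_iff (algebraMap ℚ ℂ).injective,
    IsIntegrallyClosed.isIntegral_iff] at hint
  obtain ⟨w, hw⟩ := hint
  have hw' : ((w * 4 ^ n : ℤ) : ℚ) = (((-((p : ℤ) * c)) ^ n : ℤ) : ℚ) := by
    rw [eq_intCast] at hw
    push_cast
    rw [hw, div_pow]
    field_simp
  have hw'' : w * 4 ^ n = (-((p : ℤ) * c)) ^ n := by exact_mod_cast hw'
  obtain ⟨u, rfl⟩ := hc2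
  have hu : ¬ (2 : ℤ) ∣ u := fun ⟨k, hk⟩ => hc4 ⟨k, by rw [hk]; ring⟩
  have h2 : w * 2 ^ n = (-((p : ℤ) * u)) ^ n := by
    refine mul_left_cancel₀ (pow_ne_zero n (two_ne_zero : (2 : ℤ) ≠ 0)) ?_
    rw [← mul_pow, show (2 : ℤ) * -((p : ℤ) * u) = -((p : ℤ) * (2 * u)) by ring, ← hw'',
      show (4 : ℤ) = 2 * 2 from rfl, mul_pow]
    ring
  have h2dvd : (2 : ℤ) ∣ (-((p : ℤ) * u)) ^ n := h2 ▸ (dvd_pow_self 2 (by omega)).mul_left w
  have := Int.prime_two.dvd_of_dvd_pow h2dvd
  rw [dvd_neg] at this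
  rcases Int.prime_two.dvd_or_dvd this with h | h
  · omega
  · exact hu h

end Fermat.Agent.Eisenstein.Two
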