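import Fermat.Agent.Eisenstein.PrimeThree
import Fermat.Agent.Eisenstein.PrimeTwo
import Fermat.Agent.Eisenstein.EisensteinE
import Fermat.Agent.Periods.Dimension
import Fermat.Prelude.Def_ModularCurve_ModularUnit

/-!
The upper bound: an integral cusp form of level `p` congruent to the Eisenstein series modulo `m`
forces `m` to divide the numerator of `(p - 1) / 12`.
-/

set_option autoImplicit false

noncomputable section

open UpperHalfPlane ModularForm CongruenceSubgroup
open scoped MatrixGroups ModularForm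

namespace Fermat.Agent.Eisenstein

theorem ellipticCounts :
    (ModularCurve.nuTwo 2 = 1 ∧ ModularCurve.nuThree 2 = 0) ∧
      (ModularCurve.nuTwo 3 = 0 ∧ ModularCurve.nuThree 3 = 1) ∧
        (ModularCurve.nuTwo 5 = 2 ∧ ModularCurve.nuThree 5 = 0) := by
  simp only [ModularCurve.nuTwo, ModularCurve.nuThree, Nat.card_eq_fintype_card]
  decide

/-- There are no cusp forms of weight two and level `2`, `3` or `5`. -/
theorem cuspForm_eq_zero_of_le_five {p : ℕ} (hp : p.Prime) (h5 : p ≤ 5)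
    (f : CuspForm (Gamma0 p) 2) : f = 0 := by
  have : NeZero p := ⟨hp.ne_zero⟩
  have hcases : p = 2 ∨ p = 3 ∨ p = 5 := by
    rcases (show p = 2 ∨ p = 3 ∨ p = 4 ∨ p = 5 by have := hp.two_le; omega) with h | h | h | h
    · exact .inl h
    · exact .inr (.inl h)
    · exact absurd (h ▸ hp) (by norm_num)
    · exact .inr (.inr h)
  have h0 := Periods.finrank_cuspForm_eq_genusFormula p
  have := Periods.finite_cuspForm_two p
  have hg : ModularCurve.genusFormula p = 0 := by
    simp only [ModularCurve.genusFormula, ModularCurve.cuspCount, ModularCurve.dedekindPsi]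
    rw [Finset.sum_filter, hp.divisors, Finset.sum_pair (Ne.symm hp.ne_one),
      Finset.sum_pair (Ne.symm hp.ne_one), if_pos squarefree_one, if_pos hp.squarefree]
    obtain ⟨⟨a2, b2⟩, ⟨a3, b3⟩, ⟨a5, b5⟩⟩ := ellipticCounts
    rcases hcases with rfl | rfl | rfl
    · rw [a2, b2]; norm_num
    · rw [a3, b3]; norm_num
    · rw [a5, b5]; norm_num
  rw [hg, Nat.cast_eq_zero, Module.finrank_zero_iff] at h0
  exact Subsingleton.elim _ _

theorem dvd_of_dvd_mul_twelve {x n : ℕ} {a b : ℕ} (hab : a * b = 12) (hx : Nat.Coprime x b)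
    (ha : 0 < a) (h : a * x ∣ n * 12) : x ∣ n := by
  rw [← hab, show n * (a * b) = a * (n * b) by ring] at h
  exact hx.dvd_of_dvd_mul_right (Nat.dvd_of_mul_dvd_mul_left ha h)

/-- An integral cusp form congruent to the Eisenstein series modulo `m` forces `m ∣ n`. -/
theorem eisenstein_congruence_bound {p : ℕ} (hp : p.Prime) {m : ℕ}
    (f : CuspForm (Gamma0 p) 2) (a : ℕ → ℤ) (hf : ∀ k, ModularFormClass.qCoeff f k = (a k : ℂ))
    (hcong : ∀ k, k ≠ 0 → (m : ℤ) ∣ a k - (sigmaPrime p k : ℤ)) :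
    m ∣ ModularCurve.eisensteinNumerator p := by
  have : NeZero p := ⟨hp.ne_zero⟩
  have hΓ := one_mem_strictPeriods_Gamma0' p
  by_cases h5 : p ≤ 5
  · have ha1 : a 1 = 0 := by
      have h := hf 1
      rw [cuspForm_eq_zero_of_le_five hp h5 f] at h
      simpa [ModularFormClass.qCoeff, UpperHalfPlane.qExpansion_zero] using h.symm
    have h1 := hcong 1 one_ne_zero
    rw [ha1, show sigmaPrime p 1 = 1 by
      simp [sigmaPrime, Finset.filter_singleton, hp.ne_one]] at h1
    have : m = 1 := Nat.dvd_one.mp (Int.natCast_dvd_natCast.mp (by simpa using h1))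
    exact this ▸ one_dvd _
  have h7 : 7 ≤ p := by
    rcases (show p = 6 ∨ 7 ≤ p by omega) with rfl | h
    · exact absurd hp (by norm_num)
    · exact h
  have ha0 : a 0 = 0 := by
    have h := hf 0
    rw [ModularFormClass.qCoeff,
      CuspFormClass.qExpansion_coeff_zero f one_pos hΓ] at h
    exact_mod_cast h.symm
  -- the congruence to a constant modulo `24 m`
  set P : PowerSeries ℤ := PowerSeries.mk fun k =>
    (if k = 0 then (p : ℤ) - 1 else 24 * (sigmaPrime p k : ℤ)) - 24 * a k with hP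
  have hE : IntQ (eisForm hp) (PowerSeries.mk fun k =>
      if k = 0 then (p : ℤ) - 1 else 24 * (sigmaPrime p k : ℤ)) :=
    IntQ.of_qCoeff hΓ (eisForm hp) fun k => by
      rw [qCoeff_eisForm, eisCoeff, PowerSeries.coeff_mk]
      split_ifs <;> push_cast <;> rfl
  have hF : IntQ f (PowerSeries.mk a) :=
    IntQ.of_qCoeff hΓ f fun k => by rw [hf, PowerSeries.coeff_mk]
  let M : ConstCongr p (24 * m) ((p : ℤ) - 1) :=
  { form := eisForm hp - (24 : ℂ) • (f : ModularForm (Gamma0 p) 2)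
    ser := P
    intQ := by
      have e : P = (PowerSeries.mk fun k =>
          if k = 0 then (p : ℤ) - 1 else 24 * (sigmaPrime p k : ℤ)) -
          PowerSeries.C 24 * PowerSeries.mk a := by
        ext k
        rw [hP, map_sub, PowerSeries.coeff_mk, PowerSeries.coeff_mk, PowerSeries.coeff_C_mul,
          PowerSeries.coeff_mk]
      rw [e]
      exact (hE.sub (hF.smul 24)).congr fun τ => by simp
    congr := by
      ext k
      rw [PowerSeries.coeff_map, PowerSeries.coeff_map, hP, PowerSeries.coeff_mk,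
        PowerSeries.coeff_C, eq_intCast, eq_intCast, ← sub_eq_zero, ← Int.cast_sub,
        ZMod.intCast_zmod_eq_zero_iff_dvd]
      rcases eq_or_ne k 0 with rfl | hk
      · simp [ha0]
      · rw [if_neg hk, if_neg hk]
        obtain ⟨u, hu⟩ := hcong k hk
        exact ⟨-u, by push_cast; linear_combination (-24 : ℤ) * hu⟩ }
  have hp2 : p ≠ 2 := by omega
  obtain ⟨d, rfl⟩ : ∃ d, p = d + 1 := ⟨p - 1, by omega⟩
  have hd : 0 < d := by omega
  have hcastd : ((d + 1 : ℕ) : ℤ) - 1 = (d : ℤ) := by push_cast; ring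
  set n := ModularCurve.eisensteinNumerator (d + 1) with hn
  have hn12 : d ∣ n * 12 := by
    rw [hn, ModularCurve.eisensteinNumerator, Nat.add_sub_cancel]
    calc d = d / Nat.gcd d 12 * Nat.gcd d 12 := (Nat.div_mul_cancel (Nat.gcd_dvd_left _ _)).symm
      _ ∣ d / Nat.gcd d 12 * 12 := Nat.mul_dvd_mul_left _ (Nat.gcd_dvd_right _ _)
  refine (Nat.dvd_iff_prime_pow_dvd_dvd _ _).mpr fun ℓ k hℓ hk => ?_
  rcases Nat.eq_zero_or_pos k with rfl | hk1
  · exact one_dvd _
  have hlm : ℓ ∣ m := (dvd_pow_self ℓ hk1.ne').trans hk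
  have hlp : ℓ ≠ d + 1 := by
    rintro rfl
    have h := (M.ofDvd (dvd_mul_of_dvd_right hlm 24)).dvd_of_eisenstein hp hp2
    rw [hcastd] at h
    have hP' := Nat.prime_iff_prime_int.mp hp
    rcases hP'.dvd_or_dvd h with h | h
    · rcases hP'.dvd_or_dvd h with h | h
      · have h : d + 1 ∣ 5760 := by exact_mod_cast h
        have h5760 : d + 1 ∣ 2 ^ 7 * (3 ^ 2 * 5) := h
        rcases hp.dvd_mul.mp h5760 with h | h
        · have := Nat.le_of_dvd (by norm_num) (hp.dvd_of_dvd_pow h); omega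
        · rcases hp.dvd_mul.mp h with h | h
          · have := Nat.le_of_dvd (by norm_num) (hp.dvd_of_dvd_pow h); omega
          · have := Nat.le_of_dvd (by norm_num) h; omega
      · have h : d + 1 ∣ d := by exact_mod_cast h
        have := Nat.le_of_dvd hd h
        omega
    · have h1 : ((d + 1 : ℕ) : ℤ) ∣ 1 := by
        have := dvd_sub h (dvd_pow_self ((d + 1 : ℕ) : ℤ) (three_ne_zero (α := ℕ)))
        simpa using this
      exact hP'.not_isUnit (isUnit_of_dvd_one h1)
  have hcop : Nat.Coprime (ℓ ^ k * 24) ((d + 1) ^ 11) := by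
    refine Nat.Coprime.pow_right _ (Nat.Coprime.mul_left (Nat.Coprime.pow_left _
      ((Nat.coprime_primes hℓ hp).mpr hlp)) ?_)
    rw [show (24 : ℕ) = 2 ^ 3 * 3 from rfl]
    exact Nat.Coprime.mul_left
      (Nat.Coprime.pow_left _ ((Nat.coprime_primes Nat.prime_two hp).mpr (by omega)))
      ((Nat.coprime_primes Nat.prime_three hp).mpr (by omega))
  have hkey : ℓ ^ k * 24 ∣ d * (d + 2) := by
    have hkm : ℓ ^ k * 24 ∣ 24 * m := by rw [mul_comm 24 m]; exact Nat.mul_dvd_mul_right hk 24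
    have h := (M.ofDvd hkm).dvd_of_discriminant hp
    rw [hcastd] at h
    have h' : ℓ ^ k * 24 ∣ d * (d + 1) ^ 11 * (1 + (d + 1)) := by exact_mod_cast h
    rw [show d * (d + 1) ^ 11 * (1 + (d + 1)) = (d + 1) ^ 11 * (d * (d + 2)) by ring] at h'
    exact hcop.dvd_of_dvd_mul_left h'
  rcases (show ℓ = 2 ∨ ℓ = 3 ∨ 5 ≤ ℓ by
    have := hℓ.two_le
    by_contra hc
    exact absurd (show ℓ = 4 by omega) fun h4 => by subst h4; norm_num at hℓ) with rfl | rfl | hl5
  · -- `ℓ = 2`
    have hodd : ¬ 2 ∣ d + 1 := fun h =>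
      hp2 ((Nat.prime_dvd_prime_iff_eq Nat.prime_two hp).mp h).symm
    have h8 : 2 ^ (k + 3) ∣ d * (d + 2) := (Dvd.intro 3 (by ring)).trans hkey
    rcases (show d % 4 = 0 ∨ d % 4 = 2 by omega) with h4 | h4
    · obtain ⟨u, hu⟩ : 2 ∣ d + 2 := by omega
      have hcu : Nat.Coprime (2 ^ (k + 2)) u :=
        Nat.Coprime.pow_left _ (Nat.coprime_two_left.mpr (Nat.odd_iff.mpr (by omega)))
      rw [hu, show d * (2 * u) = 2 * (d * u) by ring, show k + 3 = (k + 2) + 1 from rfl,
        pow_succ'] at h8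
      have hdk : 2 ^ (k + 2) ∣ n * 12 :=
        (hcu.dvd_of_dvd_mul_right (Nat.dvd_of_mul_dvd_mul_left two_pos h8)).trans hn12
      refine dvd_of_dvd_mul_twelve (a := 4) (b := 3) rfl (Nat.Coprime.pow_left _ (by norm_num))
        (by norm_num) ?_
      rwa [show 4 * 2 ^ k = 2 ^ (k + 2) by ring]
    · exfalso
      have h16 : 16 ∣ d * (d + 2) :=
        (show 16 ∣ 2 ^ (k + 3) from pow_dvd_pow 2 (show 4 ≤ k + 3 by omega)).trans h8
      obtain ⟨u, hu⟩ : 2 ∣ d := by omega
      rw [hu, mul_assoc] at h16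
      have h8' : 8 ∣ u * (2 * u + 2) :=
        Nat.dvd_of_mul_dvd_mul_left two_pos (by rwa [show 2 * 8 = 16 from rfl])
      have hcu : Nat.Coprime (2 ^ 3) u :=
        Nat.Coprime.pow_left _ (Nat.coprime_two_left.mpr (Nat.odd_iff.mpr (by omega)))
      have h8'' : 8 ∣ 2 * u + 2 := hcu.dvd_of_dvd_mul_left h8'
      refine Two.not_constCongr_sixteen hp (by omega) (c := ((d + 1 : ℕ) : ℤ) - 1)
        (by omega) (by omega) (M.ofDvd ?_)
      obtain ⟨v, hv⟩ := hlm
      exact ⟨3 * v, by rw [hv]; ring⟩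
  · -- `ℓ = 3`
    have h9 : 3 ^ (k + 1) ∣ d * (d + 2) := (Dvd.intro 8 (by ring)).trans hkey
    have h3p : ¬ 3 ∣ d + 1 := fun h =>
      absurd ((Nat.prime_dvd_prime_iff_eq Nat.prime_three hp).mp h) (by omega)
    rcases (show d % 3 = 0 ∨ d % 3 = 1 by omega) with h3 | h3
    · have hcu : Nat.Coprime (3 ^ (k + 1)) (d + 2) :=
        Nat.Coprime.pow_left _ ((Nat.Prime.coprime_iff_not_dvd Nat.prime_three).mpr (by omega))
      have hdk : 3 ^ (k + 1) ∣ n * 12 := (hcu.dvd_of_dvd_mul_right h9).trans hn12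
      refine dvd_of_dvd_mul_twelve (a := 3) (b := 4) rfl (Nat.Coprime.pow_left _ (by norm_num))
        (by norm_num) ?_
      rwa [← pow_succ']
    · exfalso
      have h9' : 3 ^ 2 ∣ d + 2 :=
        (Nat.Coprime.pow_left 2 ((Nat.Prime.coprime_iff_not_dvd Nat.prime_three).mpr
          (show ¬ 3 ∣ d by omega))).dvd_of_dvd_mul_left
          ((pow_dvd_pow 3 (show 2 ≤ k + 1 by omega)).trans h9)
      refine not_constCongr_nine hp (by omega) (c := ((d + 1 : ℕ) : ℤ) - 1) (by omega)
        (M.ofDvd ?_)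
      obtain ⟨v, hv⟩ := hlm
      exact ⟨8 * v, by rw [hv]; ring⟩
  · -- `ℓ ≥ 5`
    have : Fact ℓ.Prime := ⟨hℓ⟩
    have hnot : ¬ ℓ ∣ d + 2 := fun h => by
      refine not_constCongr_of_dvd_succ hp hl5 h (c := ((d + 1 : ℕ) : ℤ) - 1) ?_
        (M.ofDvd (dvd_mul_of_dvd_right hlm 24))
      rw [hcastd, Int.natCast_dvd_natCast]
      intro h'
      have := Nat.le_of_dvd two_pos ((Nat.dvd_add_right h').mp h)
      omega
    have hdk : ℓ ^ k ∣ n * 12 :=
      ((Nat.Coprime.pow_left _ ((Nat.Prime.coprime_iff_not_dvd hℓ).mpr hnot)).dvd_of_dvd_mul_right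
        ((dvd_mul_right _ 24).trans hkey)).trans hn12
    refine dvd_of_dvd_mul_twelve (a := 1) (b := 12) rfl (Nat.Coprime.pow_left _ ?_) one_pos
      (by rwa [one_mul])
    rw [show (12 : ℕ) = 2 ^ 2 * 3 from rfl]
    exact Nat.Coprime.mul_right
      (Nat.Coprime.pow_right _ ((Nat.coprime_primes hℓ Nat.prime_two).mpr (by omega)))
      ((Nat.coprime_primes hℓ Nat.prime_three).mpr (by omega))

end Fermat.Agent.Eisenstein
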